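import Mathlib

/-!
# R4 / (A3-a): the Boston-Lenstra-Ribet algebra lemma (helper55)

`k` a field, `R` a `k`-algebra in which every element satisfies a quadratic relation
`a * a - T a • a + D a • 1 = 0` with a `k`-LINEAR form `T`.  If `φ : R →ₐ[k] M₂(k)` is surjective
and compatible with the traces (`tr (φ a) = T a`), then `φ` is injective (`injective_of_quadTrace`).

Proof.  Let `u ∈ ker φ`.  Then `T u = 0` and `u * u = - D u • 1 ∈ ker φ`, so `D u = 0`, `u * u = 0`.
Polarising the relation, `a * u + u * a = T a • u` for every `a`.  Take `a, b` with `φ a = E₁₂`,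
`φ b = E₂₁`: then `a u = - u a`, `b u = - u b`, hence `a b u = u a b`, and the polarised relation
for `a * b` (`T (a b) = tr E₁₁ = 1`) gives `u = u a b + u a b`.  As `(a b) ^ 2 = a b`
(`D (a b) = det E₁₁ = 0`), multiplying by `a b` gives `u a b = u a b + u a b`, so `u a b = 0` and
`u = 0`.  No assumption on the characteristic.
-/

set_option autoImplicit false

namespace Fermat.Agent.S40x.A.BLR

open Matrix

variable {k : Type*} [Field k] {R : Type*} [Ring R] [Algebra k R]

/-- the two matrix units used in the proof -/
def E12 : Matrix (Fin 2) (Fin 2) k := !![0, 1; 0, 0]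

/-- the two matrix units used in the proof -/
def E21 : Matrix (Fin 2) (Fin 2) k := !![0, 0; 1, 0]

/-- the idempotent `E₁₁ = E₁₂ E₂₁` -/
def E11 : Matrix (Fin 2) (Fin 2) k := !![1, 0; 0, 0]

theorem E12_mul_E21 : (E12 : Matrix (Fin 2) (Fin 2) k) * E21 = E11 := by
  unfold E12 E21 E11
  ext i j
  fin_cases i <;> fin_cases j <;> simp [Matrix.mul_apply, Fin.sum_univ_two]

theorem E11_mul_E11 : (E11 : Matrix (Fin 2) (Fin 2) k) * E11 = E11 := by
  unfold E11
  ext i j
  fin_cases i <;> fin_cases j <;> simp [Matrix.mul_apply, Fin.sum_univ_two]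

theorem trace_E12 : Matrix.trace (E12 : Matrix (Fin 2) (Fin 2) k) = 0 := by
  simp [E12, Matrix.trace_fin_two]

theorem trace_E21 : Matrix.trace (E21 : Matrix (Fin 2) (Fin 2) k) = 0 := by
  simp [E21, Matrix.trace_fin_two]

theorem trace_E11 : Matrix.trace (E11 : Matrix (Fin 2) (Fin 2) k) = 1 := by
  simp [E11, Matrix.trace_fin_two]

theorem smul_one_eq_zero_iff (c : k) :
    c • (1 : Matrix (Fin 2) (Fin 2) k) = 0 ↔ c = 0 := by
  constructor
  · intro h
    have := congrFun (congrFun h 0) 0
    simpa using this
  · rintro rfl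
    rw [zero_smul]

/-- **BLR algebra lemma.** -/
theorem injective_of_quadTrace (T : R →ₗ[k] k) (D : R → k)
    (hrel : ∀ a : R, a * a - T a • a + D a • (1 : R) = 0)
    (φ : R →ₐ[k] Matrix (Fin 2) (Fin 2) k) (hφ : Function.Surjective φ)
    (htr : ∀ a : R, Matrix.trace (φ a) = T a) :
    Function.Injective φ := by
  rw [injective_iff_map_eq_zero]
  intro u hu
  -- `T u = 0`
  have hTu : T u = 0 := by rw [← htr, hu, Matrix.trace_zero]
  -- `D c = 0` as soon as `φ c` satisfies `x * x = tr x • x`
  have hD0 : ∀ c : R, φ c * φ c = T c • φ c → D c = 0 := by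
    intro c hc
    have h := congrArg φ (hrel c)
    rw [map_add, map_sub, map_mul, map_smul, map_smul, map_one, map_zero, hc, sub_self,
      zero_add] at h
    exact (smul_one_eq_zero_iff _).mp h
  have hDu : D u = 0 := hD0 u (by rw [hu, mul_zero, smul_zero])
  -- polarisation: `a * u + u * a = T a • u`
  have hpol : ∀ a : R, a * u + u * a = T a • u := by
    intro a
    have h1 := hrel (a + u)
    have h2 := hrel a
    have h3 := hrel u
    rw [hTu, hDu, zero_smul, zero_smul, sub_zero, add_zero] at h3
    -- `(a+u)^2 - T(a+u)(a+u) + D(a+u) = 0`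
    have hT : T (a + u) = T a := by rw [map_add, hTu, add_zero]
    rw [hT] at h1
    -- the scalar `D (a + u) - D a` vanishes (apply `φ`)
    have hB : D (a + u) = D a := by
      have e1 := congrArg φ h1
      have e2 := congrArg φ h2
      rw [map_add, map_sub, map_mul, map_smul, map_smul, map_one, map_zero, map_add, hu,
        add_zero] at e1
      rw [map_add, map_sub, map_mul, map_smul, map_smul, map_one, map_zero] at e2
      have e3 : (D (a + u) - D a) • (1 : Matrix (Fin 2) (Fin 2) k) = 0 := by
        rw [sub_smul]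
        have : D (a + u) • (1 : Matrix (Fin 2) (Fin 2) k)
            = -(φ a * φ a - T a • φ a) := eq_neg_of_add_eq_zero_right e1
        have h' : D a • (1 : Matrix (Fin 2) (Fin 2) k)
            = -(φ a * φ a - T a • φ a) := eq_neg_of_add_eq_zero_right e2
        rw [this, h', sub_self]
      exact sub_eq_zero.mp ((smul_one_eq_zero_iff _).mp e3)
    rw [hB] at h1
    have : a * u + u * a - T a • u
        = ((a + u) * (a + u) - T a • (a + u) + D a • (1 : R))
          - (a * a - T a • a + D a • (1 : R)) - u * u := by
      rw [smul_add]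
      noncomm_ring
    rw [h1, h2, h3, sub_zero, sub_zero] at this
    exact sub_eq_zero.mp this
  obtain ⟨a, ha⟩ := hφ E12
  obtain ⟨b, hb⟩ := hφ E21
  have hTa : T a = 0 := by rw [← htr, ha, trace_E12]
  have hTb : T b = 0 := by rw [← htr, hb, trace_E21]
  have hab : φ (a * b) = E11 := by rw [map_mul, ha, hb, E12_mul_E21]
  have hTab : T (a * b) = 1 := by rw [← htr, hab, trace_E11]
  have hau : a * u = - (u * a) := by
    have := hpol a
    rw [hTa, zero_smul] at this
    exact eq_neg_of_add_eq_zero_left this
  have hbu : b * u = - (u * b) := by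
    have := hpol b
    rw [hTb, zero_smul] at this
    exact eq_neg_of_add_eq_zero_left this
  have habu : a * b * u = u * (a * b) := by
    rw [mul_assoc, hbu, mul_neg, ← mul_assoc, hau, neg_mul, neg_neg, mul_assoc]
  have hu2 : u = u * (a * b) + u * (a * b) := by
    have := hpol (a * b)
    rw [hTab, one_smul, habu] at this
    exact this.symm
  -- `(a b)^2 = a b`
  have hDab : D (a * b) = 0 := hD0 (a * b) (by rw [hab, E11_mul_E11, hTab, one_smul])
  have hidem : a * b * (a * b) = a * b := by
    have := hrel (a * b)
    rw [hTab, hDab, one_smul, zero_smul, add_zero] at this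
    exact sub_eq_zero.mp this
  have h3 : u * (a * b) = u * (a * b) + u * (a * b) := by
    have := congrArg (fun x => x * (a * b)) hu2
    simp only [add_mul] at this
    rw [mul_assoc, hidem] at this
    exact this
  have h4 : u * (a * b) = 0 := by
    have := h3
    nth_rewrite 1 [← add_zero (u * (a * b))] at this
    exact (add_left_cancel this).symm
  rw [hu2, h4, add_zero]

end Fermat.Agent.S40x.A.BLR
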