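import Mathlib
import Fermat.Agent.S40x.A.BLR

/-!
# R4 / (A3-b): modules satisfying the Cayley-Hamilton relations of an absolutely irreducible
two-dimensional representation (helper55)

`k` a field, `G` a group, `ρ : G →* M₂(k)` with `span_k ρ(G) = M₂(k)` (absolute irreducibility, in
Burnside's form), `Y` a `k`-vector space with a linear action `σ` of `G` such that

  `σ g * σ g - tr (ρ g) • σ g + det (ρ g) • 1 = 0`   for ALL `g : G`.

Then

* `sigAlg_eq_zero_of_rhoAlg_eq_zero` : a linear combination of group elements acting as `0` through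
  `ρ` acts as `0` on `Y` (BLR: `k[G] / (Cayley-Hamilton relations) = M₂(k)`);
* `exists_equivariant_embedding` : if `Y ≠ 0` there is an injective `k`-linear `G`-equivariant map
  from the standard module `k²` (with `G` acting through `ρ`) to `Y`.
-/

set_option autoImplicit false

noncomputable section

namespace Fermat.Agent.S40x.A.CHModule

open Matrix Fermat.Agent.S40x.A.BLR

variable {k : Type*} [Field k] {G : Type*} [Group G]
  {Y : Type*} [AddCommGroup Y] [Module k Y]
  (ρ : G →* Matrix (Fin 2) (Fin 2) k) (σ : G →* Module.End k Y)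

/-- the linear extension of `ρ` to the group algebra -/
def rhoAlg : MonoidAlgebra k G →ₐ[k] Matrix (Fin 2) (Fin 2) k :=
  MonoidAlgebra.lift k (Matrix (Fin 2) (Fin 2) k) G ρ

/-- the linear extension of `σ` to the group algebra -/
def sigAlg : MonoidAlgebra k G →ₐ[k] Module.End k Y :=
  MonoidAlgebra.lift k (Module.End k Y) G σ

theorem rhoAlg_of (g : G) : rhoAlg ρ (MonoidAlgebra.of k G g) = ρ g :=
  MonoidAlgebra.lift_of ρ g

theorem sigAlg_of (g : G) : sigAlg σ (MonoidAlgebra.of k G g) = σ g :=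
  MonoidAlgebra.lift_of σ g

/-- the polarised Cayley-Hamilton expression -/
def pol (a b : MonoidAlgebra k G) : Module.End k Y :=
  sigAlg σ a * sigAlg σ b + sigAlg σ b * sigAlg σ a
    - (rhoAlg ρ a).trace • sigAlg σ b - (rhoAlg ρ b).trace • sigAlg σ a
    + ((rhoAlg ρ a).trace * (rhoAlg ρ b).trace - (rhoAlg ρ a * rhoAlg ρ b).trace) • 1

/-- the Cayley-Hamilton expression -/
def quad (a : MonoidAlgebra k G) : Module.End k Y :=
  sigAlg σ a * sigAlg σ a - (rhoAlg ρ a).trace • sigAlg σ a + (rhoAlg ρ a).det • 1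

theorem det_add_fin_two (x y : Matrix (Fin 2) (Fin 2) k) :
    (x + y).det = x.det + y.det + (x.trace * y.trace - (x * y).trace) := by
  rw [Matrix.det_fin_two, Matrix.det_fin_two, Matrix.det_fin_two, Matrix.trace_fin_two,
    Matrix.trace_fin_two, Matrix.trace_fin_two]
  simp only [Matrix.add_apply, Matrix.mul_apply, Fin.sum_univ_two]
  ring

theorem cayleyHamilton_fin_two (x : Matrix (Fin 2) (Fin 2) k) :
    x * x - x.trace • x + x.det • (1 : Matrix (Fin 2) (Fin 2) k) = 0 := by
  ext i j
  fin_cases i <;> fin_cases j <;>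
    simp [Matrix.mul_apply, Fin.sum_univ_two, Matrix.det_fin_two, Matrix.trace_fin_two] <;> ring

theorem quad_add (a b : MonoidAlgebra k G) :
    quad ρ σ (a + b) = quad ρ σ a + quad ρ σ b + pol ρ σ a b := by
  unfold quad pol
  rw [map_add, map_add, Matrix.trace_add, det_add_fin_two]
  simp only [add_mul, mul_add]
  module

theorem quad_smul (c : k) (a : MonoidAlgebra k G) :
    quad ρ σ (c • a) = (c * c) • quad ρ σ a := by
  unfold quad
  rw [map_smul, map_smul, Matrix.trace_smul, Matrix.det_smul, Fintype.card_fin]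
  simp only [smul_eq_mul, smul_mul_assoc, mul_smul_comm]
  module

theorem pol_add_left (a a' b : MonoidAlgebra k G) :
    pol ρ σ (a + a') b = pol ρ σ a b + pol ρ σ a' b := by
  unfold pol
  rw [map_add, map_add, Matrix.trace_add, add_mul (rhoAlg ρ a), Matrix.trace_add]
  simp only [add_mul, mul_add]
  module

theorem pol_smul_left (c : k) (a b : MonoidAlgebra k G) :
    pol ρ σ (c • a) b = c • pol ρ σ a b := by
  unfold pol
  simp only [map_smul, smul_eq_mul, smul_mul_assoc, mul_smul_comm, Matrix.trace_smul]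
  module

theorem pol_comm (a b : MonoidAlgebra k G) : pol ρ σ a b = pol ρ σ b a := by
  unfold pol
  rw [Matrix.trace_mul_comm (rhoAlg ρ a)]
  module

variable (hCH : ∀ g : G, σ g * σ g - (ρ g).trace • σ g + (ρ g).det • (1 : Module.End k Y) = 0)

include hCH in
theorem quad_of (g : G) : quad ρ σ (MonoidAlgebra.of k G g) = 0 := by
  unfold quad
  rw [sigAlg_of, rhoAlg_of]
  exact hCH g

theorem det_ne_zero (g : G) : (ρ g).det ≠ 0 := by
  intro h
  have h1 : ρ g * ρ g⁻¹ = 1 := by rw [← map_mul, mul_inv_cancel, map_one]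
  have h2 := congrArg Matrix.det h1
  rw [Matrix.det_mul, h, zero_mul, Matrix.det_one] at h2
  exact zero_ne_one h2

include hCH in
/-- the polarised relation for two group elements -/
theorem pol_of (g h : G) :
    pol ρ σ (MonoidAlgebra.of k G g) (MonoidAlgebra.of k G h) = 0 := by
  unfold pol
  rw [sigAlg_of, sigAlg_of, rhoAlg_of, rhoAlg_of]
  set x := σ g with hx
  set y := σ h with hy
  set tg := (ρ g).trace
  set th := (ρ h).trace
  set dg := (ρ g).det with hdg
  set dh := (ρ h).det with hdh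
  have hxi : x * σ g⁻¹ = 1 := by rw [hx, ← map_mul, mul_inv_cancel, map_one]
  have hxi' : σ g⁻¹ * x = 1 := by rw [hx, ← map_mul, inv_mul_cancel, map_one]
  have hyi : y * σ h⁻¹ = 1 := by rw [hy, ← map_mul, mul_inv_cancel, map_one]
  -- `dg • x⁻¹ = tg - x`
  have e1 : dg • σ g⁻¹ = tg • 1 - x := by
    have h0 := hCH g
    have : σ g⁻¹ * (x * x - tg • x + dg • (1 : Module.End k Y)) = 0 := by
      rw [h0, mul_zero]
    rw [mul_add, mul_sub, ← mul_assoc, hxi', one_mul, mul_smul_comm, hxi', mul_smul_comm,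
      mul_one] at this
    have h3 : dg • σ g⁻¹ = -(x - tg • (1 : Module.End k Y)) := eq_neg_of_add_eq_zero_right this
    rw [h3]
    abel
  have e2 : dh • σ h⁻¹ = th • 1 - y := by
    have h0 := hCH h
    have : (y * y - th • y + dh • (1 : Module.End k Y)) * σ h⁻¹ = 0 := by
      rw [h0, zero_mul]
    rw [add_mul, sub_mul, mul_assoc, hyi, mul_one, smul_mul_assoc, hyi, smul_mul_assoc,
      one_mul] at this
    have h3 : dh • σ h⁻¹ = -(y - th • (1 : Module.End k Y)) := eq_neg_of_add_eq_zero_right this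
    rw [h3]
    abel
  -- the relation for `g * h`
  have e3 := hCH (g * h)
  rw [map_mul σ, map_mul ρ, Matrix.det_mul] at e3
  -- multiply by `x⁻¹` on the left and `y⁻¹` on the right
  have e4 : y * x - (ρ g * ρ h).trace • (1 : Module.End k Y)
      + (dg • σ g⁻¹) * (dh • σ h⁻¹) = 0 := by
    have : σ g⁻¹ * (x * y * (x * y) - (ρ g * ρ h).trace • (x * y)
        + (dg * dh) • (1 : Module.End k Y)) * σ h⁻¹ = 0 := by
      rw [← hx, ← hy] at e3
      rw [e3, mul_zero, zero_mul]
    have e5 : σ g⁻¹ * (x * y * (x * y) - (ρ g * ρ h).trace • (x * y)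
        + (dg * dh) • (1 : Module.End k Y)) * σ h⁻¹
        = (σ g⁻¹ * x) * y * x * (y * σ h⁻¹)
          - (ρ g * ρ h).trace • ((σ g⁻¹ * x) * (y * σ h⁻¹))
          + (dg • σ g⁻¹) * (dh • σ h⁻¹) := by
      simp only [mul_add, mul_sub, add_mul, sub_mul, mul_smul_comm, smul_mul_assoc, mul_one,
        mul_assoc, smul_smul]
      congr 1
      rw [mul_comm dg dh]
    rw [e5, hxi', hyi, one_mul, mul_one, mul_one] at this
    exact this
  rw [e1, e2] at e4
  have : x * y + y * x - tg • y - th • x + (tg * th - (ρ g * ρ h).trace) • (1 : Module.End k Y)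
      = y * x - (ρ g * ρ h).trace • (1 : Module.End k Y) + (tg • 1 - x) * (th • 1 - y) := by
    simp only [sub_mul, mul_sub, smul_mul_assoc, mul_smul_comm, one_mul, mul_one]
    module
  rw [this]
  exact e4

include hCH in
theorem pol_eq_zero (a b : MonoidAlgebra k G) : pol ρ σ a b = 0 := by
  induction a using MonoidAlgebra.induction_on with
  | of g =>
    induction b using MonoidAlgebra.induction_on with
    | of h => exact pol_of ρ σ hCH g h
    | add b b' hb hb' =>
      rw [pol_comm, pol_add_left, pol_comm, hb, pol_comm ρ σ b', hb', add_zero]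
    | smul c b hb => rw [pol_comm, pol_smul_left, pol_comm, hb, smul_zero]
  | add a a' ha ha' => rw [pol_add_left, ha, ha', add_zero]
  | smul c a ha => rw [pol_smul_left, ha, smul_zero]

include hCH in
/-- **the Cayley-Hamilton relation on the whole group algebra.** -/
theorem quad_eq_zero (a : MonoidAlgebra k G) : quad ρ σ a = 0 := by
  induction a using MonoidAlgebra.induction_on with
  | of g => exact quad_of ρ σ hCH g
  | add a b ha hb => rw [quad_add, ha, hb, pol_eq_zero ρ σ hCH, add_zero, add_zero]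
  | smul c a ha => rw [quad_smul, ha, smul_zero]

/-! ### The kernel lemma (BLR) -/

/-- the product map `k[G] → End(Y) × M₂(k)` -/
def prodAlg : MonoidAlgebra k G →ₐ[k] (Module.End k Y × Matrix (Fin 2) (Fin 2) k) :=
  AlgHom.prod (sigAlg σ) (rhoAlg ρ)

theorem prodAlg_apply (a : MonoidAlgebra k G) : prodAlg ρ σ a = (sigAlg σ a, rhoAlg ρ a) := rfl

variable (hspan : Function.Surjective (rhoAlg ρ))

include hCH hspan in
/-- **kernel lemma**: a combination of group elements acting as `0` through `ρ` acts as `0` on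
`Y`. -/
theorem sigAlg_eq_zero_of_rhoAlg_eq_zero (a : MonoidAlgebra k G) (ha : rhoAlg ρ a = 0) :
    sigAlg σ a = 0 := by
  set R := (prodAlg ρ σ).range with hR
  -- the second projection on `R`
  let φ : R →ₐ[k] Matrix (Fin 2) (Fin 2) k :=
    (AlgHom.snd k (Module.End k Y) (Matrix (Fin 2) (Fin 2) k)).comp R.val
  have hφ : ∀ r : R, φ r = (r : Module.End k Y × Matrix (Fin 2) (Fin 2) k).2 := fun r => rfl
  let T : R →ₗ[k] k := (Matrix.traceLinearMap (Fin 2) k k).comp φ.toLinearMap
  have hT : ∀ r : R, T r = (φ r).trace := fun r => rfl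
  have hinj : Function.Injective φ := by
    refine injective_of_quadTrace T (fun r => (φ r).det) ?_ φ ?_ (fun r => (hT r).symm)
    · rintro ⟨r, b, rfl⟩
      apply Subtype.ext
      rw [hT, hφ]
      apply Prod.ext
      · have := quad_eq_zero ρ σ hCH b
        unfold quad at this
        exact this
      · exact cayleyHamilton_fin_two (rhoAlg ρ b)
    · intro m
      obtain ⟨b, hb⟩ := hspan m
      exact ⟨⟨prodAlg ρ σ b, b, rfl⟩, hb⟩
  have h0 : (⟨prodAlg ρ σ a, a, rfl⟩ : R) = 0 := by
    apply hinj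
    rw [map_zero, hφ]
    exact ha
  have := congrArg (fun r : R => (r : Module.End k Y × Matrix (Fin 2) (Fin 2) k).1) h0
  exact this

include hCH hspan in
theorem ker_rhoAlg_le :
    RingHom.ker (rhoAlg ρ).toRingHom ≤ RingHom.ker (sigAlg σ).toRingHom := fun a ha =>
  sigAlg_eq_zero_of_rhoAlg_eq_zero ρ σ hCH hspan a ha

/-- the action of `M₂(k)` on `Y` -/
def psi : Matrix (Fin 2) (Fin 2) k →+* Module.End k Y :=
  RingHom.liftOfSurjective (rhoAlg ρ).toRingHom hspan
    ⟨(sigAlg σ).toRingHom, ker_rhoAlg_le ρ σ hCH hspan⟩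

theorem psi_rhoAlg (a : MonoidAlgebra k G) :
    psi ρ σ hCH hspan (rhoAlg ρ a) = sigAlg σ a :=
  RingHom.liftOfSurjective_comp_apply (rhoAlg ρ).toRingHom hspan
    ⟨(sigAlg σ).toRingHom, ker_rhoAlg_le ρ σ hCH hspan⟩ a

theorem psi_rho (g : G) : psi ρ σ hCH hspan (ρ g) = σ g := by
  rw [← rhoAlg_of ρ g, psi_rhoAlg, sigAlg_of]

theorem psi_smul (c : k) (m : Matrix (Fin 2) (Fin 2) k) :
    psi ρ σ hCH hspan (c • m) = c • psi ρ σ hCH hspan m := by
  obtain ⟨a, rfl⟩ := hspan m
  rw [← map_smul, psi_rhoAlg, psi_rhoAlg, map_smul]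

/-! ### The standard module inside `Y` -/

/-- the matrix with first column `w` and second column `0` -/
def colMat (w : Fin 2 → k) : Matrix (Fin 2) (Fin 2) k := !![w 0, 0; w 1, 0]

theorem colMat_add (w w' : Fin 2 → k) : colMat (w + w') = colMat w + colMat w' := by
  unfold colMat
  ext i j
  fin_cases i <;> fin_cases j <;> simp

theorem colMat_smul (c : k) (w : Fin 2 → k) : colMat (c • w) = c • colMat w := by
  unfold colMat
  ext i j
  fin_cases i <;> fin_cases j <;> simp

theorem mul_colMat (m : Matrix (Fin 2) (Fin 2) k) (w : Fin 2 → k) :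
    m * colMat w = colMat (m.mulVec w) := by
  unfold colMat
  ext i j
  fin_cases i <;> fin_cases j <;> simp [Matrix.mul_apply, Matrix.mulVec, dotProduct,
    Fin.sum_univ_two]

theorem colMat_mul_E11 (w : Fin 2 → k) : colMat w * E11 = colMat w := by
  unfold colMat E11
  ext i j
  fin_cases i <;> fin_cases j <;> simp [Matrix.mul_apply, Fin.sum_univ_two]

/-- for `w ≠ 0` some matrix sends `colMat w` to `E₁₁` -/
theorem exists_mul_colMat_eq_E11 {w : Fin 2 → k} (hw : w ≠ 0) :
    ∃ c : Matrix (Fin 2) (Fin 2) k, c * colMat w = E11 := by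
  by_cases h0 : w 0 = 0
  · have h1 : w 1 ≠ 0 := by
      intro h1
      apply hw
      ext i
      fin_cases i
      · exact h0
      · exact h1
    refine ⟨!![0, (w 1)⁻¹; 0, 0], ?_⟩
    unfold colMat E11
    ext i j
    fin_cases i <;> fin_cases j <;> simp [Matrix.mul_apply, Fin.sum_univ_two, h0, h1]
  · refine ⟨!![(w 0)⁻¹, 0; 0, 0], ?_⟩
    unfold colMat E11
    ext i j
    fin_cases i <;> fin_cases j <;> simp [Matrix.mul_apply, Fin.sum_univ_two, h0]

def E22 : Matrix (Fin 2) (Fin 2) k := !![0, 0; 0, 1]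

theorem E11_add_E22 : (E11 : Matrix (Fin 2) (Fin 2) k) + E22 = 1 := by
  unfold E11 E22
  ext i j
  fin_cases i <;> fin_cases j <;> simp

theorem E21_mul_E12 : (E21 : Matrix (Fin 2) (Fin 2) k) * E12 = E22 := by
  unfold E12 E21 E22
  ext i j
  fin_cases i <;> fin_cases j <;> simp [Matrix.mul_apply, Fin.sum_univ_two]

theorem E11_mul_E12 : (E11 : Matrix (Fin 2) (Fin 2) k) * E12 = E12 := by
  unfold E11 E12
  ext i j
  fin_cases i <;> fin_cases j <;> simp [Matrix.mul_apply, Fin.sum_univ_two]

include hCH hspan in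
/-- **the standard module embeds into every nonzero module satisfying the Cayley-Hamilton
relations.** -/
theorem exists_equivariant_embedding [Nontrivial Y] :
    ∃ ι : (Fin 2 → k) →ₗ[k] Y, Function.Injective ι ∧
      ∀ (g : G) (w : Fin 2 → k), ι ((ρ g).mulVec w) = σ g (ι w) := by
  set ψ := psi ρ σ hCH hspan with hψ
  have hψ1 : ψ 1 = 1 := map_one ψ
  -- a nonzero vector fixed by `ψ E₁₁`
  obtain ⟨v, hv0, hv⟩ : ∃ v : Y, v ≠ 0 ∧ ψ E11 v = v := by
    obtain ⟨y, hy⟩ := exists_ne (0 : Y)
    by_cases h1 : ψ E11 y = 0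
    · -- then `ψ E₂₂ y = y ≠ 0`; take `v = ψ E₁₂ y`
      have h2 : ψ E22 y = y := by
        have : (ψ (E11 + E22)) y = y := by rw [E11_add_E22, hψ1]; rfl
        rw [map_add, LinearMap.add_apply, h1, zero_add] at this
        exact this
      refine ⟨ψ E12 y, ?_, ?_⟩
      · intro h3
        have : ψ E21 (ψ E12 y) = y := by
          rw [← Module.End.mul_apply, ← map_mul, E21_mul_E12, h2]
        rw [h3, map_zero] at this
        exact hy this.symm
      · rw [← Module.End.mul_apply, ← map_mul, E11_mul_E12]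
    · refine ⟨ψ E11 y, h1, ?_⟩
      rw [← Module.End.mul_apply, ← map_mul, E11_mul_E11]
  -- the embedding
  let ι : (Fin 2 → k) →ₗ[k] Y :=
    { toFun := fun w => ψ (colMat w) v
      map_add' := fun w w' => by rw [colMat_add, map_add, LinearMap.add_apply]
      map_smul' := fun c w => by
        rw [colMat_smul, hψ, psi_smul, LinearMap.smul_apply]
        rfl }
  have hι : ∀ w, ι w = ψ (colMat w) v := fun w => rfl
  refine ⟨ι, ?_, ?_⟩
  · rw [injective_iff_map_eq_zero]
    intro w hw
    by_contra hw0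
    obtain ⟨c, hc⟩ := exists_mul_colMat_eq_E11 hw0
    have : ψ E11 v = 0 := by
      rw [← hc, map_mul, Module.End.mul_apply, ← hι, hw, map_zero]
    rw [hv] at this
    exact hv0 this
  · intro g w
    rw [hι, hι, ← mul_colMat, map_mul, Module.End.mul_apply, hψ, psi_rho]

end Fermat.Agent.S40x.A.CHModule
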