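import Mathlib
import Fermat.Agent.S40x.A.CHModule

/-!
# R4 / (A3-c1): Burnside for an odd two-dimensional representation (helper55)

`ρ : G →* M₂(k)`.  If some `ρ c` is diagonal with two DISTINCT eigenvalues in `k` (complex
conjugation: eigenvalues `1, -1`, `char k ≠ 2`) and neither coordinate line is stable (some `ρ g` has
a nonzero `(0,1)` entry and some `ρ h` a nonzero `(1,0)` entry: irreducibility), then the linear
extension `k[G] → M₂(k)` is SURJECTIVE — the hypothesis `hspan` of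
`CHModule.exists_equivariant_embedding`.  In particular: irreducible + odd ⟹ absolutely irreducible.
-/

set_option autoImplicit false

noncomputable section

namespace Fermat.Agent.S40x.A.AbsIrr

open Matrix Fermat.Agent.S40x.A.BLR Fermat.Agent.S40x.A.CHModule

variable {k : Type*} [Field k] {G : Type*} [Group G]
  (ρ : G →* Matrix (Fin 2) (Fin 2) k)

theorem matrix_eq_sum (m : Matrix (Fin 2) (Fin 2) k) :
    m = m 0 0 • (E11 : Matrix (Fin 2) (Fin 2) k) + m 0 1 • E12 + m 1 0 • E21 + m 1 1 • E22 := by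
  unfold E11 E12 E21 E22
  ext i j
  fin_cases i <;> fin_cases j <;> simp

theorem E11_mul_mul_E22 (m : Matrix (Fin 2) (Fin 2) k) :
    (E11 : Matrix (Fin 2) (Fin 2) k) * m * E22 = m 0 1 • E12 := by
  unfold E11 E12 E22
  ext i j
  fin_cases i <;> fin_cases j <;>
    simp [Matrix.mul_apply, Fin.sum_univ_two, Matrix.vecMul, dotProduct]

theorem E22_mul_mul_E11 (m : Matrix (Fin 2) (Fin 2) k) :
    (E22 : Matrix (Fin 2) (Fin 2) k) * m * E11 = m 1 0 • E21 := by
  unfold E11 E21 E22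
  ext i j
  fin_cases i <;> fin_cases j <;>
    simp [Matrix.mul_apply, Fin.sum_univ_two, Matrix.vecMul, dotProduct]

/-- **Burnside in the odd case.** -/
theorem surjective_rhoAlg_of_diag (c : G) (lam mu : k) (hlm : lam ≠ mu)
    (hc : ρ c = !![lam, 0; 0, mu])
    (h01 : ∃ g : G, ρ g 0 1 ≠ 0) (h10 : ∃ g : G, ρ g 1 0 ≠ 0) :
    Function.Surjective (rhoAlg ρ) := by
  set A := (rhoAlg ρ).range with hA
  have hmem : ∀ g : G, ρ g ∈ A := fun g => ⟨MonoidAlgebra.of k G g, rhoAlg_of ρ g⟩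
  have hd : lam - mu ≠ 0 := sub_ne_zero.mpr hlm
  have h11 : (E11 : Matrix (Fin 2) (Fin 2) k) ∈ A := by
    have : (E11 : Matrix (Fin 2) (Fin 2) k) = (lam - mu)⁻¹ • (ρ c - mu • 1) := by
      rw [hc]
      unfold E11
      ext i j
      fin_cases i <;> fin_cases j <;> simp [hd]
    rw [this]
    exact A.smul_mem (A.sub_mem (hmem c) (A.smul_mem A.one_mem _)) _
  have h22 : (E22 : Matrix (Fin 2) (Fin 2) k) ∈ A := by
    have : (E22 : Matrix (Fin 2) (Fin 2) k) = 1 - E11 := by
      rw [← E11_add_E22 (k := k)]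
      abel
    rw [this]
    exact A.sub_mem A.one_mem h11
  have h12 : (E12 : Matrix (Fin 2) (Fin 2) k) ∈ A := by
    obtain ⟨g, hg⟩ := h01
    have h1 : (ρ g 0 1) • (E12 : Matrix (Fin 2) (Fin 2) k) ∈ A := by
      rw [← E11_mul_mul_E22]
      exact A.mul_mem (A.mul_mem h11 (hmem g)) h22
    have := A.smul_mem h1 (ρ g 0 1)⁻¹
    rwa [smul_smul, inv_mul_cancel₀ hg, one_smul] at this
  have h21 : (E21 : Matrix (Fin 2) (Fin 2) k) ∈ A := by
    obtain ⟨g, hg⟩ := h10
    have h1 : (ρ g 1 0) • (E21 : Matrix (Fin 2) (Fin 2) k) ∈ A := by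
      rw [← E22_mul_mul_E11]
      exact A.mul_mem (A.mul_mem h22 (hmem g)) h11
    have := A.smul_mem h1 (ρ g 1 0)⁻¹
    rwa [smul_smul, inv_mul_cancel₀ hg, one_smul] at this
  intro m
  have hm : m ∈ A := by
    rw [matrix_eq_sum m]
    exact A.add_mem (A.add_mem (A.add_mem (A.smul_mem h11 _) (A.smul_mem h12 _))
      (A.smul_mem h21 _)) (A.smul_mem h22 _)
  exact hm

end Fermat.Agent.S40x.A.AbsIrr
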