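import Mathlib
import Fermat.Agent.S40x.A.CHModule

/-!
# R4 / (A3-c2): the Cayley-Hamilton relation passes to powers (helper55)

If `x` (in any `k`-algebra) satisfies the characteristic polynomial of a `2 × 2` matrix `m`, then
`x ^ j` satisfies the characteristic polynomial of `m ^ j`.  (Needed because Frobenius density
(`FrobPowerDense`) only provides POWERS of Frobenius lifts.)  Proof: with `τ = tr m - x` one has
`x τ = det m`, and `x ^ j + τ ^ j`, `tr (m ^ j)` satisfy the same two-step recurrence.
-/

set_option autoImplicit false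

namespace Fermat.Agent.S40x.A.CHPow

open Matrix Fermat.Agent.S40x.A.CHModule

variable {k : Type*} [Field k] {E : Type*} [Ring E] [Algebra k E]

theorem matrix_sq (m : Matrix (Fin 2) (Fin 2) k) : m * m = m.trace • m - m.det • 1 := by
  have := cayleyHamilton_fin_two m
  rw [← sub_eq_zero]
  rw [← this]
  abel

theorem trace_pow_rec (m : Matrix (Fin 2) (Fin 2) k) (j : ℕ) :
    (m ^ (j + 2)).trace = m.trace * (m ^ (j + 1)).trace - m.det * (m ^ j).trace := by
  have : m ^ (j + 2) = m.trace • m ^ (j + 1) - m.det • m ^ j := by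
    rw [pow_add, pow_two, matrix_sq, mul_sub, mul_smul_comm, mul_smul_comm, mul_one, pow_succ]
  rw [this, Matrix.trace_sub, Matrix.trace_smul, Matrix.trace_smul, smul_eq_mul, smul_eq_mul]

/-- **powers.** -/
theorem quad_pow (x : E) (m : Matrix (Fin 2) (Fin 2) k)
    (h : x * x - m.trace • x + m.det • (1 : E) = 0) (j : ℕ) :
    x ^ j * x ^ j - (m ^ j).trace • x ^ j + (m ^ j).det • (1 : E) = 0 := by
  set a := m.trace with ha
  set d := m.det with hd
  set τ : E := a • 1 - x with hτ
  have hxτ : x * τ = d • 1 := by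
    rw [hτ, mul_sub, mul_smul_comm, mul_one]
    have : a • x - x * x = d • (1 : E) := by
      rw [← sub_eq_zero]
      rw [← neg_eq_zero, ← h]
      abel
    exact this
  have hτx : τ * x = d • 1 := by
    rw [hτ, sub_mul, smul_mul_assoc, one_mul]
    have : a • x - x * x = d • (1 : E) := by
      rw [← sub_eq_zero]
      rw [← neg_eq_zero, ← h]
      abel
    exact this
  have hcomm : Commute x τ := by
    show x * τ = τ * x
    rw [hxτ, hτx]
  have hsum : x + τ = a • 1 := by rw [hτ]; abel
  -- the power sums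
  have hS : ∀ j : ℕ, x ^ j + τ ^ j = (m ^ j).trace • (1 : E) ∧
      x ^ (j + 1) + τ ^ (j + 1) = (m ^ (j + 1)).trace • (1 : E) := by
    intro j
    induction j with
    | zero =>
      refine ⟨?_, ?_⟩
      · rw [pow_zero, pow_zero, pow_zero, Matrix.trace_one, Fintype.card_fin]
        rw [Nat.cast_ofNat, ← one_add_one_eq_two, add_smul, one_smul]
      · rw [zero_add, pow_one, pow_one, pow_one, hsum]
    | succ j ih =>
      refine ⟨ih.2, ?_⟩
      have e1 : x ^ (j + 1 + 1) + τ ^ (j + 1 + 1)
          = (x + τ) * (x ^ (j + 1) + τ ^ (j + 1)) - (x * τ) * (x ^ j + τ ^ j) := by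
        have c1 : τ * x ^ (j + 1) = (x * τ) * x ^ j := by
          rw [pow_succ', ← mul_assoc, hτx, hxτ]
        have c2 : x * τ ^ (j + 1) = (x * τ) * τ ^ j := by
          rw [pow_succ', ← mul_assoc]
        rw [add_mul, mul_add, mul_add, c1, c2, pow_succ' x (j + 1), pow_succ' τ (j + 1), mul_add]
        abel
      rw [e1, ih.1, ih.2, hsum, hxτ, trace_pow_rec]
      simp only [mul_smul_comm, mul_one, smul_smul, sub_smul]
      rw [mul_comm (m ^ (j + 1)).trace a, mul_comm (m ^ j).trace d]
  have hprod : τ ^ j * x ^ j = (m ^ j).det • (1 : E) := by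
    rw [← (hcomm.symm).mul_pow, hτx, Matrix.det_pow, smul_pow, one_pow]
  have h1 := (hS j).1
  have : x ^ j * x ^ j - (m ^ j).trace • x ^ j + (m ^ j).det • (1 : E)
      = x ^ j * x ^ j - ((m ^ j).trace • (1 : E)) * x ^ j + τ ^ j * x ^ j := by
    rw [hprod, smul_mul_assoc, one_mul]
  rw [this, ← h1, add_mul]
  abel

end Fermat.Agent.S40x.A.CHPow
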