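import Mathlib
import Fermat.Agent.S40x.A.CHModule
import Fermat.Agent.S40x.A.CHPow
import Fermat.Agent.Gateway.S31.Data

/-!
# R4 / (A3-c3): a copy of an absolutely irreducible mod `p` representation inside the
`θ`-eigenspace of `J₀(N)[p]` (helper55)

`D : TorsionHeckeData p N S` (level `1` of it is `X = J₀(N)[p]` with its Galois and Hecke actions and
the Eichler-Shimura relations), `θ : 𝕋 →+* ZMod p` a character, `ρ : G_ℚ →* M₂(𝔽_p)` a representation
factoring through a finite extension, whose Frobenius lifts `φ` at almost all primes `ℓ` satisfy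
`tr ρ(φ) = θ(T_ℓ)`, `det ρ(φ) = ℓ`, and with `span ρ(G_ℚ) = M₂(𝔽_p)` (absolute irreducibility).

If the eigenspace `X[θ] = {x | t x = θ(t) x}` is nonzero, it contains a `G_ℚ`-equivariant copy of
the standard module of `ρ` (`exists_copy`): Frobenius density gives the Cayley-Hamilton relations
`g² - tr ρ(g) g + det ρ(g) = 0` on `X[θ]` for ALL `g` (`CHPow.quad_pow` for the powers of Frobenius
lifts), then `CHModule.exists_equivariant_embedding` (BLR).
-/

set_option autoImplicit false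
set_option linter.unusedSectionVars false
set_option linter.style.haveILetI false

noncomputable section

namespace Fermat.Agent.S40x.A.CopyInTorsion

open Matrix Fermat.Agent.Gateway.S31Red Fermat.Agent.S40x.A.CHModule

local notation "Γℚ" => (AlgebraicClosure ℚ ≃ₐ[ℚ] AlgebraicClosure ℚ)

variable {p N : ℕ} [Fact p.Prime] [NeZero N] {S : Finset ℕ} (D : TorsionHeckeData p N S)

/-- `X = D.M 1` is killed by `p`. -/
theorem nsmul_eq_zero (x : D.M 1) : p • x = 0 := by
  have := D.pow_smul 1 x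
  rwa [pow_one] at this

/-- the `𝔽_p`-vector space structure of `X = D.M 1` -/
@[reducible] def zmodModule : Module (ZMod p) (D.M 1) :=
  AddCommGroup.zmodModule (nsmul_eq_zero D)

attribute [local instance] zmodModule

variable (θ : CuspForm.heckeAlgebra N 2 (↑S : Set ℕ) →+* ZMod p)

/-- the `θ`-eigenspace of `X` -/
def eigenspace : Submodule (ZMod p) (D.M 1) where
  carrier := {x | ∀ t, D.hecke 1 t x = θ t • x}
  add_mem' := by
    intro x y hx hy t
    rw [map_add, hx t, hy t, smul_add]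
  zero_mem' := by
    intro t
    rw [map_zero, smul_zero]
  smul_mem' := by
    intro c x hx t
    have h1 : D.hecke 1 t (c • x) = c • D.hecke 1 t x :=
      (AddMonoidHom.toZModLinearMap p (D.hecke 1 t)).map_smul c x
    rw [h1, hx t, smul_comm]

theorem mem_eigenspace {x : D.M 1} :
    x ∈ eigenspace D θ ↔ ∀ t, D.hecke 1 t x = θ t • x := Iff.rfl

theorem gal_mem_eigenspace (g : Γℚ) {x : D.M 1} (hx : x ∈ eigenspace D θ) :
    D.gal 1 g x ∈ eigenspace D θ := by
  intro t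
  have hc := D.comm 1 g t
  have h1 : D.hecke 1 t (D.gal 1 g x) = D.gal 1 g (D.hecke 1 t x) := by
    have := congrArg (fun f : AddMonoid.End (D.M 1) => f x) hc.eq
    exact this.symm
  have h2 : D.gal 1 g (θ t • x) = θ t • D.gal 1 g x :=
    (AddMonoidHom.toZModLinearMap p (D.gal 1 g)).map_smul (θ t) x
  rw [h1, hx t, h2]

/-- the Galois action on the eigenspace -/
def galEigen : Γℚ →* Module.End (ZMod p) (eigenspace D θ) where
  toFun g := (AddMonoidHom.toZModLinearMap p (D.gal 1 g)).restrict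
    (fun x hx => gal_mem_eigenspace D θ g hx)
  map_one' := by
    apply LinearMap.ext
    intro x
    apply Subtype.ext
    show D.gal 1 1 (x : D.M 1) = x
    rw [map_one]
    rfl
  map_mul' g h := by
    apply LinearMap.ext
    intro x
    apply Subtype.ext
    show D.gal 1 (g * h) (x : D.M 1) = D.gal 1 g (D.gal 1 h x)
    rw [map_mul]
    rfl

theorem coe_galEigen (g : Γℚ) (x : eigenspace D θ) :
    ((galEigen D θ g x : eigenspace D θ) : D.M 1) = D.gal 1 g x := rfl

variable (ρ : Γℚ →* Matrix (Fin 2) (Fin 2) (ZMod p))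

/-- the hypotheses on `ρ`: finite level and Frobenius traces/determinants. -/
structure FrobCompat : Prop where
  level : ∃ L : IntermediateField ℚ (AlgebraicClosure ℚ), FiniteDimensional ℚ L ∧
    ∀ σ : Γℚ, (∀ x ∈ L, σ x = x) → ρ σ = 1
  frob : ∃ bad : Finset ℕ, ∀ (ℓ : ℕ) (hℓ : ℓ.Prime) (hℓN : ¬ ℓ ∣ N) (hℓS : ℓ ∉ (↑S : Set ℕ)),
    ℓ ∉ bad → ∀ A : ValuationSubring (AlgebraicClosure ℚ), A.LiesOverPrime ℓ →
      ∀ φ : Γℚ, A.IsFrobeniusAt φ ℓ →
        (ρ φ).trace = θ (CuspForm.heckeAlgebra.T hℓ hℓN hℓS) ∧ (ρ φ).det = (ℓ : ZMod p)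

/-- agreement on a finite level implies equal images (for a map trivial on the level) -/
theorem eq_of_agree {H : Type*} [Monoid H] (f : Γℚ →* H)
    (L : IntermediateField ℚ (AlgebraicClosure ℚ))
    (hL : ∀ σ : Γℚ, (∀ x ∈ L, σ x = x) → f σ = 1) {g h : Γℚ}
    (hgh : ∀ x ∈ L, h x = g x) : f h = f g := by
  have h1 : f (g⁻¹ * h) = 1 := by
    apply hL
    intro x hx
    show g⁻¹ (h x) = x
    rw [hgh x hx]
    exact g.symm_apply_apply x
  have : f h = f g * f (g⁻¹ * h) := by rw [← map_mul, mul_inv_cancel_left]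
  rw [this, h1, mul_one]

variable {θ ρ}

/-- the Eichler-Shimura relation on the eigenspace, pointwise -/
theorem frob_apply {ℓ : ℕ} (hℓ : ℓ.Prime) (hℓN : ¬ ℓ ∣ N) (hℓS : ℓ ∉ (↑S : Set ℕ))
    {A : ValuationSubring (AlgebraicClosure ℚ)} (hA : A.LiesOverPrime ℓ) {φ : Γℚ}
    (hφ : A.IsFrobeniusAt φ ℓ) {x : D.M 1} (hx : x ∈ eigenspace D θ) :
    D.gal 1 φ (D.gal 1 φ x) - θ (CuspForm.heckeAlgebra.T hℓ hℓN hℓS) • D.gal 1 φ x
      + (ℓ : ZMod p) • x = 0 := by
  have hES := D.eichlerShimura 1 ℓ hℓ hℓN hℓS A hA φ hφ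
  have h1 := congrArg (fun f : AddMonoid.End (D.M 1) => f x) hES
  have hgx := gal_mem_eigenspace D θ φ hx (CuspForm.heckeAlgebra.T hℓ hℓN hℓS)
  have h2 : D.gal 1 φ (D.gal 1 φ x)
      - D.hecke 1 (CuspForm.heckeAlgebra.T hℓ hℓN hℓS) (D.gal 1 φ x) + ℓ • x = 0 := by
    have : ((ℓ : AddMonoid.End (D.M 1))) x = ℓ • x := by
      simp
    rw [← this]
    exact h1
  rw [hgx, ← Nat.cast_smul_eq_nsmul (ZMod p) ℓ x] at h2
  exact h2

/-- the relation for a Frobenius lift, as an identity of endomorphisms of the eigenspace -/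
theorem frob_quad {ℓ : ℕ} (hℓ : ℓ.Prime) (hℓN : ¬ ℓ ∣ N) (hℓS : ℓ ∉ (↑S : Set ℕ))
    {A : ValuationSubring (AlgebraicClosure ℚ)} (hA : A.LiesOverPrime ℓ) {φ : Γℚ}
    (hφ : A.IsFrobeniusAt φ ℓ) (m : Matrix (Fin 2) (Fin 2) (ZMod p))
    (htr : m.trace = θ (CuspForm.heckeAlgebra.T hℓ hℓN hℓS)) (hdet : m.det = (ℓ : ZMod p)) :
    galEigen D θ φ * galEigen D θ φ - m.trace • galEigen D θ φ
      + m.det • (1 : Module.End (ZMod p) (eigenspace D θ)) = 0 := by
  apply LinearMap.ext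
  intro x
  apply Subtype.ext
  rw [htr, hdet]
  exact frob_apply D hℓ hℓN hℓS hA hφ x.2

/-- **the Cayley-Hamilton relations on the eigenspace, for every element of `G_ℚ`.** -/
theorem galEigen_quad (hF : FrobPowerDense) (hρ : FrobCompat θ ρ) (g : Γℚ) :
    galEigen D θ g * galEigen D θ g - (ρ g).trace • galEigen D θ g
      + (ρ g).det • (1 : Module.End (ZMod p) (eigenspace D θ)) = 0 := by
  classical
  obtain ⟨L1, hL1fin, hL1⟩ := D.gal_level 1
  obtain ⟨L2, hL2fin, hL2⟩ := hρ.level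
  obtain ⟨bad, hbad⟩ := hρ.frob
  have hfin : FiniteDimensional ℚ ↥(L1 ⊔ L2) :=
    @IntermediateField.finiteDimensional_sup _ _ _ _ _ L1 L2 hL1fin hL2fin
  obtain ⟨ℓ, hℓ, hℓbad, A, hA, φ, hφ, j, hj⟩ := hF (L1 ⊔ L2) hfin g (bad ∪ S ∪ N.primeFactors)
  have hℓb : ℓ ∉ bad := fun h => hℓbad (by simp [h])
  have hℓS : ℓ ∉ (↑S : Set ℕ) := fun h => hℓbad (by
    have : ℓ ∈ S := Finset.mem_coe.mp h
    simp [this])
  have hℓN : ¬ ℓ ∣ N := fun h => hℓbad (by
    have : ℓ ∈ N.primeFactors := Nat.mem_primeFactors.mpr ⟨hℓ, h, NeZero.ne N⟩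
    simp [this])
  obtain ⟨htr, hdet⟩ := hbad ℓ hℓ hℓN hℓS hℓb A hA φ hφ
  -- `φ ^ j` and `g` have the same images
  have e1 : D.gal 1 (φ ^ j) = D.gal 1 g :=
    eq_of_agree (D.gal 1) L1 hL1 (fun x hx => hj x (le_sup_left (a := L1) (b := L2) hx))
  have e2 : ρ (φ ^ j) = ρ g :=
    eq_of_agree ρ L2 hL2 (fun x hx => hj x (le_sup_right (a := L1) (b := L2) hx))
  have e3 : galEigen D θ (φ ^ j) = galEigen D θ g := by
    apply LinearMap.ext
    intro x
    apply Subtype.ext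
    rw [coe_galEigen, coe_galEigen, e1]
  have hq := frob_quad D hℓ hℓN hℓS hA hφ (ρ φ) htr hdet
  have := Fermat.Agent.S40x.A.CHPow.quad_pow (galEigen D θ φ) (ρ φ) hq j
  rw [← map_pow, ← map_pow, e2, e3] at this
  exact this

/-- **(A3)**: a copy of the standard module of `ρ` inside a nonzero `θ`-eigenspace. -/
theorem exists_copy (hF : FrobPowerDense) (hρ : FrobCompat θ ρ)
    (hspan : Function.Surjective (rhoAlg ρ)) (hne : eigenspace D θ ≠ ⊥) :
    ∃ ι : (Fin 2 → ZMod p) →ₗ[ZMod p] D.M 1, Function.Injective ι ∧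
      (∀ w, ι w ∈ eigenspace D θ) ∧
      ∀ (g : Γℚ) (w : Fin 2 → ZMod p), ι ((ρ g).mulVec w) = D.gal 1 g (ι w) := by
  haveI : Nontrivial (eigenspace D θ) := Submodule.nontrivial_iff_ne_bot.mpr hne
  obtain ⟨ι, hinj, heq⟩ := exists_equivariant_embedding ρ (galEigen D θ)
    (galEigen_quad D hF hρ) hspan
  refine ⟨(eigenspace D θ).subtype.comp ι, ?_, fun w => (ι w).2, ?_⟩
  · exact (Submodule.injective_subtype _).comp hinj
  · intro g w
    show ((ι ((ρ g).mulVec w) : eigenspace D θ) : D.M 1) = D.gal 1 g (ι w : eigenspace D θ)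
    rw [heq g w]
    rfl

end Fermat.Agent.S40x.A.CopyInTorsion
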