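import Mathlib
import Fermat.Agent.S40x.A.AbsIrr
import Fermat.Agent.S40x.A.CopyInTorsion

/-!
# R4 / (A3-glue): from an abstract odd irreducible two-dimensional representation to a copy inside
the `θ`-eigenspace of `X = D.M 1` (helper55)

* `exists_eigenvectors_of_involution`: an involution of determinant `-1` of a two-dimensional space
  over a field with `2 ≠ 0` has eigenvectors for `1` and for `-1` (complex conjugation).
* `matRep b α`: the matrix form of `α : G →* End V` in a basis `b`.
* `exists_copy_of_rep`: `α : Γℚ →* End_{𝔽_p} V`, `dim V = 2`, of finite level, with Frobenius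
  traces `θ (T_ℓ)` and determinants `ℓ` for almost all `ℓ`, IRREDUCIBLE over `𝔽_p` (no stable
  subspace) and with some `α c` having two distinct eigenvalues in `𝔽_p`  ⟹  an injective
  `Γℚ`-equivariant `𝔽_p`-linear map `V → X` with image in the `θ`-eigenspace, provided the
  eigenspace is nonzero.
-/

set_option autoImplicit false

noncomputable section

namespace Fermat.Agent.S40x.A.CopyOfRep

open Matrix Module Fermat.Agent.Gateway.S31Red Fermat.Agent.S40x.A.CHModule
  Fermat.Agent.S40x.A.CopyInTorsion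

local notation "Γℚ" => (AlgebraicClosure ℚ ≃ₐ[ℚ] AlgebraicClosure ℚ)

section involution

variable {k : Type*} [Field k] {V : Type*} [AddCommGroup V] [Module k V]

/-- an involution of determinant `-1` in dimension two has both eigenvalues `1` and `-1` -/
theorem exists_eigenvectors_of_involution (h2 : (2 : k) ≠ 0) (hV : finrank k V = 2)
    (f : Module.End k V) (hf : f * f = 1) (hdet : LinearMap.det f = -1) :
    ∃ v₁ v₂ : V, v₁ ≠ 0 ∧ v₂ ≠ 0 ∧ f v₁ = (1 : k) • v₁ ∧ f v₂ = (-1 : k) • v₂ := by
  have hff : ∀ v, f (f v) = v := fun v => by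
    have := LinearMap.congr_fun hf v
    simpa using this
  have hne : (-1 : k) ≠ 1 := by
    intro h
    apply h2
    have : (2 : k) = 1 - (-1) := by ring
    rw [this, h, sub_self]
  have h1 : f ≠ 1 := by
    intro h
    rw [h, map_one] at hdet
    exact hne hdet.symm
  have hm1 : f ≠ -1 := by
    intro h
    have e : (-1 : Module.End k V) = (-1 : k) • (1 : Module.End k V) := by simp
    rw [h, e, LinearMap.det_smul, map_one, hV] at hdet
    apply hne
    rw [← hdet]; ring
  obtain ⟨w, hw⟩ : ∃ w, f w ≠ -w := by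
    by_contra hcon
    simp only [not_exists, not_not] at hcon
    exact hm1 (LinearMap.ext fun v => by simpa using hcon v)
  obtain ⟨v, hv⟩ : ∃ v, f v ≠ v := by
    by_contra hcon
    simp only [not_exists, not_not] at hcon
    exact h1 (LinearMap.ext fun v => by simpa using hcon v)
  refine ⟨w + f w, v - f v, ?_, ?_, ?_, ?_⟩
  · intro h
    apply hw
    rw [add_comm] at h
    exact eq_neg_of_add_eq_zero_left h
  · intro h
    apply hv
    exact (sub_eq_zero.mp h).symm
  · rw [map_add, hff, one_smul, add_comm]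
  · rw [map_sub, hff, neg_one_smul, neg_sub]

end involution

section matRep

variable {k : Type*} [Field k] {V : Type*} [AddCommGroup V] [Module k V]
  {G : Type*} [Group G]

/-- the matrix form of a representation in a basis -/
def matRep (b : Basis (Fin 2) k V) (α : G →* Module.End k V) :
    G →* Matrix (Fin 2) (Fin 2) k where
  toFun g := LinearMap.toMatrix b b (α g)
  map_one' := by
    rw [map_one]
    exact LinearMap.toMatrix_one b
  map_mul' g h := by
    rw [map_mul]
    exact LinearMap.toMatrix_mul b _ _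

theorem matRep_apply (b : Basis (Fin 2) k V) (α : G →* Module.End k V) (g : G) :
    matRep b α g = LinearMap.toMatrix b b (α g) := rfl

theorem matRep_entry (b : Basis (Fin 2) k V) (α : G →* Module.End k V) (g : G) (i j : Fin 2) :
    matRep b α g i j = b.repr (α g (b j)) i := by
  rw [matRep_apply, LinearMap.toMatrix_apply]

theorem matRep_trace (b : Basis (Fin 2) k V) (α : G →* Module.End k V) (g : G) :
    (matRep b α g).trace = LinearMap.trace k V (α g) := by
  rw [matRep_apply, ← LinearMap.trace_eq_matrix_trace k b]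

theorem matRep_det (b : Basis (Fin 2) k V) (α : G →* Module.End k V) (g : G) :
    (matRep b α g).det = LinearMap.det (α g) := by
  rw [matRep_apply, LinearMap.det_toMatrix]

theorem matRep_mulVec (b : Basis (Fin 2) k V) (α : G →* Module.End k V) (g : G) (v : V) :
    (matRep b α g).mulVec (b.equivFun v) = b.equivFun (α g v) := by
  rw [matRep_apply]
  exact LinearMap.toMatrix_mulVec_repr b b (α g) v

/-- two eigenvectors with distinct eigenvalues are linearly independent -/
theorem linearIndependent_of_eigen (f : Module.End k V) {v₁ v₂ : V} {lam mu : k} (hlm : lam ≠ mu)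
    (hv₁ : v₁ ≠ 0) (hv₂ : v₂ ≠ 0) (h1 : f v₁ = lam • v₁) (h2 : f v₂ = mu • v₂) :
    LinearIndependent k ![v₁, v₂] := by
  rw [LinearIndependent.pair_iff]
  intro s t hst
  have e1 : f (s • v₁ + t • v₂) = 0 := by rw [hst, map_zero]
  rw [map_add, map_smul, map_smul, h1, h2] at e1
  have e2 : (t * (mu - lam)) • v₂ = 0 := by
    have : (t * (mu - lam)) • v₂ = (s • lam • v₁ + t • mu • v₂) - lam • (s • v₁ + t • v₂) := by
      simp only [smul_add, smul_smul, mul_sub, sub_smul]
      rw [mul_comm lam s, mul_comm lam t]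
      abel
    rw [this, e1, hst, smul_zero, sub_zero]
  have ht : t = 0 := by
    rcases smul_eq_zero.mp e2 with h | h
    · rcases mul_eq_zero.mp h with h | h
      · exact h
      · exact absurd (sub_eq_zero.mp h).symm hlm
    · exact absurd h hv₂
  rw [ht, zero_smul, add_zero] at hst
  rcases smul_eq_zero.mp hst with h | h
  · exact ⟨h, ht⟩
  · exact absurd h hv₁

end matRep

section copy

variable {p N : ℕ} [Fact p.Prime] [NeZero N] {S : Finset ℕ} (D : TorsionHeckeData p N S)

attribute [local instance] Fermat.Agent.S40x.A.CopyInTorsion.zmodModule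

variable {θ : CuspForm.heckeAlgebra N 2 (↑S : Set ℕ) →+* ZMod p}
  {V : Type*} [AddCommGroup V] [Module (ZMod p) V]

/-- **(A3) in representation form.** -/
theorem exists_copy_of_rep (hF : FrobPowerDense) (hV : finrank (ZMod p) V = 2)
    (α : Γℚ →* Module.End (ZMod p) V)
    (hlevel : ∃ L : IntermediateField ℚ (AlgebraicClosure ℚ), FiniteDimensional ℚ L ∧
      ∀ σ : Γℚ, (∀ x ∈ L, σ x = x) → α σ = 1)
    (hfrob : ∃ bad : Finset ℕ, ∀ (ℓ : ℕ) (hℓ : ℓ.Prime) (hℓN : ¬ ℓ ∣ N)
      (hℓS : ℓ ∉ (↑S : Set ℕ)), ℓ ∉ bad →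
      ∀ A : ValuationSubring (AlgebraicClosure ℚ), A.LiesOverPrime ℓ →
        ∀ φ : Γℚ, A.IsFrobeniusAt φ ℓ →
          LinearMap.trace (ZMod p) V (α φ) = θ (CuspForm.heckeAlgebra.T hℓ hℓN hℓS) ∧
            LinearMap.det (α φ) = (ℓ : ZMod p))
    (hirr : ∀ U : Submodule (ZMod p) V, (∀ g : Γℚ, ∀ x ∈ U, α g x ∈ U) → U = ⊥ ∨ U = ⊤)
    (c : Γℚ) {v₁ v₂ : V} {lam mu : ZMod p} (hlm : lam ≠ mu) (hv₁ : v₁ ≠ 0) (hv₂ : v₂ ≠ 0)
    (h1 : α c v₁ = lam • v₁) (h2 : α c v₂ = mu • v₂)
    (hne : eigenspace D θ ≠ ⊥) :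
    ∃ j : V →ₗ[ZMod p] D.M 1, Function.Injective j ∧ (∀ v, j v ∈ eigenspace D θ) ∧
      ∀ (g : Γℚ) (v : V), j (α g v) = D.gal 1 g (j v) := by
  have hli := linearIndependent_of_eigen (α c) hlm hv₁ hv₂ h1 h2
  let b : Basis (Fin 2) (ZMod p) V :=
    basisOfLinearIndependentOfCardEqFinrank hli (by rw [hV, Fintype.card_fin])
  have hb : ⇑b = ![v₁, v₂] := coe_basisOfLinearIndependentOfCardEqFinrank hli _
  have hb0 : b 0 = v₁ := by rw [hb]; rfl
  have hb1 : b 1 = v₂ := by rw [hb]; rfl
  let ρ := matRep b α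
  -- Frobenius compatibility
  have hρ : FrobCompat θ ρ := by
    refine ⟨?_, ?_⟩
    · obtain ⟨L, hL, hL'⟩ := hlevel
      refine ⟨L, hL, fun σ hσ => ?_⟩
      show matRep b α σ = 1
      rw [matRep_apply, hL' σ hσ]
      exact LinearMap.toMatrix_one b
    · obtain ⟨bad, hbad⟩ := hfrob
      refine ⟨bad, fun ℓ hℓ hℓN hℓS hℓb A hA φ hφ => ?_⟩
      obtain ⟨e1, e2⟩ := hbad ℓ hℓ hℓN hℓS hℓb A hA φ hφ
      exact ⟨(matRep_trace b α φ).trans e1, (matRep_det b α φ).trans e2⟩
  -- the diagonal form of `ρ c`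
  have hc : ρ c = !![lam, 0; 0, mu] := by
    ext i j
    show matRep b α c i j = _
    rw [matRep_entry]
    fin_cases i <;> fin_cases j
    · show b.repr (α c (b 0)) 0 = lam
      rw [hb0, h1, ← hb0, map_smul, Basis.repr_self]
      simp
    · show b.repr (α c (b 1)) 0 = 0
      rw [hb1, h2, ← hb1, map_smul, Basis.repr_self]
      simp
    · show b.repr (α c (b 0)) 1 = 0
      rw [hb0, h1, ← hb0, map_smul, Basis.repr_self]
      simp
    · show b.repr (α c (b 1)) 1 = mu
      rw [hb1, h2, ← hb1, map_smul, Basis.repr_self]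
      simp
  -- a stable line would contradict irreducibility
  have hline : ∀ i : Fin 2, ¬ (∀ g : Γℚ, α g (b i) = (b.repr (α g (b i)) i) • b i) := by
    intro i hcon
    have hstab : ∀ g : Γℚ, ∀ x ∈ Submodule.span (ZMod p) {b i}, α g x ∈
        Submodule.span (ZMod p) {b i} := by
      intro g x hx
      obtain ⟨t, rfl⟩ := Submodule.mem_span_singleton.mp hx
      rw [map_smul]
      apply Submodule.smul_mem
      rw [hcon g]
      exact Submodule.smul_mem _ _ (Submodule.mem_span_singleton_self _)
    rcases hirr _ hstab with h | h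
    · have : b i ∈ (⊥ : Submodule (ZMod p) V) := h ▸ Submodule.mem_span_singleton_self _
      exact b.ne_zero i ((Submodule.mem_bot _).mp this)
    · have hfr : finrank (ZMod p) (Submodule.span (ZMod p) {b i}) = 1 :=
        finrank_span_singleton (b.ne_zero i)
      rw [h, finrank_top, hV] at hfr
      omega
  have hsum : ∀ v : V, v = b.repr v 0 • b 0 + b.repr v 1 • b 1 := by
    intro v
    conv_lhs => rw [← b.sum_repr v]
    rw [Fin.sum_univ_two]
  have h01 : ∃ g : Γℚ, ρ g 0 1 ≠ 0 := by
    by_contra hcon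
    simp only [not_exists, not_not] at hcon
    apply hline 1
    intro g
    have h0 : b.repr (α g (b 1)) 0 = 0 := by
      rw [← matRep_entry]
      exact hcon g
    conv_lhs => rw [hsum (α g (b 1))]
    rw [h0, zero_smul, zero_add]
  have h10 : ∃ g : Γℚ, ρ g 1 0 ≠ 0 := by
    by_contra hcon
    simp only [not_exists, not_not] at hcon
    apply hline 0
    intro g
    have h0 : b.repr (α g (b 0)) 1 = 0 := by
      rw [← matRep_entry]
      exact hcon g
    conv_lhs => rw [hsum (α g (b 0))]
    rw [h0, zero_smul, add_zero]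
  have hspan := Fermat.Agent.S40x.A.AbsIrr.surjective_rhoAlg_of_diag ρ c lam mu hlm hc h01 h10
  obtain ⟨ι, hinj, hmem, heq⟩ := exists_copy D hF hρ hspan hne
  refine ⟨ι.comp b.equivFun.toLinearMap, ?_, fun v => hmem _, ?_⟩
  · exact hinj.comp b.equivFun.injective
  · intro g v
    show ι (b.equivFun (α g v)) = D.gal 1 g (ι (b.equivFun v))
    rw [← matRep_mulVec b α g v]
    exact heq g _

end copy

end Fermat.Agent.S40x.A.CopyOfRep
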