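import Mathlib
import Fermat.Prelude.Def_GaloisRep_ComplexConjugation
import Fermat.Agent.S48x.Extract.CycloMod
import Fermat.Agent.Gateway.S31.Data
import Fermat.Agent.Lib.EC.ReductionTorsion
import Fermat.Agent.Lib.EC.Frobenius
import Fermat.Agent.Lib.EC.TorsionCard
import Fermat.Agent.Lib.EC.FreyTorsionField

/-!
# R4 / (E3) + (A4): the mod `p` representation of an elliptic curve over `ℚ` (helper55)

For `W : WeierstrassCurve ℤ`, `Δ ≠ 0`, `p` prime, `V = E[p](ℚ̄)`, `α = galoisRepModuleEnd`: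

* `eq_of_frob`: two finite-level homomorphisms of `Γℚ` into a monoid which agree on the Frobenius
  lifts outside a finite set of primes are equal (from `FrobPowerDense`).
* `torsionCardHyp`, `finrank_torsion`: `#V = p²`, `dim V = 2`.
* `level_torsion`: `α` has finite level.
* `trace_det_frob`: trace `a_ℓ` and determinant `ℓ` at Frobenius lifts, `ℓ ∤ pΔ`.
* `det_eq_cycloMod`: `det α g = cycloMod p g` for ALL `g`  (E3).
* `cycloMod_complexConjugation`: `cycloMod p c = -1`; `det_complexConjugation`: `det α c = -1`.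
-/

set_option autoImplicit false

noncomputable section

namespace Fermat.Agent.S40x.A.DetCyclo

open WeierstrassCurve WeierstrassCurve.Affine WeierstrassCurve.Affine.Point Module
  Fermat.Agent.Gateway.S31Red Fermat.Agent.S48x.Extract
  Fermat.Agent.Lib.EC.ReductionTorsion Fermat.Agent.Lib.EC.TraceAbstract

local notation "Qbar" => AlgebraicClosure ℚ
local notation "Γℚ" => (AlgebraicClosure ℚ ≃ₐ[ℚ] AlgebraicClosure ℚ)

section density

/-- agreement on a finite level implies equal images (for a map trivial on the level) -/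
theorem eq_of_agree_on {H : Type*} [Monoid H] (f : Γℚ →* H)
    (L : IntermediateField ℚ Qbar)
    (hL : ∀ σ : Γℚ, (∀ x ∈ L, σ x = x) → f σ = 1) {g h : Γℚ}
    (hgh : ∀ x ∈ L, h x = g x) : f h = f g := by
  have h1 : f (g⁻¹ * h) = 1 := by
    apply hL
    intro x hx
    show g⁻¹ (h x) = x
    rw [hgh x hx]
    exact g.symm_apply_apply x
  have : f h = f g * f (g⁻¹ * h) := by rw [← map_mul, mul_inv_cancel_left]
  rw [this, h1, mul_one]

/-- **Chebotarev, consumer form.** -/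
theorem eq_of_frob (hF : FrobPowerDense) {H : Type} [Monoid H] (f₁ f₂ : Γℚ →* H)
    (h₁ : GaloisFactorsThroughFiniteLevel f₁) (h₂ : GaloisFactorsThroughFiniteLevel f₂)
    (bad : Finset ℕ)
    (hfrob : ∀ ℓ : ℕ, ℓ.Prime → ℓ ∉ bad → ∀ A : ValuationSubring Qbar, A.LiesOverPrime ℓ →
      ∀ φ : Γℚ, A.IsFrobeniusAt φ ℓ → f₁ φ = f₂ φ) (g : Γℚ) : f₁ g = f₂ g := by
  obtain ⟨L₁, hL₁, hf₁⟩ := h₁
  obtain ⟨L₂, hL₂, hf₂⟩ := h₂
  have := hL₁
  have := hL₂
  have hfd : FiniteDimensional ℚ (L₁ ⊔ L₂ : IntermediateField ℚ Qbar) :=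
    IntermediateField.finiteDimensional_sup L₁ L₂
  obtain ⟨ℓ, hℓ, hℓb, A, hA, σ, hσ, k, hk⟩ := hF (L₁ ⊔ L₂) hfd g bad
  have e₁ : f₁ (σ ^ k) = f₁ g :=
    eq_of_agree_on f₁ L₁ hf₁ fun x hx => hk x ((le_sup_left : L₁ ≤ L₁ ⊔ L₂) hx)
  have e₂ : f₂ (σ ^ k) = f₂ g :=
    eq_of_agree_on f₂ L₂ hf₂ fun x hx => hk x ((le_sup_right : L₂ ≤ L₁ ⊔ L₂) hx)
  rw [← e₁, ← e₂, map_pow, map_pow, hfrob ℓ hℓ hℓb A hA σ hσ]

end density

section curve

variable (W : WeierstrassCurve ℤ) (p : ℕ) [Fact p.Prime]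

/-- the mod `p` representation -/
abbrev rep : Γℚ →* Module.End (ZMod p) (tors (curveQbar W).Point p) :=
  galoisRepModuleEnd (K := Qbar) ℚ (W.map (Int.castRingHom ℚ)).toAffine p

theorem isElliptic_curveQbar (hΔ : W.Δ ≠ 0) :
    ((W.map (Int.castRingHom ℚ))⁄Qbar).IsElliptic := by
  refine ⟨Ne.isUnit ?_⟩
  show ((W.map (Int.castRingHom ℚ)).map (algebraMap ℚ Qbar)).Δ ≠ 0
  rw [WeierstrassCurve.map_Δ, WeierstrassCurve.map_Δ]
  intro h
  have h1 : (Int.castRingHom ℚ) W.Δ = 0 :=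
    (algebraMap ℚ Qbar).injective (by rw [h, _root_.map_zero])
  rw [eq_intCast, Int.cast_eq_zero] at h1
  exact hΔ h1

theorem torsionCardHyp (hΔ : W.Δ ≠ 0) : TorsionCardHyp W p := by
  have := isElliptic_curveQbar W hΔ
  have hp : p.Prime := Fact.out
  have hp0 : ((p : ℕ) : Qbar) ≠ 0 := by exact_mod_cast hp.ne_zero
  exact Fermat.Agent.Lib.EC.TorsionCard.card_torsionBy (W.map (Int.castRingHom ℚ)) Qbar hp0

theorem finite_torsion (hΔ : W.Δ ≠ 0) : Finite (tors (curveQbar W).Point p) := by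
  have hp : p.Prime := Fact.out
  apply Nat.finite_of_card_ne_zero
  rw [torsionCardHyp W p hΔ]
  exact pow_ne_zero 2 hp.ne_zero

theorem finrank_torsion (hΔ : W.Δ ≠ 0) :
    finrank (ZMod p) (tors (curveQbar W).Point p) = 2 := by
  have hp : p.Prime := Fact.out
  have := finite_torsion W p hΔ
  have : Module.Finite (ZMod p) (tors (curveQbar W).Point p) := Module.Finite.of_finite
  have h := Module.natCard_eq_pow_finrank (K := ZMod p) (V := tors (curveQbar W).Point p)
  rw [torsionCardHyp W p hΔ, Nat.card_zmod] at h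
  exact (Nat.pow_right_injective hp.two_le h).symm

theorem level_torsion (hΔ : W.Δ ≠ 0) : GaloisFactorsThroughFiniteLevel (rep W p) := by
  apply Fermat.Agent.Lib.EC.FreyTorsionField.galoisFactorsThroughFiniteLevel_of_finite
  have := finite_torsion W p hΔ
  have : Set.Finite (Set.range (Subtype.val : tors (curveQbar W).Point p → _)) :=
    Set.finite_range _
  refine this.subset fun Q hQ => ⟨⟨Q, ?_⟩, rfl⟩
  rw [Submodule.mem_torsionBy_iff, natCast_zsmul]
  exact hQ

/-- the bad primes: `p` and the primes of bad reduction -/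
def badPrimes : Finset ℕ := insert p W.Δ.natAbs.primeFactors

omit [Fact p.Prime] in
theorem isGoodPrimeFor_of_not_mem (hΔ : W.Δ ≠ 0) {ℓ : ℕ} (hℓ : ℓ.Prime) (h : ℓ ∉ badPrimes W p) :
    W.IsGoodPrimeFor ℓ ∧ p ≠ ℓ := by
  rw [badPrimes, Finset.mem_insert, not_or] at h
  refine ⟨fun hdvd => h.2 ?_, fun e => h.1 e.symm⟩
  rw [Nat.mem_primeFactors]
  exact ⟨hℓ, Int.natCast_dvd.mp hdvd, Int.natAbs_ne_zero.mpr hΔ⟩

theorem trace_det_frob (hΔ : W.Δ ≠ 0) {ℓ : ℕ} (hℓ : ℓ.Prime) (h : ℓ ∉ badPrimes W p)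
    (A : ValuationSubring Qbar) (hA : A.LiesOverPrime ℓ) (φ : Γℚ) (hφ : A.IsFrobeniusAt φ ℓ) :
    LinearMap.trace (ZMod p) _ (rep W p φ) = ((W.apOfModel ℓ : ℤ) : ZMod p) ∧
      LinearMap.det (rep W p φ) = ((ℓ : ℕ) : ZMod p) := by
  have : Fact ℓ.Prime := ⟨hℓ⟩
  obtain ⟨hgood, hne⟩ := isGoodPrimeFor_of_not_mem W p hΔ hℓ h
  obtain ⟨h1, h2⟩ := trace_frobenius_lift W hne hgood A hA φ hφ (torsionCardHyp W p hΔ)
    (Fermat.Agent.Lib.EC.Frobenius.frobeniusHyp W ℓ hgood)
  refine ⟨h1, ?_⟩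
  rw [h2]
  push_cast
  rfl

/-- the determinant character -/
def detChar : Γℚ →* ZMod p := (LinearMap.det : Module.End (ZMod p) _ →* ZMod p).comp (rep W p)

/-- the cyclotomic character with values in `ZMod p` -/
def cycloChar : Γℚ →* ZMod p :=
  have : NeZero p := ⟨(Fact.out : p.Prime).ne_zero⟩
  (Units.coeHom (ZMod p)).comp (cycloMod p)

theorem detChar_apply (g : Γℚ) : detChar W p g = LinearMap.det (rep W p g) := rfl

theorem level_detChar (hΔ : W.Δ ≠ 0) : GaloisFactorsThroughFiniteLevel (detChar W p) := by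
  obtain ⟨L, hL, h⟩ := level_torsion W p hΔ
  refine ⟨L, hL, fun σ hσ => ?_⟩
  rw [detChar_apply, h σ hσ, map_one]

theorem level_cycloChar : GaloisFactorsThroughFiniteLevel (cycloChar p) := by
  have : NeZero p := ⟨(Fact.out : p.Prime).ne_zero⟩
  obtain ⟨L, hL, h⟩ := cycloMod_level p
  refine ⟨L, hL, fun σ hσ => ?_⟩
  show ((cycloMod p σ : (ZMod p)ˣ) : ZMod p) = 1
  rw [h σ hσ, Units.val_one]

/-- **(E3)**: the determinant of the mod `p` representation is the mod `p` cyclotomic character. -/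
theorem det_eq_cycloChar (hF : FrobPowerDense) (hΔ : W.Δ ≠ 0) (g : Γℚ) :
    LinearMap.det (rep W p g) = cycloChar p g := by
  have : NeZero p := ⟨(Fact.out : p.Prime).ne_zero⟩
  have hp : p.Prime := Fact.out
  refine eq_of_frob hF (detChar W p) (cycloChar p) (level_detChar W p hΔ) (level_cycloChar p)
    (badPrimes W p) (fun ℓ hℓ hb A hA φ hφ => ?_) g
  rw [detChar_apply, (trace_det_frob W p hΔ hℓ hb A hA φ hφ).2]
  have hne : p ≠ ℓ := (isGoodPrimeFor_of_not_mem W p hΔ hℓ hb).2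
  have hℓp : ¬ ℓ ∣ p := fun h => hne ((Nat.prime_dvd_prime_iff_eq hℓ hp).mp h).symm
  show _ = ((cycloMod p φ : (ZMod p)ˣ) : ZMod p)
  rw [cycloMod_frob p hℓ hℓp A hA φ hφ, ZMod.coe_unitOfCoprime]

end curve

section conj

variable (p : ℕ) [Fact p.Prime]

/-- complex conjugation inverts the roots of unity -/
theorem conj_apply_of_pow_eq_one {μ : Qbar} {n : ℕ} (hn : n ≠ 0)
    (h : μ ^ n = 1) : complexConjugation μ = μ⁻¹ := by
  apply complexEmbedding.toRingHom.injective
  show complexEmbedding (complexConjugation μ) = complexEmbedding μ⁻¹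
  rw [complexEmbedding_complexConjugation, map_inv₀]
  have h1 : (complexEmbedding μ) ^ n = 1 := by rw [← map_pow, h, map_one]
  have h2 : ‖complexEmbedding μ‖ = 1 := Complex.norm_eq_one_of_pow_eq_one h1 hn
  rw [Complex.inv_def, Complex.normSq_eq_norm_sq, h2]
  simp

theorem cycloChar_complexConjugation : cycloChar p complexConjugation = -1 := by
  have : NeZero p := ⟨(Fact.out : p.Prime).ne_zero⟩
  have hp : p.Prime := Fact.out
  have h : cycloMod p complexConjugation = -1 := by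
    refine cycloMod_eq_of_forall p complexConjugation (-1) fun t ht => ?_
    rw [conj_apply_of_pow_eq_one hp.ne_zero ht]
    have hval : (((-1 : (ZMod p)ˣ) : (ZMod p)ˣ) : ZMod p) = ((p - 1 : ℕ) : ZMod p) := by
      rw [Nat.cast_sub hp.one_le]
      simp
    rw [hval, Fermat.Agent.Gateway.Assembly.pow_val_natCast_eq ht]
    apply inv_eq_of_mul_eq_one_left
    rw [← pow_succ, Nat.sub_add_cancel hp.one_le, ht]
  show ((cycloMod p complexConjugation : (ZMod p)ˣ) : ZMod p) = -1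
  rw [h]
  simp

/-- **oddness** of the mod `p` representation of an elliptic curve -/
theorem det_complexConjugation (W : WeierstrassCurve ℤ) (hF : FrobPowerDense) (hΔ : W.Δ ≠ 0) :
    LinearMap.det (rep W p complexConjugation) = -1 := by
  rw [det_eq_cycloChar W p hF hΔ, cycloChar_complexConjugation]

end conj

end Fermat.Agent.S40x.A.DetCyclo
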