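import Mathlib
import Fermat.Prelude.Def_FLTPrelim_ModularRep
import Fermat.Agent.S40x.A.CopyOfRep
import Fermat.Agent.S40x.A.DetCyclo

/-!
# R4 / (A3)+(A4)+(E3) assembled: a copy of `E[p]` inside the `θ`-eigenspace of `X = D.M 1`
(helper55)

`W : WeierstrassCurve ℤ`, `Δ ≠ 0`, `p` odd, `E[p]` irreducible, `θ (T_ℓ) = a_ℓ(W) mod p` for almost
all `ℓ` (this is (A1)), the `θ`-eigenspace of `X` nonzero (this is (A2), `EigenNonzero`)  ⟹  there is
an injective `Γℚ`-equivariant `𝔽_p`-linear map `E[p](ℚ̄) → X` with image in the `θ`-eigenspace.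
-/

set_option autoImplicit false

noncomputable section

namespace Fermat.Agent.S40x.A.CopyOfCurve

open WeierstrassCurve WeierstrassCurve.Affine WeierstrassCurve.Affine.Point Module
  Fermat.Agent.Gateway.S31Red Fermat.Agent.S40x.A.CopyInTorsion Fermat.Agent.S40x.A.CopyOfRep
  Fermat.Agent.S40x.A.DetCyclo Fermat.Agent.Lib.EC.ReductionTorsion
  Fermat.Agent.Lib.EC.TraceAbstract

local notation "Qbar" => AlgebraicClosure ℚ
local notation "Γℚ" => (AlgebraicClosure ℚ ≃ₐ[ℚ] AlgebraicClosure ℚ)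

variable {p N : ℕ} [Fact p.Prime] [NeZero N] {S : Finset ℕ} (D : TorsionHeckeData p N S)

attribute [local instance] Fermat.Agent.S40x.A.CopyInTorsion.zmodModule

/-- **A copy of `E[p]` in the `θ`-part of `J₀(N)[p]`.** -/
theorem exists_copy_of_curve (hF : FrobPowerDense) (W : WeierstrassCurve ℤ) (hΔ : W.Δ ≠ 0)
    (hp2 : p ≠ 2) (hirr : W.ModRepIsIrreducible p)
    (θ : CuspForm.heckeAlgebra N 2 (↑S : Set ℕ) →+* ZMod p)
    (hθ : ∃ bad : Finset ℕ, ∀ (ℓ : ℕ) (hℓ : ℓ.Prime) (hℓN : ¬ ℓ ∣ N) (hℓS : ℓ ∉ (↑S : Set ℕ)),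
      ℓ ∉ bad → θ (CuspForm.heckeAlgebra.T hℓ hℓN hℓS) = ((W.apOfModel ℓ : ℤ) : ZMod p))
    (hne : eigenspace D θ ≠ ⊥) :
    ∃ j : tors (curveQbar W).Point p →ₗ[ZMod p] D.M 1, Function.Injective j ∧
      (∀ v, j v ∈ eigenspace D θ) ∧
      ∀ (g : Γℚ) (v : tors (curveQbar W).Point p), j (g • v) = D.gal 1 g (j v) := by
  have hp : p.Prime := Fact.out
  have h2 : (2 : ZMod p) ≠ 0 := by
    intro h
    have h' : ((2 : ℕ) : ZMod p) = 0 := by exact_mod_cast h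
    rw [ZMod.natCast_eq_zero_iff] at h'
    exact hp2 ((Nat.prime_dvd_prime_iff_eq hp Nat.prime_two).mp h')
  have hV := finrank_torsion W p hΔ
  -- complex conjugation
  have hcc : rep W p complexConjugation * rep W p complexConjugation = 1 := by
    rw [← map_mul, complexConjugation_mul_self, map_one]
  obtain ⟨v₁, v₂, hv₁, hv₂, h1, h2'⟩ := exists_eigenvectors_of_involution h2 hV
    (rep W p complexConjugation) hcc (det_complexConjugation p W hF hΔ)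
  have hlm : (1 : ZMod p) ≠ -1 := by
    intro h
    apply h2
    have : (2 : ZMod p) = 1 - (-1) := by ring
    rw [this, ← h, sub_self]
  -- Frobenius
  obtain ⟨bad, hbad⟩ := hθ
  have hfrob : ∃ bad : Finset ℕ, ∀ (ℓ : ℕ) (hℓ : ℓ.Prime) (hℓN : ¬ ℓ ∣ N)
      (hℓS : ℓ ∉ (↑S : Set ℕ)), ℓ ∉ bad →
      ∀ A : ValuationSubring Qbar, A.LiesOverPrime ℓ →
        ∀ φ : Γℚ, A.IsFrobeniusAt φ ℓ →
          LinearMap.trace (ZMod p) _ (rep W p φ) = θ (CuspForm.heckeAlgebra.T hℓ hℓN hℓS) ∧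
            LinearMap.det (rep W p φ) = (ℓ : ZMod p) := by
    classical
    refine ⟨bad ∪ badPrimes W p, fun ℓ hℓ hℓN hℓS hb A hA φ hφ => ?_⟩
    rw [Finset.mem_union, not_or] at hb
    obtain ⟨e1, e2⟩ := trace_det_frob W p hΔ hℓ hb.2 A hA φ hφ
    exact ⟨e1.trans (hbad ℓ hℓ hℓN hℓS hb.1).symm, e2⟩
  obtain ⟨j, hj, hmem, heq⟩ := exists_copy_of_rep D hF hV (rep W p) (level_torsion W p hΔ) hfrob
    (fun U hU => hirr.2 U fun σ x hx => hU σ x hx) complexConjugation hlm hv₁ hv₂ h1 h2' hne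
  exact ⟨j, hj, hmem, fun g v => heq g v⟩

end Fermat.Agent.S40x.A.CopyOfCurve
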