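import Mathlib

/-!
# R4 / (A2-a): a finite module has a nonzero element killed by every ideal containing its
annihilator (helper55)

`R` a commutative ring, `Z` a finite `R`-module (finite as a set), `n ≠ ⊤` an ideal such that every
`r` killing `Z` lies in `n`.  Then some `z ≠ 0` in `Z` is killed by `n` (`exists_ne_zero_smul_eq_zero`).

Proof.  The chain `n ^ j Z` stabilises at `X' = n ^ j Z = n X'`; Nakayama gives `r ∈ 1 + n` with
`r X' = 0`.  `r` does not kill `Z` (else `r ∈ n`, `1 ∈ n`), say `r z₀ ≠ 0`; `n ^ j (r z₀) = 0`, and for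
the least `i` with `n ^ i (r z₀) = 0` (`i ≥ 1`) some `s ∈ n ^ (i - 1)` has `z := s r z₀ ≠ 0`, `n z = 0`.
-/

set_option autoImplicit false

namespace Fermat.Agent.S40x.A.SocleNonzero

variable {R : Type*} [CommRing R] {Z : Type*} [AddCommGroup Z] [Module R Z]

theorem exists_ne_zero_smul_eq_zero [Finite Z] (n : Ideal R) (hn : n ≠ ⊤)
    (hann : ∀ r : R, (∀ z : Z, r • z = 0) → r ∈ n) :
    ∃ z : Z, z ≠ 0 ∧ ∀ a ∈ n, a • z = 0 := by
  classical
  -- the chain `n ^ j • ⊤`
  let f : ℕ →o (Submodule R Z)ᵒᵈ :=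
    { toFun := fun j => OrderDual.toDual (n ^ j • (⊤ : Submodule R Z))
      monotone' := fun i j hij => by
        show n ^ j • (⊤ : Submodule R Z) ≤ n ^ i • (⊤ : Submodule R Z)
        exact Submodule.smul_mono_left (Ideal.pow_le_pow_right hij) }
  obtain ⟨j, hj⟩ := IsArtinian.monotone_stabilizes f
  have hstab : n ^ j • (⊤ : Submodule R Z) = n ^ (j + 1) • (⊤ : Submodule R Z) := by
    have := hj (j + 1) (Nat.le_succ j)
    exact congrArg OrderDual.ofDual this
  set X' : Submodule R Z := n ^ j • (⊤ : Submodule R Z) with hX'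
  have hle : X' ≤ n • X' := by
    rw [hX', ← Submodule.mul_smul, ← pow_succ', ← hstab]
  have hfg : X'.FG := IsNoetherian.noetherian X'
  obtain ⟨r, hr1, hr⟩ :=
    Submodule.exists_sub_one_mem_and_smul_eq_zero_of_fg_of_le_smul n X' hfg hle
  -- `r` does not kill `Z`
  have hrZ : ¬ ∀ z : Z, r • z = 0 := by
    intro h
    have h1 : r ∈ n := hann r h
    have h2 : (1 : R) ∈ n := by
      have : (1 : R) = r - (r - 1) := by ring
      rw [this]
      exact n.sub_mem h1 hr1
    exact hn ((Ideal.eq_top_iff_one n).mpr h2)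
  push Not at hrZ
  obtain ⟨z0, hz0⟩ := hrZ
  -- `n ^ j` kills `r • z0`
  have hkill : ∀ s ∈ n ^ j, s • (r • z0) = 0 := by
    intro s hs
    rw [smul_comm]
    apply hr
    exact Submodule.smul_mem_smul hs Submodule.mem_top
  -- the least such exponent
  have hex : ∃ i : ℕ, ∀ s ∈ n ^ i, s • (r • z0) = 0 := ⟨j, hkill⟩
  set i := Nat.find hex with hi
  have hi_spec : ∀ s ∈ n ^ i, s • (r • z0) = 0 := Nat.find_spec hex
  have hi_pos : i ≠ 0 := by
    intro h0
    have h1 : (1 : R) ∈ n ^ i := by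
      rw [h0, pow_zero, Ideal.one_eq_top]
      exact Submodule.mem_top
    have := hi_spec 1 h1
    rw [one_smul] at this
    exact hz0 this
  obtain ⟨i', hi'⟩ := Nat.exists_eq_succ_of_ne_zero hi_pos
  have hmin : ¬ ∀ s ∈ n ^ i', s • (r • z0) = 0 :=
    Nat.find_min hex (by rw [← hi, hi']; exact Nat.lt_succ_self i')
  push Not at hmin
  obtain ⟨s, hs, hsz⟩ := hmin
  refine ⟨s • (r • z0), hsz, fun a ha => ?_⟩
  rw [← mul_smul]
  apply hi_spec
  rw [hi', pow_succ']
  exact Ideal.mul_mem_mul ha hs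

end Fermat.Agent.S40x.A.SocleNonzero
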