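import Mathlib
import Fermat.Agent.S40x.A.CopyInTorsion
import Fermat.Agent.S40x.A.SocleNonzero
import Fermat.Agent.Gateway.S31.FromExport

/-!
# R4 / (A2): every character `θ : 𝕋 →+* 𝔽_p` occurs in `J₀(N)[p]` (helper55)

For the torsion data `D = torsionHeckeDataOfExport …` of the export contract and ANY ring
homomorphism `θ : 𝕋_S(N) →+* ZMod p`, the `θ`-eigenspace of `D.M 1 = J₀(N)[p]` is nonzero
(`eigenspace_ne_bot`).

Proof.  Let `c0` be the faithfulness constant and `Z = J₀(N)[p ^ (1 + c0)]`: an element of `𝕋` killing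
`Z` is divisible by `p`, hence lies in `n = ker θ`.  By `SocleNonzero` some `z ≠ 0` in `Z` is killed by
`n`; as `p ∈ n`, `z` lies in `J₀(N)[p]`, and the Hecke actions at the two levels agree on it
(`eta_compat`: both are the Hecke correspondences on the generators).
-/

set_option autoImplicit false
set_option linter.unusedSectionVars false
set_option linter.style.haveILetI false

noncomputable section

namespace Fermat.Agent.S40x.A.EigenNonzero

open ModularCurve AlgebraicCurve CuspForm Fermat.Agent.Gateway.S31Red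
  Fermat.Agent.S40x.A.CopyInTorsion

local notation "Γℚ" => (AlgebraicClosure ℚ ≃ₐ[ℚ] AlgebraicClosure ℚ)

attribute [local instance] Fermat.Agent.S40x.A.CopyInTorsion.zmodModule

variable {N : ℕ} [NeZero N] {S : Finset ℕ}

/-- **cross-level compatibility** of the Hecke action of the export contract. -/
theorem eta_compat (hNS : ∀ q : ℕ, q.Prime → q ∣ N → q ∈ S) (E : HeckeTorsionAction N S)
    {m m' : ℕ} (hm : 0 < m) (hm' : 0 < m') (t : heckeAlgebra N 2 (↑S : Set ℕ)) :
    ∀ (x : JTors N m) (x' : JTors N m'), (x : JZero N) = (x' : JZero N) →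
      ((E.eta m hm t x : JTors N m) : JZero N) = ((E.eta m' hm' t x' : JTors N m') : JZero N) := by
  obtain ⟨t, ht⟩ := t
  induction ht using Algebra.adjoin_induction with
  | mem y hy =>
    rcases hy with ⟨ℓ, hℓ, hℓN, hℓS, rfl⟩ | ⟨q, hqN, hq, hqS, rfl⟩
    · intro x x' h
      have h1 := E.eta_T m hm ℓ hℓ hℓN hℓS x
      have h2 := E.eta_T m' hm' ℓ hℓ hℓN hℓS x'
      rw [h] at h1
      exact h1.trans h2.symm
    · exact absurd (hNS q hq hqN) hqS
  | algebraMap r =>
    intro x x' h
    have : (⟨algebraMap ℤ _ r, Subalgebra.algebraMap_mem _ r⟩ : heckeAlgebra N 2 (↑S : Set ℕ))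
        = (r : heckeAlgebra N 2 (↑S : Set ℕ)) := by
      apply Subtype.ext
      simp
    rw [this, map_intCast, map_intCast]
    show ((r • x : JTors N m) : JZero N) = ((r • x' : JTors N m') : JZero N)
    rw [AddSubgroupClass.coe_zsmul, AddSubgroupClass.coe_zsmul, h]
  | add a b ha hb ha' hb' =>
    intro x x' h
    have : (⟨a + b, Subalgebra.add_mem _ ha hb⟩ : heckeAlgebra N 2 (↑S : Set ℕ))
        = ⟨a, ha⟩ + ⟨b, hb⟩ := rfl
    rw [this, map_add, map_add]
    show (((E.eta m hm ⟨a, ha⟩ x + E.eta m hm ⟨b, hb⟩ x : JTors N m)) : JZero N)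
      = ((E.eta m' hm' ⟨a, ha⟩ x' + E.eta m' hm' ⟨b, hb⟩ x' : JTors N m') : JZero N)
    rw [AddSubgroup.coe_add, AddSubgroup.coe_add, ha' x x' h, hb' x x' h]
  | mul a b ha hb ha' hb' =>
    intro x x' h
    have : (⟨a * b, Subalgebra.mul_mem _ ha hb⟩ : heckeAlgebra N 2 (↑S : Set ℕ))
        = ⟨a, ha⟩ * ⟨b, hb⟩ := rfl
    rw [this, map_mul, map_mul]
    show ((E.eta m hm ⟨a, ha⟩ (E.eta m hm ⟨b, hb⟩ x) : JTors N m) : JZero N)
      = ((E.eta m' hm' ⟨a, ha⟩ (E.eta m' hm' ⟨b, hb⟩ x') : JTors N m') : JZero N)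
    exact ha' _ _ (hb' x x' h)

variable {p : ℕ} [Fact p.Prime]

/-- **(A2)**: every character of the Hecke algebra with values in `𝔽_p` occurs in `J₀(N)[p]`. -/
theorem eigenspace_ne_bot (hp : p.Prime) (hpS : p ∈ S)
    (hNS : ∀ q : ℕ, q.Prime → q ∣ N → q ∈ S)
    (E : HeckeTorsionAction N S) (h4 : GaloisHeckeComm N) (h6 : TorsionEichlerShimura N)
    (h7 : TorsionGalLevel N) (hfin : ∀ n : ℕ, Finite (JTors N (p ^ n)))
    (θ : heckeAlgebra N 2 (↑S : Set ℕ) →+* ZMod p) :
    eigenspace (torsionHeckeDataOfExport hp hpS hNS E h4 h6 h7) θ ≠ ⊥ := by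
  classical
  set D := torsionHeckeDataOfExport hp hpS hNS E h4 h6 h7 with hD
  obtain ⟨c0, hc0⟩ := E.faithful p hp
  set k := 1 + c0 with hk
  have hpk : 0 < p ^ k := pow_pos hp.pos k
  haveI : Finite (JTors N (p ^ k)) := hfin k
  -- the module structure of `Z = JTors N (p ^ k)` over the Hecke algebra
  letI : Module (heckeAlgebra N 2 (↑S : Set ℕ)) (JTors N (p ^ k)) :=
    Module.compHom (JTors N (p ^ k)) (E.eta (p ^ k) hpk)
  have hsmul : ∀ (t : heckeAlgebra N 2 (↑S : Set ℕ)) (z : JTors N (p ^ k)),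
      t • z = E.eta (p ^ k) hpk t z := fun t z => rfl
  have hker : RingHom.ker θ ≠ ⊤ := by
    intro h
    have : (1 : heckeAlgebra N 2 (↑S : Set ℕ)) ∈ RingHom.ker θ := by rw [h]; exact Submodule.mem_top
    rw [RingHom.mem_ker, map_one] at this
    exact one_ne_zero this
  obtain ⟨z, hz0, hz⟩ := Fermat.Agent.S40x.A.SocleNonzero.exists_ne_zero_smul_eq_zero
    (Z := JTors N (p ^ k)) (RingHom.ker θ) hker (by
      intro r hr
      have h0 : E.eta (p ^ (1 + c0)) (pow_pos hp.pos _) r = 0 := by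
        ext z
        have := hr z
        rw [hsmul] at this
        rw [this]
        rfl
      obtain ⟨y', hy'⟩ := hc0 r 1 h0
      rw [RingHom.mem_ker, hy', pow_one, zsmul_eq_mul, map_mul, map_intCast, Int.cast_natCast,
        ZMod.natCast_self, zero_mul])
  -- `p • z = 0`
  have hpz : p • (z : JZero N) = 0 := by
    have h1 : ((p : ℕ) : heckeAlgebra N 2 (↑S : Set ℕ)) ∈ RingHom.ker θ := by
      rw [RingHom.mem_ker, map_natCast, ZMod.natCast_self]
    have h2 := hz _ h1
    rw [hsmul, map_natCast] at h2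
    have h3 : ((p : AddMonoid.End (JTors N (p ^ k))) z) = p • z := by simp
    rw [h3] at h2
    have := congrArg (fun y : JTors N (p ^ k) => (y : JZero N)) h2
    simpa using this
  -- the corresponding element of `D.M 1 = JTors N (p ^ 1)`
  have hmem : (z : JZero N) ∈ Pic0.torsion (AlgebraicClosure ℚ) (modularFunctionFieldBar N)
      (p ^ 1) := by
    rw [Pic0.mem_torsion, pow_one, natCast_zsmul]
    exact hpz
  let x' : JTors N (p ^ 1) := ⟨(z : JZero N), hmem⟩
  let x : D.M 1 := x'
  have hx0 : x ≠ 0 := by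
    intro h
    apply hz0
    apply Subtype.ext
    have := congrArg (fun y : JTors N (p ^ 1) => (y : JZero N)) h
    exact this
  intro hbot
  have hx : x ∈ eigenspace D θ := by
    intro t
    -- `t - c ∈ ker θ` with `c = (θ t).val`
    set c : ℕ := (θ t).val with hc
    have h1 : t - (c : heckeAlgebra N 2 (↑S : Set ℕ)) ∈ RingHom.ker θ := by
      rw [RingHom.mem_ker, map_sub, map_natCast, hc, ZMod.natCast_zmod_val, sub_self]
    have h2 := hz _ h1
    rw [hsmul, map_sub, map_natCast] at h2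
    have h3 : E.eta (p ^ k) hpk t z = c • z := by
      have h4' : ((c : AddMonoid.End (JTors N (p ^ k))) z) = c • z := by simp
      have h4 : (E.eta (p ^ k) hpk t - (c : AddMonoid.End (JTors N (p ^ k)))) z
          = E.eta (p ^ k) hpk t z - c • z := by
        rw [← h4']
        rfl
      rw [h4] at h2
      exact sub_eq_zero.mp h2
    have h5 := eta_compat hNS E (pow_pos hp.pos 1) hpk t x' z rfl
    have e : θ t • x = c • x := by
      rw [← Nat.cast_smul_eq_nsmul (ZMod p) c x, hc, ZMod.natCast_zmod_val]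
    rw [e]
    apply Subtype.ext
    show ((E.eta (p ^ 1) (pow_pos hp.pos 1) t x' : JTors N (p ^ 1)) : JZero N)
      = ((c • x' : JTors N (p ^ 1)) : JZero N)
    rw [h5, h3, AddSubgroupClass.coe_nsmul, AddSubgroupClass.coe_nsmul]
  rw [hbot, Submodule.mem_bot] at hx
  exact hx0 hx

end Fermat.Agent.S40x.A.EigenNonzero
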