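import Mathlib
import Fermat.Agent.Gateway.Export.C0Good
import Fermat.Agent.Lib.FrobDensity.Main
import Fermat.Agent.S40x.A.EigenNonzero
import Fermat.Agent.S40x.A.CopyOfCurve

/-!
# R4 / (A2)+(A3)+(A4)+(E3), UNCONDITIONAL: a copy of `E[p]` in the `θ`-part of `J₀(N)[p]`
(helper55)

`data N S hp hpS hNS : TorsionHeckeData p N S` is the concrete torsion data of `J₀(N)` (all inputs of
the export contract are landed theorems).  `exists_copy`: for `W : WeierstrassCurve ℤ`, `Δ ≠ 0`,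
`p` odd, `E[p]` irreducible and ANY ring homomorphism `θ : 𝕋_S(N) →+* ZMod p` with
`θ (T_ℓ) = a_ℓ(W) mod p` for almost all `ℓ`, there is an injective `Γℚ`-equivariant `𝔽_p`-linear
map `E[p](ℚ̄) → J₀(N)[p](ℚ̄)` with image in the `θ`-eigenspace.  No hypothesis on `N`.
-/

set_option autoImplicit false

noncomputable section

namespace Fermat.Agent.S40x.A.CopyFinal

open WeierstrassCurve WeierstrassCurve.Affine WeierstrassCurve.Affine.Point Module
  Fermat.Agent.Gateway.S31Red Fermat.Agent.Gateway.Export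
  Fermat.Agent.S40x.A.CopyInTorsion Fermat.Agent.Lib.EC.ReductionTorsion
  Fermat.Agent.Lib.EC.TraceAbstract

local notation "Qbar" => AlgebraicClosure ℚ
local notation "Γℚ" => (AlgebraicClosure ℚ ≃ₐ[ℚ] AlgebraicClosure ℚ)

variable {p : ℕ} (N : ℕ) [NeZero N] (S : Finset ℕ)

/-- the concrete Hecke action on the torsion of `J₀(N)` -/
def action (hNS : ∀ q : ℕ, q.Prime → q ∣ N → q ∈ S) : HeckeTorsionAction N S :=
  heckeTorsionAction N (coreInputs' N) S hNS

/-- the concrete torsion data of `J₀(N)` at `p` -/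
def data (hp : p.Prime) (hpS : p ∈ S) (hNS : ∀ q : ℕ, q.Prime → q ∣ N → q ∈ S) :
    TorsionHeckeData p N S :=
  torsionHeckeDataOfExport hp hpS hNS (action N S hNS) (galoisHeckeComm N)
    (torsionEichlerShimura (partCInputs c0Good N)) (torsionGalLevel N)

attribute [local instance] Fermat.Agent.S40x.A.CopyInTorsion.zmodModule

variable [Fact p.Prime]

/-- **(A2)** for the concrete data. -/
theorem eigenspace_data_ne_bot (hp : p.Prime) (hpS : p ∈ S)
    (hNS : ∀ q : ℕ, q.Prime → q ∣ N → q ∈ S)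
    (θ : CuspForm.heckeAlgebra N 2 (↑S : Set ℕ) →+* ZMod p) :
    eigenspace (data N S hp hpS hNS) θ ≠ ⊥ :=
  Fermat.Agent.S40x.A.EigenNonzero.eigenspace_ne_bot hp hpS hNS (action N S hNS)
    (galoisHeckeComm N) (torsionEichlerShimura (partCInputs c0Good N)) (torsionGalLevel N)
    (fun n => finite_tors N (p ^ n) (pow_pos hp.pos n)) θ

/-- **The copy of `E[p]` in `J₀(N)[p]`**, unconditional form. -/
theorem exists_copy (hp : p.Prime) (hpS : p ∈ S) (hNS : ∀ q : ℕ, q.Prime → q ∣ N → q ∈ S)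
    (W : WeierstrassCurve ℤ) (hΔ : W.Δ ≠ 0) (hp2 : p ≠ 2) (hirr : W.ModRepIsIrreducible p)
    (θ : CuspForm.heckeAlgebra N 2 (↑S : Set ℕ) →+* ZMod p)
    (hθ : ∃ bad : Finset ℕ, ∀ (ℓ : ℕ) (hℓ : ℓ.Prime) (hℓN : ¬ ℓ ∣ N) (hℓS : ℓ ∉ (↑S : Set ℕ)),
      ℓ ∉ bad → θ (CuspForm.heckeAlgebra.T hℓ hℓN hℓS) = ((W.apOfModel ℓ : ℤ) : ZMod p)) :
    ∃ j : tors (curveQbar W).Point p →ₗ[ZMod p] (data N S hp hpS hNS).M 1,
      Function.Injective j ∧ (∀ v, j v ∈ eigenspace (data N S hp hpS hNS) θ) ∧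
      ∀ (g : Γℚ) (v : tors (curveQbar W).Point p),
        j (g • v) = (data N S hp hpS hNS).gal 1 g (j v) :=
  Fermat.Agent.S40x.A.CopyOfCurve.exists_copy_of_curve (data N S hp hpS hNS)
    (frobPowerDense_of_lib Fermat.Agent.Lib.FrobDensity.frobPowerDense) W hΔ hp2 hirr θ hθ
    (eigenspace_data_ne_bot N S hp hpS hNS θ)

end Fermat.Agent.S40x.A.CopyFinal
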