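import Mathlib
import Fermat.Prelude.Def_FLTPrelim_ModularRep
import Fermat.Prelude.Def_GaloisRep_ComplexConjugation
import Fermat.Agent.Lib.EC.ReductionTorsion
import Fermat.Agent.Lib.EC.Frobenius
import Fermat.Agent.Lib.EC.TorsionCard
import Fermat.Agent.Lib.EC.FreyTorsionField
import Fermat.Agent.Lib.CFT.Cheb.Main
import Fermat.Agent.Gateway.S31.RootsOfUnity
import Fermat.Agent.S41.NonEis.Main

/-!
# R4 / (A4) + (E3): the mod `p` representation of an integral Weierstrass curve in matrix form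
(helper28)

`W : WeierstrassCurve ℤ`, `Δ_W ≠ 0`, `p` an odd prime, `V := E[p](ℚ̄)` for `E = W ⊗ ℚ`
(the Prelude's module `Submodule.torsionBy ℤ (E⁄ℚ̄).Point p` over `ZMod p`).

* `finrank_eq_two` : `V` has dimension `2`.
* `rho b` : the matrix representation `G_ℚ →* M₂(𝔽_p)` in a basis `b` of `V`; `rho_mulVec`,
  `rho_equiv`: it is the Galois action on `V` transported by `b`.
* `rho_level` : `rho b` is trivial on the absolute Galois group of a finite extension.
* `rho_frob` : **(A4)** for a prime `ℓ ≠ p` of good reduction of the model `W` and every Frobenius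
  lift `φ` at `ℓ`: `tr ρ(φ) = a_ℓ(W)`, `det ρ(φ) = ℓ` in `𝔽_p` (from `Lib/EC`).
* `det_rho` : **(E3)** `det ρ(σ) = n` whenever `σ ζ = ζ ^ n` for a primitive `p`-th root of unity
  (`det ρ` is the mod `p` cyclotomic character; Chebotarev + (A4)).
* `exists_conj_basis` : a basis in which complex conjugation is `diag(1, -1)`, and, if `E[p]` is
  irreducible, in which both off-diagonal entries of `ρ` are somewhere nonzero (the input of the
  odd Burnside lemma `S40x/A/AbsIrr`).
-/

set_option autoImplicit false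
set_option linter.style.haveILetI false
set_option linter.unusedSectionVars false

noncomputable section

namespace Fermat.Agent.S40x.A.RhoW

open WeierstrassCurve WeierstrassCurve.Affine WeierstrassCurve.Affine.Point Matrix
open Fermat.Agent.Lib.EC.ReductionTorsion Fermat.Agent.Lib.EC.TraceAbstract

local notation "Qbar" => AlgebraicClosure ℚ
local notation "Γℚ" => (AlgebraicClosure ℚ ≃ₐ[ℚ] AlgebraicClosure ℚ)

variable (W : WeierstrassCurve ℤ) (p : ℕ)

/-- the curve over `ℚ` -/
abbrev EQ : WeierstrassCurve ℚ := W.map (Int.castRingHom ℚ)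

/-- `V = E[p](ℚ̄)`, the Prelude's module. -/
abbrev V : Type := Submodule.torsionBy ℤ ((EQ W)⁄Qbar).Point p

theorem isElliptic_EQ (hΔ : W.Δ ≠ 0) : (EQ W).IsElliptic := by
  refine ⟨Ne.isUnit ?_⟩
  rw [EQ, WeierstrassCurve.map_Δ]
  simpa using hΔ

variable [Fact p.Prime]

theorem card_V (hΔ : W.Δ ≠ 0) : Nat.card (V W p) = p ^ 2 := by
  haveI := isElliptic_EQ W hΔ
  exact Fermat.Agent.Lib.EC.TorsionCard.card_torsionBy (EQ W) Qbar (n := p)
    (Nat.cast_ne_zero.mpr (Fact.out : p.Prime).ne_zero)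

theorem finite_V (hΔ : W.Δ ≠ 0) : Finite (V W p) := by
  apply Nat.finite_of_card_ne_zero
  rw [card_V W p hΔ]
  exact pow_ne_zero 2 (Fact.out : p.Prime).ne_zero

theorem finrank_eq_two (hΔ : W.Δ ≠ 0) : Module.finrank (ZMod p) (V W p) = 2 := by
  haveI := finite_V W p hΔ
  have h := Module.natCard_eq_pow_finrank (K := ZMod p) (V := V W p)
  rw [Nat.card_zmod, card_V W p hΔ] at h
  exact (Nat.pow_right_injective (Fact.out : p.Prime).two_le h).symm

/-- the Galois action on `V` as a monoid hom to `End` (the Prelude's `galoisRepModuleEnd`). -/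
abbrev gal : Γℚ →* Module.End (ZMod p) (V W p) := galoisRepModuleEnd ℚ (EQ W) p

/-- The matrix representation in the basis `b`. -/
def rho (b : Module.Basis (Fin 2) (ZMod p) (V W p)) : Γℚ →* Matrix (Fin 2) (Fin 2) (ZMod p) :=
  ((LinearMap.toMatrixAlgEquiv b : Module.End (ZMod p) (V W p) ≃ₐ[ZMod p] _) :
    Module.End (ZMod p) (V W p) →* Matrix (Fin 2) (Fin 2) (ZMod p)).comp (gal W p)

variable {W p}

theorem rho_apply (b : Module.Basis (Fin 2) (ZMod p) (V W p)) (σ : Γℚ) :
    rho W p b σ = LinearMap.toMatrix b b (gal W p σ) := rfl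

theorem rho_entry (b : Module.Basis (Fin 2) (ZMod p) (V W p)) (σ : Γℚ) (i j : Fin 2) :
    rho W p b σ i j = b.repr (σ • b j) i := by
  rw [rho_apply, LinearMap.toMatrix_apply]
  rfl

/-- the action on `V` in coordinates -/
theorem rho_mulVec (b : Module.Basis (Fin 2) (ZMod p) (V W p)) (σ : Γℚ) (v : V W p) :
    (rho W p b σ).mulVec (b.repr v) = b.repr (σ • v) := by
  rw [rho_apply]
  exact LinearMap.toMatrix_mulVec_repr b b (gal W p σ) v

/-- the linear equivalence `𝔽_p² ≃ V` given by `b` intertwines `ρ` with the Galois action. -/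
theorem rho_equiv (b : Module.Basis (Fin 2) (ZMod p) (V W p)) (σ : Γℚ) (w : Fin 2 → ZMod p) :
    b.equivFun.symm ((rho W p b σ).mulVec w) = σ • b.equivFun.symm w := by
  apply b.equivFun.injective
  rw [LinearEquiv.apply_symm_apply]
  have h := rho_mulVec b σ (b.equivFun.symm w)
  have e : (b.repr (b.equivFun.symm w) : Fin 2 → ZMod p) = w := by
    have := b.equivFun.apply_symm_apply w
    exact this
  rw [e] at h
  exact h

theorem rho_trace (b : Module.Basis (Fin 2) (ZMod p) (V W p)) (σ : Γℚ) :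
    (rho W p b σ).trace = galoisTrace ℚ (EQ W) p σ := by
  rw [rho_apply, galoisTrace_def]
  exact (LinearMap.trace_eq_matrix_trace (ZMod p) b (gal W p σ)).symm

theorem rho_det (b : Module.Basis (Fin 2) (ZMod p) (V W p)) (σ : Γℚ) :
    (rho W p b σ).det = LinearMap.det (gal W p σ) := by
  rw [rho_apply]
  exact LinearMap.det_toMatrix b (gal W p σ)

/-- `ρ` depends only on the action on `V`. -/
theorem rho_congr (b : Module.Basis (Fin 2) (ZMod p) (V W p)) {σ τ : Γℚ}
    (h : ∀ v : V W p, σ • v = τ • v) : rho W p b σ = rho W p b τ := by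
  rw [rho_apply, rho_apply]
  congr 1
  exact LinearMap.ext h

/-! ### (A4): traces and determinants of Frobenius lifts -/

/-- **(A4)** -/
theorem rho_frob (b : Module.Basis (Fin 2) (ZMod p) (V W p)) (hΔ : W.Δ ≠ 0) {ℓ : ℕ}
    (hℓ : ℓ.Prime) (hℓp : ℓ ≠ p) (hgood : W.IsGoodPrimeFor ℓ)
    (A : ValuationSubring Qbar) (hA : A.LiesOverPrime ℓ) (φ : Γℚ) (hφ : A.IsFrobeniusAt φ ℓ) :
    (rho W p b φ).trace = ((W.apOfModel ℓ : ℤ) : ZMod p) ∧
      (rho W p b φ).det = ((ℓ : ℕ) : ZMod p) := by
  haveI : Fact ℓ.Prime := ⟨hℓ⟩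
  have hT : TorsionCardHyp W p := card_V W p hΔ
  have hF : FrobeniusHyp W ℓ := Fermat.Agent.Lib.EC.Frobenius.frobeniusHyp W ℓ hgood
  obtain ⟨h1, h2⟩ := trace_frobenius_lift W (Ne.symm hℓp) hgood A hA φ hφ hT hF
  refine ⟨(rho_trace b φ).trans h1, (rho_det b φ).trans (h2.trans ?_)⟩
  push_cast
  rfl

/-! ### finite level -/

theorem rho_level (b : Module.Basis (Fin 2) (ZMod p) (V W p)) (hΔ : W.Δ ≠ 0) :
    ∃ L : IntermediateField ℚ Qbar, FiniteDimensional ℚ L ∧
      ∀ σ : Γℚ, (∀ x ∈ L, σ x = x) → rho W p b σ = 1 := by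
  haveI := isElliptic_EQ W hΔ
  obtain ⟨L, hL, hρ⟩ :=
    Fermat.Agent.Lib.EC.FreyTorsionField.galoisFactorsThroughFiniteLevel_of_finite (EQ W) p
      (Fermat.Agent.S41.NonEis.finite_torsion (EQ W) (Fact.out : p.Prime).pos)
  refine ⟨L, hL, fun σ hσ => ?_⟩
  have h := hρ σ hσ
  rw [rho_apply]
  show LinearMap.toMatrix b b (galoisRepModuleEnd ℚ (EQ W) p σ) = 1
  rw [h]
  exact LinearMap.toMatrix_one b

/-! ### (E3): the determinant is the cyclotomic character -/

theorem smul_eq_of_torsion (v : V W p) : (p : ℕ) • ((v : V W p) : ((EQ W)⁄Qbar).Point) = 0 := by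
  have h := (Submodule.mem_torsionBy_iff _ _).mp v.2
  rwa [natCast_zsmul] at h

/-- Chebotarev: every `σ` acts on `V` and on `ζ` like a Frobenius lift at a good prime `ℓ ≠ p`
outside a given finite set. -/
theorem exists_frob_like (b : Module.Basis (Fin 2) (ZMod p) (V W p)) (hΔ : W.Δ ≠ 0) (σ : Γℚ)
    (ζ : Qbar) (hζ : ζ ^ p = 1) (B : Finset ℕ) :
    ∃ ℓ : ℕ, ℓ.Prime ∧ ℓ ∉ B ∧ ℓ ≠ p ∧ W.IsGoodPrimeFor ℓ ∧ σ ζ = ζ ^ ℓ ∧
      (rho W p b σ).trace = ((W.apOfModel ℓ : ℤ) : ZMod p) ∧
      (rho W p b σ).det = ((ℓ : ℕ) : ZMod p) := by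
  have hp : p.Prime := Fact.out
  haveI := isElliptic_EQ W hΔ
  obtain ⟨K, hKfin, hKgal, hζK, hK⟩ := Fermat.Agent.S41.NonEis.exists_galois_field (EQ W) hp.pos ζ
  haveI := hKfin
  haveI := hKgal
  obtain ⟨ℓ, hℓ, hℓS, A, hA, φ, hφ, hφσ⟩ :=
    Fermat.Agent.Lib.CFT.Cheb.exists_frobenius_lift K σ (B ∪ {p} ∪ W.Δ.natAbs.primeFactors)
  have hℓB : ℓ ∉ B := fun h => hℓS (Finset.mem_union_left _ (Finset.mem_union_left _ h))
  have hℓp : ℓ ≠ p := by
    rintro rfl
    exact hℓS (Finset.mem_union_left _ (Finset.mem_union_right _ (Finset.mem_singleton_self _)))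
  have hgood : W.IsGoodPrimeFor ℓ := by
    intro h
    apply hℓS
    refine Finset.mem_union_right _ (Nat.mem_primeFactors.mpr ⟨hℓ, ?_, ?_⟩)
    · exact Int.natCast_dvd.mp h
    · exact Int.natAbs_ne_zero.mpr hΔ
  have hρ : rho W p b σ = rho W p b φ := by
    apply rho_congr
    intro v
    apply Subtype.ext
    exact (hK φ σ hφσ (v : ((EQ W)⁄Qbar).Point) (smul_eq_of_torsion v)).symm
  have hℓp' : ¬ ℓ ∣ p := fun h => hℓp ((Nat.prime_dvd_prime_iff_eq hℓ hp).mp h)
  have hσζ : σ ζ = ζ ^ ℓ := by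
    rw [← hφσ ζ hζK]
    exact Fermat.Agent.Gateway.S31Red.frob_apply_rootOfUnity hℓ hA hφ hℓp' hζ
  obtain ⟨h1, h2⟩ := rho_frob b hΔ hℓ hℓp hgood A hA φ hφ
  exact ⟨ℓ, hℓ, hℓB, hℓp, hgood, hσζ, hρ ▸ h1, hρ ▸ h2⟩

/-- **(E3)** `det ρ` is the mod `p` cyclotomic character: if `σ ζ = ζ ^ n` for a primitive `p`-th
root of unity `ζ`, then `det ρ(σ) = n` in `𝔽_p`. -/
theorem det_rho (b : Module.Basis (Fin 2) (ZMod p) (V W p)) (hΔ : W.Δ ≠ 0) (σ : Γℚ)
    {ζ : Qbar} (hζ : IsPrimitiveRoot ζ p) {n : ℕ} (hn : σ ζ = ζ ^ n) :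
    (rho W p b σ).det = ((n : ℕ) : ZMod p) := by
  have hp : p.Prime := Fact.out
  obtain ⟨ℓ, -, -, -, -, hσζ, -, hdet⟩ := exists_frob_like b hΔ σ ζ hζ.pow_eq_one ∅
  rw [hdet]
  exact Fermat.Agent.S41.NonEis.natCast_eq_of_pow_eq hp.pos hζ (hσζ.symm.trans hn)

/-- complex conjugation has determinant `-1`. -/
theorem det_rho_complexConjugation (b : Module.Basis (Fin 2) (ZMod p) (V W p)) (hΔ : W.Δ ≠ 0) :
    (rho W p b complexConjugation).det = -1 := by
  have hp : p.Prime := Fact.out
  haveI : NeZero p := ⟨hp.ne_zero⟩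
  haveI : NeZero (p : ℚ) := ⟨by exact_mod_cast hp.ne_zero⟩
  obtain ⟨ζ, hζ⟩ := HasEnoughRootsOfUnity.exists_primitiveRoot Qbar p
  have h1 : complexConjugation ζ = ζ ^ (p - 1) := by
    rw [Fermat.Agent.S41.NonEis.complexConjugation_rootOfUnity hp.ne_zero hζ.pow_eq_one]
    have hζ0 : ζ ≠ 0 := hζ.ne_zero hp.ne_zero
    have h2 : ζ * ζ ^ (p - 1) = 1 := by
      rw [← pow_succ', Nat.sub_add_cancel hp.one_le, hζ.pow_eq_one]
    exact (eq_inv_of_mul_eq_one_right h2).symm
  rw [det_rho b hΔ complexConjugation hζ h1, Nat.cast_sub hp.one_le, ZMod.natCast_self]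
  simp

/-! ### a basis adapted to complex conjugation -/

theorem neg_one_ne_one_zmod (hp2 : p ≠ 2) : (-1 : ZMod p) ≠ 1 := by
  have hp : p.Prime := Fact.out
  intro h
  have h2 : ((2 : ℕ) : ZMod p) = 0 := by
    have : (1 : ZMod p) + 1 = 0 := by
      nth_rewrite 1 [← h]
      ring
    push_cast
    rw [← this]
    norm_num
  have h3 := (ZMod.natCast_eq_zero_iff 2 p).mp h2
  exact hp2 ((Nat.prime_dvd_prime_iff_eq hp Nat.prime_two).mp h3)

/-- **eigenbasis of complex conjugation**: there is a basis of `V` in which `ρ(c) = diag(1, -1)`. -/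
theorem exists_conj_basis (hΔ : W.Δ ≠ 0) (hp2 : p ≠ 2) :
    ∃ b : Module.Basis (Fin 2) (ZMod p) (V W p),
      rho W p b complexConjugation = !![1, 0; 0, -1] := by
  classical
  have hp : p.Prime := Fact.out
  have hne := neg_one_ne_one_zmod (p := p) hp2
  have h2 : (2 : ZMod p) ≠ 0 := by
    intro h
    apply hne
    have : (1 : ZMod p) + 1 = 0 := by rw [← h]; norm_num
    exact (eq_neg_of_add_eq_zero_left this).symm
  haveI := finite_V W p hΔ
  haveI : Module.Finite (ZMod p) (V W p) := Module.Finite.of_finite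
  obtain b₀ : Module.Basis (Fin 2) (ZMod p) (V W p) :=
    Module.finBasisOfFinrankEq (ZMod p) (V W p) (finrank_eq_two W p hΔ)
  let f : Module.End (ZMod p) (V W p) := gal W p complexConjugation
  have hff : ∀ v, f (f v) = v := by
    intro v
    have : (gal W p complexConjugation * gal W p complexConjugation) v = v := by
      rw [← map_mul, complexConjugation_mul_self, map_one]
      rfl
    exact this
  have hdet : LinearMap.det f = -1 := by
    rw [← rho_det b₀ complexConjugation]
    exact det_rho_complexConjugation b₀ hΔ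
  -- `f ≠ 1` and `f ≠ -1`
  have hd1 : LinearMap.det (1 : Module.End (ZMod p) (V W p)) = 1 := map_one _
  have hdm1 : LinearMap.det (-1 : Module.End (ZMod p) (V W p)) = 1 := by
    have : (-1 : Module.End (ZMod p) (V W p)) = (-1 : ZMod p) • (1 : Module.End (ZMod p) (V W p)) := by
      simp
    rw [this, LinearMap.det_smul, hd1, finrank_eq_two W p hΔ]
    norm_num
  have hf1 : f ≠ 1 := by
    intro h
    rw [h, hd1] at hdet
    exact hne hdet.symm
  have hfm1 : f ≠ -1 := by
    intro h
    rw [h, hdm1] at hdet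
    exact hne hdet.symm
  obtain ⟨u, hu⟩ : ∃ u, f u ≠ u := by
    by_contra hcon
    push Not at hcon
    exact hf1 (LinearMap.ext hcon)
  obtain ⟨u', hu'⟩ : ∃ u, f u ≠ -u := by
    by_contra hcon
    push Not at hcon
    exact hfm1 (LinearMap.ext fun v => by rw [hcon v]; rfl)
  set v₁ : V W p := u' + f u' with hv₁
  set v₂ : V W p := u - f u with hv₂
  have hv₁0 : v₁ ≠ 0 := fun h => hu' (eq_neg_of_add_eq_zero_right h)
  have hv₂0 : v₂ ≠ 0 := fun h => hu (sub_eq_zero.mp h).symm
  have hfv₁ : f v₁ = v₁ := by rw [hv₁, map_add, hff, add_comm]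
  have hfv₂ : f v₂ = -v₂ := by rw [hv₂, map_sub, hff, neg_sub]
  have hli : LinearIndependent (ZMod p) ![v₁, v₂] := by
    rw [LinearIndependent.pair_iff]
    intro s t hst
    have h3 : s • v₁ - t • v₂ = 0 := by
      have := congrArg f hst
      rw [map_add, map_smul, map_smul, hfv₁, hfv₂, _root_.map_zero, smul_neg,
        ← sub_eq_add_neg] at this
      exact this
    have hs : s = 0 := by
      have h4 : (2 * s) • v₁ = 0 := by
        have : (2 * s) • v₁ = (s • v₁ + t • v₂) + (s • v₁ - t • v₂) := by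
          rw [mul_smul, two_smul]
          abel
        rw [this, hst, h3, add_zero]
      rcases smul_eq_zero.mp h4 with h5 | h5
      · rcases mul_eq_zero.mp h5 with h6 | h6
        · exact absurd h6 h2
        · exact h6
      · exact absurd h5 hv₁0
    have ht : t = 0 := by
      rw [hs, zero_smul, zero_add] at hst
      rcases smul_eq_zero.mp hst with h5 | h5
      · exact h5
      · exact absurd h5 hv₂0
    exact ⟨hs, ht⟩
  have hcard : Fintype.card (Fin 2) = Module.finrank (ZMod p) (V W p) := by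
    rw [finrank_eq_two W p hΔ, Fintype.card_fin]
  let b : Module.Basis (Fin 2) (ZMod p) (V W p) := basisOfLinearIndependentOfCardEqFinrank hli hcard
  have hb : ∀ i, b i = ![v₁, v₂] i := fun i => by
    simp [b, coe_basisOfLinearIndependentOfCardEqFinrank]
  have hb0 : b 0 = v₁ := hb 0
  have hb1 : b 1 = v₂ := hb 1
  refine ⟨b, ?_⟩
  ext i j
  rw [rho_entry]
  have e0 : complexConjugation • b 0 = b 0 := by
    rw [hb0]
    exact hfv₁
  have e1 : complexConjugation • b 1 = -b 1 := by
    rw [hb1]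
    exact hfv₂
  fin_cases j
  · show b.repr (complexConjugation • b 0) i = _
    rw [e0, b.repr_self]
    fin_cases i <;> simp
  · show b.repr (complexConjugation • b 1) i = _
    rw [e1, map_neg, b.repr_self]
    fin_cases i <;> simp

/-- if `E[p]` is irreducible, both off-diagonal entries of `ρ` are nonzero somewhere. -/
theorem exists_offdiag_ne_zero (b : Module.Basis (Fin 2) (ZMod p) (V W p))
    (hirr : W.ModRepIsIrreducible p) :
    (∃ g : Γℚ, rho W p b g 0 1 ≠ 0) ∧ (∃ g : Γℚ, rho W p b g 1 0 ≠ 0) := by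
  have key : ∀ j : Fin 2, ∃ g : Γℚ, ∃ i : Fin 2, i ≠ j ∧ rho W p b g i j ≠ 0 := by
    intro j
    by_contra hcon
    push Not at hcon
    -- the line spanned by `b j` is stable
    let N : Submodule (ZMod p) (V W p) := Submodule.span (ZMod p) {b j}
    have hstab : IsGaloisStable ℚ N := by
      intro σ x hx
      obtain ⟨c, rfl⟩ := Submodule.mem_span_singleton.mp hx
      have h1 : σ • b j = (rho W p b σ j j) • b j := by
        have h2 := b.sum_repr (σ • b j)
        conv_lhs => rw [← h2]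
        rw [Finset.sum_eq_single j]
        · rw [rho_entry]
        · intro i _ hij
          have h3 : b.repr (σ • b j) i = 0 := by
            rw [← rho_entry]
            exact hcon σ i hij
          rw [h3, zero_smul]
        · intro h
          exact absurd (Finset.mem_univ j) h
      have h4 : σ • (c • b j) = c • σ • b j := smul_comm σ c (b j)
      rw [h4, h1, smul_smul]
      exact Submodule.smul_mem _ _ (Submodule.mem_span_singleton_self _)
    rcases hirr.2 N hstab with h | h
    · have : b j ∈ N := Submodule.mem_span_singleton_self _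
      rw [h, Submodule.mem_bot] at this
      exact b.ne_zero j this
    · -- the other basis vector is not in the line
      have hfr : Module.finrank (ZMod p) N ≤ 1 := by
        have := finrank_span_singleton (K := ZMod p) (b.ne_zero j)
        exact this.le
      have h2 : Module.finrank (ZMod p) (⊤ : Submodule (ZMod p) (V W p)) = 2 := by
        rw [finrank_top]
        have := Module.finrank_eq_card_basis b
        rw [this, Fintype.card_fin]
      rw [h, h2] at hfr
      omega
  constructor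
  · obtain ⟨g, i, hij, hg⟩ := key 1
    refine ⟨g, ?_⟩
    fin_cases i
    · exact hg
    · exact absurd rfl hij
  · obtain ⟨g, i, hij, hg⟩ := key 0
    refine ⟨g, ?_⟩
    fin_cases i
    · exact absurd rfl hij
    · exact hg

end Fermat.Agent.S40x.A.RhoW
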