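import Mathlib
import Fermat.Prelude.Def_FLTPrelim_ModularRep
import Fermat.Agent.Gateway.EigenChar
import Fermat.Agent.S22

/-!
# R4 / (A1): the mod `p` Hecke character attached to a residually modular curve (helper28)

`W` an integral Weierstrass curve which is residually modular of level `M` at `p` (witness: a
normalised eigenform `f` and a maximal ideal `𝔪 ∋ p` of `ℤ̄ ⊆ ℂ` with `a_ℓ(f) ≡ a_ℓ(W) mod 𝔪`).
If the finite set `S` contains `p`, the primes dividing `M` and the primes of bad reduction of the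
model `W`, then the eigencharacter of `f` on the anemic Hecke algebra `𝕋_S(M)`, reduced modulo `𝔪`,
takes its values in the prime field: it is a ring homomorphism

  `θ : heckeAlgebra M 2 S →+* ZMod p`   with   `θ (T_ℓ) = a_ℓ(W) mod p`   for all `ℓ ∉ S`.

Inputs: `Gateway/EigenChar` (eigencharacter of a normalised eigenform), `S22` (the Hecke algebra is a
finite `ℤ`-module, hence eigenvalues are algebraic integers).
-/

set_option autoImplicit false
set_option linter.style.haveILetI false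

noncomputable section

namespace Fermat.Agent.S40x.A.Theta

open CuspForm Fermat.Agent.Gateway.Assembly

/-- A ring homomorphism into a ring of characteristic `p` whose image lies in the image of `ℤ`
factors through `ZMod p`. -/
theorem exists_lift_zmod {R κ : Type*} [CommRing R] [Field κ] {p : ℕ} [Fact p.Prime] [CharP κ p]
    (φ : R →+* κ) (hφ : ∀ r : R, ∃ z : ℤ, φ r = (z : κ)) :
    ∃ θ : R →+* ZMod p, ∀ r : R, ∀ z : ℤ, φ r = (z : κ) → θ r = (z : ZMod p) := by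
  classical
  let ι : ZMod p →+* κ := ZMod.castHom (dvd_refl p) κ
  have hι : Function.Injective ι := ι.injective
  have hιz : ∀ z : ℤ, ι (z : ZMod p) = (z : κ) := fun z => map_intCast ι z
  have hmem : ∀ r : R, φ r ∈ ι.range := by
    intro r
    obtain ⟨z, hz⟩ := hφ r
    exact ⟨(z : ZMod p), by rw [hιz, hz]⟩
  let e : ZMod p ≃+* ι.range := RingEquiv.ofBijective ι.rangeRestrict
    ⟨fun a b hab => hι (congrArg Subtype.val hab), ι.rangeRestrict_surjective⟩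
  let θ : R →+* ZMod p := e.symm.toRingHom.comp (φ.codRestrict ι.range hmem)
  refine ⟨θ, fun r z hz => ?_⟩
  show e.symm (φ.codRestrict ι.range hmem r) = (z : ZMod p)
  rw [RingEquiv.symm_apply_eq]
  apply Subtype.ext
  show φ r = ι (z : ZMod p)
  rw [hιz, hz]

variable (W : WeierstrassCurve ℤ) {p M : ℕ} [NeZero M]

/-- **(A1)** the mod `p` character of the anemic Hecke algebra attached to a residually modular
curve. -/
theorem exists_theta (hp : p.Prime) (S : Finset ℕ)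
    (hSM : ∀ q : ℕ, q.Prime → q ∣ M → q ∈ S) (hSp : p ∈ S)
    (hSW : ∀ q : ℕ, q.Prime → ¬ W.IsGoodPrimeFor q → q ∈ S)
    (hmod : W.IsResiduallyModularOfLevel p M) :
    ∃ θ : heckeAlgebra M 2 (↑S : Set ℕ) →+* ZMod p,
      ∀ (ℓ : ℕ) (hℓ : ℓ.Prime) (hℓM : ¬ ℓ ∣ M) (hℓS : ℓ ∉ (↑S : Set ℕ)),
        θ (heckeAlgebra.T hℓ hℓM hℓS) = ((W.apOfModel ℓ : ℤ) : ZMod p) := by
  classical
  haveI : Fact p.Prime := ⟨hp⟩
  obtain ⟨f, 𝔪, hf, hmax, hpm, hcong⟩ := hmod
  have hS : ∀ q : ℕ, q.Prime → q ∣ M → q ∈ (↑S : Set ℕ) := fun q hq hqM =>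
    Finset.mem_coe.mpr (hSM q hq hqM)
  have hfin : Module.Finite ℤ (heckeAlgebra M 2 (↑S : Set ℕ)) := Fermat.Agent.S22.result M 2 _
  -- the eigencharacter with values in the algebraic integers
  let χ : heckeAlgebra M 2 (↑S : Set ℕ) →+* ℂ := eigenChar hS hf
  have hχint : ∀ t, χ t ∈ (integralClosure ℤ ℂ).toSubring := fun t =>
    eigenChar_isIntegral hS hf hfin t
  let χ' : heckeAlgebra M 2 (↑S : Set ℕ) →+* integralClosure ℤ ℂ :=
    χ.codRestrict (integralClosure ℤ ℂ).toSubring hχint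
  have hχ' : ∀ t, ((χ' t : integralClosure ℤ ℂ) : ℂ) = χ t := fun _ => rfl
  -- the residue field
  haveI := hmax
  letI : Field (integralClosure ℤ ℂ ⧸ 𝔪) := Ideal.Quotient.field 𝔪
  have hp0 : ((p : ℕ) : integralClosure ℤ ℂ ⧸ 𝔪) = 0 := by
    have : (Ideal.Quotient.mk 𝔪) ((p : ℕ) : integralClosure ℤ ℂ) = 0 :=
      Ideal.Quotient.eq_zero_iff_mem.mpr hpm
    rwa [map_natCast] at this
  haveI : CharP (integralClosure ℤ ℂ ⧸ 𝔪) p := (CharP.charP_iff_prime_eq_zero hp).mpr hp0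
  let φ : heckeAlgebra M 2 (↑S : Set ℕ) →+* (integralClosure ℤ ℂ ⧸ 𝔪) :=
    (Ideal.Quotient.mk 𝔪).comp χ'
  -- values at the generators
  have hT : ∀ (ℓ : ℕ) (hℓ : ℓ.Prime) (hℓM : ¬ ℓ ∣ M) (hℓS : ℓ ∉ (↑S : Set ℕ)),
      φ (heckeAlgebra.T hℓ hℓM hℓS) = ((W.apOfModel ℓ : ℤ) : integralClosure ℤ ℂ ⧸ 𝔪) := by
    intro ℓ hℓ hℓM hℓS
    have hgood : W.IsGoodPrimeFor ℓ := by
      by_contra h
      exact hℓS (Finset.mem_coe.mpr (hSW ℓ hℓ h))
    have hℓp : ℓ ≠ p := by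
      rintro rfl
      exact hℓS (Finset.mem_coe.mpr hSp)
    obtain ⟨a, ha, ham⟩ := hcong ℓ hℓ hgood hℓM hℓp
    have hχa : χ' (heckeAlgebra.T hℓ hℓM hℓS) = a := by
      apply Subtype.ext
      rw [hχ', ha]
      exact eigenChar_T hS hf hℓ hℓM hℓS
    show (Ideal.Quotient.mk 𝔪) (χ' (heckeAlgebra.T hℓ hℓM hℓS)) = _
    rw [hχa, ← map_intCast (Ideal.Quotient.mk 𝔪)]
    exact Ideal.Quotient.eq.mpr ham
  -- the image lies in the prime field
  have hφ : ∀ t : heckeAlgebra M 2 (↑S : Set ℕ), ∃ z : ℤ, φ t = (z : integralClosure ℤ ℂ ⧸ 𝔪) := by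
    rintro ⟨t, ht⟩
    induction ht using Algebra.adjoin_induction with
    | mem x hx =>
      rcases hx with ⟨ℓ, hℓ, hℓM, hℓS, rfl⟩ | ⟨q, hqM, hq, hqS, rfl⟩
      · exact ⟨W.apOfModel ℓ, hT ℓ hℓ hℓM hℓS⟩
      · exact absurd (hS q hq hqM) hqS
    | algebraMap r =>
      refine ⟨r, ?_⟩
      have : (⟨algebraMap ℤ _ r, Subalgebra.algebraMap_mem _ r⟩ : heckeAlgebra M 2 (↑S : Set ℕ))
          = ((r : ℤ) : heckeAlgebra M 2 (↑S : Set ℕ)) := by
        apply Subtype.ext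
        simp
      rw [this, map_intCast]
    | add x y hx hy ihx ihy =>
      obtain ⟨a, ha⟩ := ihx
      obtain ⟨b, hb⟩ := ihy
      refine ⟨a + b, ?_⟩
      have : (⟨x + y, Subalgebra.add_mem _ hx hy⟩ : heckeAlgebra M 2 (↑S : Set ℕ))
          = ⟨x, hx⟩ + ⟨y, hy⟩ := rfl
      rw [this, map_add, ha, hb, Int.cast_add]
    | mul x y hx hy ihx ihy =>
      obtain ⟨a, ha⟩ := ihx
      obtain ⟨b, hb⟩ := ihy
      refine ⟨a * b, ?_⟩
      have : (⟨x * y, Subalgebra.mul_mem _ hx hy⟩ : heckeAlgebra M 2 (↑S : Set ℕ))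
          = ⟨x, hx⟩ * ⟨y, hy⟩ := rfl
      rw [this, map_mul, ha, hb, Int.cast_mul]
  obtain ⟨θ, hθ⟩ := exists_lift_zmod φ hφ
  exact ⟨θ, fun ℓ hℓ hℓM hℓS => hθ _ _ (hT ℓ hℓ hℓM hℓS)⟩

end Fermat.Agent.S40x.A.Theta
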