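import Mathlib
import Fermat.Agent.S40x.A.Theta
import Fermat.Agent.S40x.A.RhoW
import Fermat.Agent.S40x.A.AbsIrr
import Fermat.Agent.S40x.A.CopyInTorsion
import Fermat.Agent.Lib.FrobDensity.Main

/-!
# R4 / (A1)+(A3)+(A4) assembled: a Galois-equivariant copy of `E[p]` inside `J₀(N)[p][θ]`
(helper28, on top of helper55's `CopyInTorsion`)

`W` an integral Weierstrass curve with `Δ ≠ 0`, `p` odd, `E[p]` irreducible; `D` torsion Hecke data
of level `N` away from `S`, where `S` contains `p` and the primes of bad reduction of `W`;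
`θ : 𝕋_S(N) →+* 𝔽_p` with `θ(T_ℓ) = a_ℓ(W)` for all `ℓ ∉ S`, `ℓ ∤ N`.  If the `θ`-eigenspace of
`D.M 1 = J₀(N)[p]` is nonzero then it contains a `G_ℚ`-equivariant copy of `V = E[p](ℚ̄)`
(`exists_copy_W`).  With `Theta.exists_theta` (the character of a residually modular curve) this is
`exists_copy_of_residuallyModular`.
-/

set_option autoImplicit false
set_option linter.style.haveILetI false
set_option linter.unusedSectionVars false

noncomputable section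

namespace Fermat.Agent.S40x.A.CopyW

open Matrix CuspForm Fermat.Agent.Gateway.S31Red Fermat.Agent.S40x.A.CopyInTorsion
  Fermat.Agent.S40x.A.RhoW WeierstrassCurve WeierstrassCurve.Affine.Point

local notation "Qbar" => AlgebraicClosure ℚ
local notation "Γℚ" => (AlgebraicClosure ℚ ≃ₐ[ℚ] AlgebraicClosure ℚ)

attribute [local instance] Fermat.Agent.S40x.A.CopyInTorsion.zmodModule

variable {p N : ℕ} [Fact p.Prime] [NeZero N] {S : Finset ℕ} (D : TorsionHeckeData p N S)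
  (W : WeierstrassCurve ℤ)

/-- the Frobenius compatibility of `ρ_W` with a character `θ` taking the values `a_ℓ(W)`. -/
theorem frobCompat (b : Module.Basis (Fin 2) (ZMod p) (V W p)) (hΔ : W.Δ ≠ 0) (hSp : p ∈ S)
    (hSW : ∀ q : ℕ, q.Prime → ¬ W.IsGoodPrimeFor q → q ∈ S)
    (θ : heckeAlgebra N 2 (↑S : Set ℕ) →+* ZMod p)
    (hθ : ∀ (ℓ : ℕ) (hℓ : ℓ.Prime) (hℓN : ¬ ℓ ∣ N) (hℓS : ℓ ∉ (↑S : Set ℕ)),
      θ (heckeAlgebra.T hℓ hℓN hℓS) = ((W.apOfModel ℓ : ℤ) : ZMod p)) :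
    FrobCompat (N := N) (S := S) θ (rho W p b) where
  level := rho_level b hΔ
  frob := by
    refine ⟨∅, fun ℓ hℓ hℓN hℓS _ A hA φ hφ => ?_⟩
    have hgood : W.IsGoodPrimeFor ℓ := by
      by_contra h
      exact hℓS (Finset.mem_coe.mpr (hSW ℓ hℓ h))
    have hℓp : ℓ ≠ p := by
      rintro rfl
      exact hℓS (Finset.mem_coe.mpr hSp)
    obtain ⟨h1, h2⟩ := rho_frob b hΔ hℓ hℓp hgood A hA φ hφ
    exact ⟨h1.trans (hθ ℓ hℓ hℓN hℓS).symm, h2⟩

/-- **a copy of `E[p]` in the `θ`-eigenspace of `J₀(N)[p]`.** -/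
theorem exists_copy_W (hΔ : W.Δ ≠ 0) (hp2 : p ≠ 2) (hirr : W.ModRepIsIrreducible p)
    (hSp : p ∈ S) (hSW : ∀ q : ℕ, q.Prime → ¬ W.IsGoodPrimeFor q → q ∈ S)
    (θ : heckeAlgebra N 2 (↑S : Set ℕ) →+* ZMod p)
    (hθ : ∀ (ℓ : ℕ) (hℓ : ℓ.Prime) (hℓN : ¬ ℓ ∣ N) (hℓS : ℓ ∉ (↑S : Set ℕ)),
      θ (heckeAlgebra.T hℓ hℓN hℓS) = ((W.apOfModel ℓ : ℤ) : ZMod p))
    (hne : eigenspace D θ ≠ ⊥) :
    ∃ ι : V W p →ₗ[ZMod p] D.M 1, Function.Injective ι ∧ (∀ v, ι v ∈ eigenspace D θ) ∧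
      ∀ (g : Γℚ) (v : V W p), ι (g • v) = D.gal 1 g (ι v) := by
  obtain ⟨b, hb⟩ := exists_conj_basis (W := W) (p := p) hΔ hp2
  obtain ⟨h01, h10⟩ := exists_offdiag_ne_zero b hirr
  have hspan : Function.Surjective (Fermat.Agent.S40x.A.CHModule.rhoAlg (rho W p b)) :=
    Fermat.Agent.S40x.A.AbsIrr.surjective_rhoAlg_of_diag (rho W p b) complexConjugation 1 (-1)
      (fun h => neg_one_ne_one_zmod (p := p) hp2 h.symm) hb h01 h10
  obtain ⟨ι₀, hinj, hmem, heq⟩ := exists_copy D Fermat.Agent.Lib.FrobDensity.frobPowerDense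
    (frobCompat W b hΔ hSp hSW θ hθ) hspan hne
  refine ⟨ι₀.comp b.equivFun.toLinearMap, hinj.comp b.equivFun.injective, fun v => hmem _, ?_⟩
  intro g v
  show ι₀ (b.equivFun (g • v)) = D.gal 1 g (ι₀ (b.equivFun v))
  rw [← heq g (b.equivFun v)]
  congr 1
  exact (rho_mulVec b g v).symm

/-- the same, starting from residual modularity of level `N` (the character is produced by
`Theta.exists_theta`; the eigenspace hypothesis is stated for every character with the right values,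
so that (A2) `EigenNonzero.eigenspace_ne_bot` plugs in). -/
theorem exists_copy_of_residuallyModular (hΔ : W.Δ ≠ 0) (hp2 : p ≠ 2)
    (hirr : W.ModRepIsIrreducible p) (hSN : ∀ q : ℕ, q.Prime → q ∣ N → q ∈ S)
    (hSp : p ∈ S) (hSW : ∀ q : ℕ, q.Prime → ¬ W.IsGoodPrimeFor q → q ∈ S)
    (hmod : W.IsResiduallyModularOfLevel p N)
    (hne : ∀ θ : heckeAlgebra N 2 (↑S : Set ℕ) →+* ZMod p, eigenspace D θ ≠ ⊥) :
    ∃ θ : heckeAlgebra N 2 (↑S : Set ℕ) →+* ZMod p,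
      (∀ (ℓ : ℕ) (hℓ : ℓ.Prime) (hℓN : ¬ ℓ ∣ N) (hℓS : ℓ ∉ (↑S : Set ℕ)),
        θ (heckeAlgebra.T hℓ hℓN hℓS) = ((W.apOfModel ℓ : ℤ) : ZMod p)) ∧
      ∃ ι : V W p →ₗ[ZMod p] D.M 1, Function.Injective ι ∧ (∀ v, ι v ∈ eigenspace D θ) ∧
        ∀ (g : Γℚ) (v : V W p), ι (g • v) = D.gal 1 g (ι v) := by
  obtain ⟨θ, hθ⟩ := Fermat.Agent.S40x.A.Theta.exists_theta W (Fact.out : p.Prime) S hSN hSp hSW hmod
  exact ⟨θ, hθ, exists_copy_W D W hΔ hp2 hirr hSp hSW θ hθ (hne θ)⟩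

end Fermat.Agent.S40x.A.CopyW
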