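import Mathlib
import Fermat.Agent.S40x.A.CopyW
import Fermat.Agent.S13.Global

/-!
# R4 / block A: transfer from an integral model `W` to the curve `E` itself (helper28)

`E : WeierstrassCurve ℚ` elliptic, `W` an integral model of `E` (`C • E = W ⊗ ℚ`).  The landed
transfer map `S41/NonEis/Main.exists_transfer_model` restricts to a `G_ℚ`-equivariant `ZMod p`-linear
BIJECTION `E[p](ℚ̄) ≃ (W ⊗ ℚ)[p](ℚ̄)` (both sides have `p²` points).  Consequences:

* `modRepIsIrreducible_of_model` : **(A-IRR)** irreducibility of `E[p]` gives `W.ModRepIsIrreducible p`;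
* `exists_copy_E` : **(A-TR)** the copy of `(W ⊗ ℚ)[p]` in `J₀(N)[p][θ]` (`CopyW.exists_copy_W`) pulled back
  to `E[p]`;
* `exists_copy_frey` : the instance `E = P.freyCurve` for a Frey package `P` (the literal needed by
  the S44 assembly).
-/

set_option autoImplicit false
set_option linter.style.haveILetI false
set_option linter.unusedSectionVars false

noncomputable section

namespace Fermat.Agent.S40x.A.CopyFrey

open CuspForm Fermat.Agent.Gateway.S31Red Fermat.Agent.S40x.A.CopyInTorsion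
  Fermat.Agent.S40x.A.RhoW WeierstrassCurve WeierstrassCurve.Affine WeierstrassCurve.Affine.Point

local notation "Qbar" => AlgebraicClosure ℚ
local notation "Γℚ" => (AlgebraicClosure ℚ ≃ₐ[ℚ] AlgebraicClosure ℚ)

attribute [local instance] Fermat.Agent.S40x.A.CopyInTorsion.zmodModule

variable (E : WeierstrassCurve ℚ) [E.IsElliptic] {W : WeierstrassCurve ℤ} (p : ℕ) [Fact p.Prime]

/-- `E[p](ℚ̄)`, the Prelude's module. -/
abbrev TorsE : Type := Submodule.torsionBy ℤ (E⁄Qbar).Point p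

theorem card_TorsE : Nat.card (TorsE E p) = p ^ 2 :=
  Fermat.Agent.Lib.EC.TorsionCard.card_torsionBy E Qbar (n := p)
    (Nat.cast_ne_zero.mpr (Fact.out : p.Prime).ne_zero)

theorem finite_TorsE : Finite (TorsE E p) := by
  apply Nat.finite_of_card_ne_zero
  rw [card_TorsE E p]
  exact pow_ne_zero 2 (Fact.out : p.Prime).ne_zero

variable {E}

/-- **the transfer isomorphism on `p`-torsion.** -/
theorem exists_transfer_tors (hW : W.IsIntegralModelOf E) :
    ∃ e : TorsE E p ≃ₗ[ZMod p] V W p, ∀ (σ : Γℚ) (x : TorsE E p), e (σ • x) = σ • e x := by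
  have hΔ : W.Δ ≠ 0 := Fermat.Agent.S41.NonEis.Δ_ne_zero_of_isIntegralModelOf E hW
  obtain ⟨ψ, hψ, hψσ⟩ := Fermat.Agent.S41.NonEis.exists_transfer_model E hW
  have hmem : ∀ x : TorsE E p, ψ (x : (E⁄Qbar).Point) ∈
      Submodule.torsionBy ℤ ((EQ W)⁄Qbar).Point p := by
    intro x
    rw [Submodule.mem_torsionBy_iff, ← map_zsmul, (Submodule.mem_torsionBy_iff _ _).mp x.2,
      _root_.map_zero]
  let r : TorsE E p →+ V W p :=
    { toFun := fun x => ⟨ψ (x : (E⁄Qbar).Point), hmem x⟩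
      map_zero' := Subtype.ext (_root_.map_zero ψ)
      map_add' := fun x y => Subtype.ext (_root_.map_add ψ _ _) }
  have hrinj : Function.Injective r := by
    intro x y hxy
    apply Subtype.ext
    exact hψ (congrArg Subtype.val hxy)
  haveI := finite_V W p hΔ
  have hrbij : Function.Bijective r :=
    hrinj.bijective_of_nat_card_le (by rw [card_V W p hΔ, card_TorsE E p])
  let e : TorsE E p ≃ₗ[ZMod p] V W p := LinearEquiv.ofBijective (r.toZModLinearMap p) hrbij
  refine ⟨e, fun σ x => ?_⟩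
  apply Subtype.ext
  show ψ ((σ • x : TorsE E p) : (E⁄Qbar).Point) = σ • ψ (x : (E⁄Qbar).Point)
  exact hψσ σ (x : (E⁄Qbar).Point)

/-- **(A-IRR)** irreducibility passes to the integral model. -/
theorem modRepIsIrreducible_of_model (hW : W.IsIntegralModelOf E)
    (hirr : GaloisRepIsIrreducible (K := Qbar) ℚ E p) : W.ModRepIsIrreducible p := by
  obtain ⟨e, he⟩ := exists_transfer_tors p hW
  obtain ⟨hnt, hsub⟩ := hirr
  refine ⟨e.toEquiv.symm.nontrivial, fun N' hN' => ?_⟩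
  let N : Submodule (ZMod p) (TorsE E p) := N'.comap e.toLinearMap
  have hN : IsGaloisStable ℚ N := by
    intro σ x hx
    show e (σ • x) ∈ N'
    rw [he σ x]
    exact hN' σ (e x) hx
  rcases hsub N hN with h | h
  · left
    rw [eq_bot_iff]
    intro y hy
    have h1 : e.symm y ∈ N := by
      show e (e.symm y) ∈ N'
      rwa [e.apply_symm_apply]
    rw [h, Submodule.mem_bot] at h1
    rw [Submodule.mem_bot, ← e.apply_symm_apply y, h1, _root_.map_zero]
  · right
    rw [eq_top_iff]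
    intro y _
    have h1 : e.symm y ∈ N := by rw [h]; exact Submodule.mem_top
    have h2 : e (e.symm y) ∈ N' := h1
    rwa [e.apply_symm_apply] at h2

variable {N : ℕ} [NeZero N] {S : Finset ℕ} (D : TorsionHeckeData p N S)

/-- **(A-TR)** a copy of `E[p]` inside the `θ`-eigenspace of `J₀(N)[p]`. -/
theorem exists_copy_E (hW : W.IsIntegralModelOf E) (hp2 : p ≠ 2)
    (hirr : GaloisRepIsIrreducible (K := Qbar) ℚ E p)
    (hSp : p ∈ S) (hSW : ∀ q : ℕ, q.Prime → ¬ W.IsGoodPrimeFor q → q ∈ S)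
    (θ : heckeAlgebra N 2 (↑S : Set ℕ) →+* ZMod p)
    (hθ : ∀ (ℓ : ℕ) (hℓ : ℓ.Prime) (hℓN : ¬ ℓ ∣ N) (hℓS : ℓ ∉ (↑S : Set ℕ)),
      θ (heckeAlgebra.T hℓ hℓN hℓS) = ((W.apOfModel ℓ : ℤ) : ZMod p))
    (hne : eigenspace D θ ≠ ⊥) :
    ∃ j : TorsE E p →ₗ[ZMod p] D.M 1, Function.Injective j ∧ (∀ v, j v ∈ eigenspace D θ) ∧
      ∀ (g : Γℚ) (v : TorsE E p), j (g • v) = D.gal 1 g (j v) := by
  have hΔ : W.Δ ≠ 0 := Fermat.Agent.S41.NonEis.Δ_ne_zero_of_isIntegralModelOf E hW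
  obtain ⟨e, he⟩ := exists_transfer_tors p hW
  obtain ⟨ι, hinj, hmem, heq⟩ := Fermat.Agent.S40x.A.CopyW.exists_copy_W D W hΔ hp2
    (modRepIsIrreducible_of_model p hW hirr) hSp hSW θ hθ hne
  refine ⟨ι.comp e.toLinearMap, hinj.comp e.injective, fun v => hmem _, fun g v => ?_⟩
  show ι (e (g • v)) = D.gal 1 g (ι (e v))
  rw [he g v, heq g (e v)]

end Fermat.Agent.S40x.A.CopyFrey

namespace Fermat.Agent.S40x.A.CopyFrey

open CuspForm Fermat.Agent.Gateway.S31Red Fermat.Agent.S40x.A.CopyInTorsion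
  WeierstrassCurve WeierstrassCurve.Affine WeierstrassCurve.Affine.Point

local notation "Qbar" => AlgebraicClosure ℚ
local notation "Γℚ" => (AlgebraicClosure ℚ ≃ₐ[ℚ] AlgebraicClosure ℚ)

attribute [local instance] Fermat.Agent.S40x.A.CopyInTorsion.zmodModule

theorem isElliptic_freyCurve (P : FreyPackage) : P.freyCurve.IsElliptic :=
  ⟨Ne.isUnit (Fermat.Agent.S13.freyCurve_Δ_ne_zero P)⟩

/-- **the Frey instance** (input of the S44 assembly): a Galois-equivariant copy of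
`Tors P = E_Frey[p](ℚ̄)` inside the `θ`-eigenspace of `J₀(N)[p]`. -/
theorem exists_copy_frey (P : FreyPackage) {W : WeierstrassCurve ℤ}
    (hW : W.IsIntegralModelOf P.freyCurve)
    (hirr : GaloisRepIsIrreducible (K := Qbar) ℚ P.freyCurve P.p)
    {N : ℕ} [NeZero N] {S : Finset ℕ} [Fact P.p.Prime] (D : TorsionHeckeData P.p N S)
    (hSp : P.p ∈ S) (hSW : ∀ q : ℕ, q.Prime → ¬ W.IsGoodPrimeFor q → q ∈ S)
    (θ : heckeAlgebra N 2 (↑S : Set ℕ) →+* ZMod P.p)
    (hθ : ∀ (ℓ : ℕ) (hℓ : ℓ.Prime) (hℓN : ¬ ℓ ∣ N) (hℓS : ℓ ∉ (↑S : Set ℕ)),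
      θ (heckeAlgebra.T hℓ hℓN hℓS) = ((W.apOfModel ℓ : ℤ) : ZMod P.p))
    (hne : eigenspace D θ ≠ ⊥) :
    ∃ j : Submodule.torsionBy ℤ (P.freyCurve⁄Qbar).Point P.p →ₗ[ZMod P.p] D.M 1,
      Function.Injective j ∧ (∀ v, j v ∈ eigenspace D θ) ∧
      ∀ (g : Γℚ) (v : Submodule.torsionBy ℤ (P.freyCurve⁄Qbar).Point P.p),
        j (g • v) = D.gal 1 g (j v) := by
  haveI := isElliptic_freyCurve P
  have hp2 : P.p ≠ 2 := by
    have := P.hp5
    omega
  exact exists_copy_E (E := P.freyCurve) P.p D hW hp2 hirr hSp hSW θ hθ hne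

end Fermat.Agent.S40x.A.CopyFrey
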