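import Mathlib
import Fermat.Prelude.Def_CuspForm_HeckeAlgebra
import Fermat.Prelude.Def_FLTPrelim_Modularity
import Fermat.Agent.Gateway.S31.Data
import Fermat.Agent.S23.Glue
import Fermat.Agent.S49.CommonEigenvector
import Fermat.Agent.S49.Eigenform
import Fermat.Agent.S41.Final.DSLiftSpan
import Fermat.Agent.S41.Forms.Consumer
import Fermat.Agent.S40x.A.SocleNonzero

/-!
# P-S44, Block A, leaf A6: Deligne-Serre lifting of a torsion Hecke eigenclass (helper19)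

`D' : TorsionHeckeData p M' S` (think `J₀(M')[p ^ n]` with its Hecke action), `y ≠ 0` in `D'.M 1`
with `T_ℓ y = a_ℓ • y` for the primes `ℓ ∤ M'`, `ℓ ∉ S`.  Then there is a normalised eigenform `g`
of level `M'` and a maximal ideal `𝔪' ∋ p` of the ring of algebraic integers with
`a_ℓ(g) ≡ a_ℓ mod 𝔪'` for all these `ℓ` (`ds_lift_of_torsion_class`).

Proof.  (i) The Hecke operators killing `y` form a proper ideal of `𝕋 = heckeAlgebra M' 2 S`
containing `p` and the `T_ℓ - a_ℓ`.  (ii) `𝕋 / p𝕋` is a finite module, so some `g₀ ∈ 𝕋 ∖ p𝕋` has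
`(T_ℓ - a_ℓ) g₀ ∈ p𝕋` for all `ℓ` (`SocleNonzero`).  (iii) Deligne-Serre lifting in the lattice
`𝕋 ⊆ End_ℂ(S₂(Γ₀(M')))` for the operators of left multiplication by `T_ℓ` gives `F ≠ 0` in the
`ℂ`-span of `𝕋` with `T_ℓ F = c_ℓ F`, `c_ℓ ≡ a_ℓ`.  (iv) `v = F v₀ ≠ 0` is an eigenvector of these
`T_ℓ`; the joint eigenspace is stable under all Hecke operators, which commute, hence contains a
simultaneous eigenvector, which is a multiple of a normalised eigenform.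
-/

set_option autoImplicit false
set_option linter.style.haveILetI false
set_option linter.unusedSectionVars false

noncomputable section

namespace Fermat.Agent.S40x.A.DSLiftTors

open CongruenceSubgroup Fermat.Agent.Gateway.S31Red

variable {p M' : ℕ} [NeZero M'] {S : Finset ℕ}

/-! ### (i) the ideal of Hecke operators killing a class -/

theorem end_add_apply {A : Type*} [AddCommGroup A] (f g : AddMonoid.End A) (x : A) :
    (f + g) x = f x + g x := rfl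

theorem end_sub_apply {A : Type*} [AddCommGroup A] (f g : AddMonoid.End A) (x : A) :
    (f - g) x = f x - g x := rfl

theorem end_zero_apply {A : Type*} [AddCommGroup A] (x : A) :
    (0 : AddMonoid.End A) x = 0 := rfl

/-- The ideal of the Hecke operators killing `y`. -/
def killIdeal (D' : TorsionHeckeData p M' S) (y : D'.M 1) :
    Ideal (CuspForm.heckeAlgebra M' 2 (↑S : Set ℕ)) where
  carrier := {t | D'.hecke 1 t y = 0}
  add_mem' := by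
    intro s t hs ht
    show D'.hecke 1 (s + t) y = 0
    rw [map_add, end_add_apply, hs, ht, add_zero]
  zero_mem' := by
    show D'.hecke 1 0 y = 0
    rw [map_zero, end_zero_apply]
  smul_mem' := by
    intro r t ht
    show D'.hecke 1 (r • t) y = 0
    rw [smul_eq_mul, map_mul, AddMonoid.End.coe_mul, Function.comp_apply, ht, map_zero]

theorem mem_killIdeal (D' : TorsionHeckeData p M' S) (y : D'.M 1)
    (t : CuspForm.heckeAlgebra M' 2 (↑S : Set ℕ)) :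
    t ∈ killIdeal D' y ↔ D'.hecke 1 t y = 0 := Iff.rfl

theorem killIdeal_ne_top (D' : TorsionHeckeData p M' S) {y : D'.M 1} (hy : y ≠ 0) :
    killIdeal D' y ≠ ⊤ := by
  intro h
  have h1 : (1 : CuspForm.heckeAlgebra M' 2 (↑S : Set ℕ)) ∈ killIdeal D' y := by
    rw [h]
    exact Submodule.mem_top
  rw [mem_killIdeal, map_one, AddMonoid.End.coe_one, id] at h1
  exact hy h1

theorem natCast_mem_killIdeal (D' : TorsionHeckeData p M' S) (y : D'.M 1) :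
    ((p : ℕ) : CuspForm.heckeAlgebra M' 2 (↑S : Set ℕ)) ∈ killIdeal D' y := by
  rw [mem_killIdeal, map_natCast, AddMonoid.End.natCast_apply]
  have := D'.pow_smul 1 y
  rwa [pow_one] at this

theorem T_sub_mem_killIdeal (D' : TorsionHeckeData p M' S) (y : D'.M 1) (a : ℤ)
    {ℓ : ℕ} (hℓ : ℓ.Prime) (hℓM : ¬ ℓ ∣ M') (hℓS : ℓ ∉ (↑S : Set ℕ))
    (h : D'.hecke 1 (CuspForm.heckeAlgebra.T hℓ hℓM hℓS) y = a • y) :
    CuspForm.heckeAlgebra.T hℓ hℓM hℓS - (a : CuspForm.heckeAlgebra M' 2 (↑S : Set ℕ)) ∈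
      killIdeal D' y := by
  rw [mem_killIdeal, map_sub, map_intCast, end_sub_apply, h,
    AddMonoid.End.intCast_apply, sub_self]

/-! ### (ii) a socle element of `𝕋 / p𝕋` -/

/-- A finitely generated commutative ring (as an abelian group) modulo a nonzero integer is
finite. -/
theorem finite_quotient_span_natCast {R : Type*} [CommRing R] [Module.Finite ℤ R] {n : ℕ}
    (hn : n ≠ 0) : Finite (R ⧸ Ideal.span {((n : ℕ) : R)}) := by
  haveI : AddGroup.FG R := Module.Finite.iff_addGroup_fg.mp inferInstance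
  haveI : AddGroup.FG (R ⧸ Ideal.span {((n : ℕ) : R)}) :=
    AddGroup.fg_of_surjective (f := (Ideal.Quotient.mk (Ideal.span {((n : ℕ) : R)})).toAddMonoidHom)
      Ideal.Quotient.mk_surjective
  apply AddCommGroup.finite_of_fg_isAddTorsion
  intro x
  rw [isOfFinAddOrder_iff_nsmul_eq_zero]
  refine ⟨n, Nat.pos_of_ne_zero hn, ?_⟩
  obtain ⟨r, rfl⟩ := Ideal.Quotient.mk_surjective x
  rw [← map_nsmul, Ideal.Quotient.eq_zero_iff_mem, nsmul_eq_mul]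
  exact Ideal.mul_mem_right _ _ (Ideal.subset_span rfl)

/-- A proper ideal `I ∋ n` of a ring `R` which is finitely generated as an abelian group
(`n ≠ 0`): some `g₀ ∉ n R` has `I g₀ ⊆ n R`. -/
theorem exists_socle_mod {R : Type*} [CommRing R] [Module.Finite ℤ R] {n : ℕ} (hn : n ≠ 0)
    (I : Ideal R) (hI : I ≠ ⊤) (hnI : ((n : ℕ) : R) ∈ I) :
    ∃ g0 : R, g0 ∉ Ideal.span {((n : ℕ) : R)} ∧
      ∀ t ∈ I, t * g0 ∈ Ideal.span {((n : ℕ) : R)} := by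
  haveI := finite_quotient_span_natCast (R := R) hn
  obtain ⟨z, hz0, hz⟩ := Fermat.Agent.S40x.A.SocleNonzero.exists_ne_zero_smul_eq_zero
    (Z := R ⧸ Ideal.span {((n : ℕ) : R)}) I hI (by
      intro r hr
      have h1 := hr (Ideal.Quotient.mk _ 1)
      rw [← Ideal.Quotient.mk_eq_mk, ← Submodule.Quotient.mk_smul, Ideal.Quotient.mk_eq_mk,
        Ideal.Quotient.eq_zero_iff_mem, smul_eq_mul, mul_one] at h1
      exact (Ideal.span_singleton_le_iff_mem (I := I)).2 hnI h1)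
  obtain ⟨g0, rfl⟩ := Ideal.Quotient.mk_surjective z
  refine ⟨g0, fun h => hz0 (Ideal.Quotient.eq_zero_iff_mem.2 h), fun t ht => ?_⟩
  have h1 := hz t ht
  rw [← Ideal.Quotient.mk_eq_mk, ← Submodule.Quotient.mk_smul, Ideal.Quotient.mk_eq_mk,
    Ideal.Quotient.eq_zero_iff_mem, smul_eq_mul] at h1
  exact h1

/-! ### (iii) Deligne-Serre lifting inside the Hecke algebra -/

/-- The index type of the good primes. -/
abbrev GoodPrime (M' : ℕ) (S : Finset ℕ) : Type :=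
  {ℓ : ℕ // ℓ.Prime ∧ ¬ ℓ ∣ M' ∧ ℓ ∉ (↑S : Set ℕ)}

/-- `T_ℓ` for a good prime, as an endomorphism of the space of cusp forms. -/
def tOp (i : GoodPrime M' S) : Module.End ℂ (CuspForm (Gamma0 M') 2) :=
  CuspForm.heckeTLin 2 i.2.1 i.2.2.1

theorem tOp_mem (i : GoodPrime M' S) :
    tOp i ∈ CuspForm.heckeAlgebra M' 2 (↑S : Set ℕ) :=
  CuspForm.heckeTLin_mem_heckeAlgebra i.2.1 i.2.2.1 i.2.2.2

theorem tOp_comm (i j : GoodPrime M' S) : tOp i * tOp j = tOp j * tOp i :=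
  CuspForm.heckeTLin_comm 2 i.2.1 i.2.2.1 j.2.1 j.2.2.1

/-- **Deligne-Serre lifting in the Hecke algebra.**  If some `g₀ ∈ 𝕋 ∖ p𝕋` satisfies
`(T_ℓ - a_ℓ) g₀ ∈ p𝕋` for all good `ℓ`, there is a nonzero cusp form `v` with `T_ℓ v = c_ℓ v`,
`c_ℓ ≡ a_ℓ` modulo a maximal ideal over `p`. -/
theorem exists_eigenvector_of_socle (hp : p.Prime)
    [Module.Finite ℤ (CuspForm.heckeAlgebra M' 2 (↑S : Set ℕ))]
    (a : GoodPrime M' S → ℤ)
    (g0 : CuspForm.heckeAlgebra M' 2 (↑S : Set ℕ))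
    (hg0 : g0 ∉ Ideal.span {((p : ℕ) : CuspForm.heckeAlgebra M' 2 (↑S : Set ℕ))})
    (ha : ∀ i : GoodPrime M' S,
      (CuspForm.heckeAlgebra.T i.2.1 i.2.2.1 i.2.2.2 -
        ((a i : ℤ) : CuspForm.heckeAlgebra M' 2 (↑S : Set ℕ))) * g0 ∈
        Ideal.span {((p : ℕ) : CuspForm.heckeAlgebra M' 2 (↑S : Set ℕ))}) :
    ∃ (v : CuspForm (Gamma0 M') 2) (𝔪 : Ideal (integralClosure ℤ ℂ))
      (c : GoodPrime M' S → integralClosure ℤ ℂ),
      v ≠ 0 ∧ 𝔪.IsMaximal ∧ ((p : ℕ) : integralClosure ℤ ℂ) ∈ 𝔪 ∧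
      ∀ i, tOp i v = (c i : ℂ) • v ∧ c i - (a i : integralClosure ℤ ℂ) ∈ 𝔪 := by
  classical
  let L : Submodule ℤ (Module.End ℂ (CuspForm (Gamma0 M') 2)) :=
    Subalgebra.toSubmodule (CuspForm.heckeAlgebra M' 2 (↑S : Set ℕ))
  have hLmem : ∀ x, x ∈ L ↔ x ∈ CuspForm.heckeAlgebra M' 2 (↑S : Set ℕ) := fun x => Iff.rfl
  have hLfg : L.FG := by
    have h : Module.Finite ℤ L :=
      (inferInstance : Module.Finite ℤ (CuspForm.heckeAlgebra M' 2 (↑S : Set ℕ)))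
    exact Module.Finite.iff_fg.1 h
  let Top : GoodPrime M' S → Module.End ℂ (Module.End ℂ (CuspForm (Gamma0 M') 2)) :=
    fun i => LinearMap.mulLeft ℂ (tOp i)
  have hTop : ∀ i x, Top i x = tOp i * x := fun i x => rfl
  have hcomm : ∀ i j, ∀ x ∈ L, Top i (Top j x) = Top j (Top i x) := by
    intro i j x _
    rw [hTop, hTop, hTop, hTop, ← mul_assoc, ← mul_assoc, tOp_comm]
  have hTL : ∀ i, ∀ x ∈ L, Top i x ∈ L := by
    intro i x hx
    rw [hTop, hLmem]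
    exact Subalgebra.mul_mem _ (tOp_mem i) ((hLmem x).1 hx)
  have hgL : (g0 : Module.End ℂ (CuspForm (Gamma0 M') 2)) ∈ L := (hLmem _).2 g0.2
  have hg : ¬ ∃ h ∈ L, (g0 : Module.End ℂ (CuspForm (Gamma0 M') 2)) = (p : ℤ) • h := by
    rintro ⟨h, hh, e⟩
    apply hg0
    rw [Ideal.mem_span_singleton']
    refine ⟨⟨h, (hLmem h).1 hh⟩, ?_⟩
    apply Subtype.ext
    rw [e, mul_comm, ← nsmul_eq_mul, natCast_zsmul]
    rfl
  have ha' : ∀ i, ∃ h ∈ L, Top i (g0 : Module.End ℂ (CuspForm (Gamma0 M') 2)) -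
      a i • (g0 : Module.End ℂ (CuspForm (Gamma0 M') 2)) = (p : ℤ) • h := by
    intro i
    obtain ⟨h, hh⟩ := Ideal.mem_span_singleton'.1 (ha i)
    refine ⟨(h : Module.End ℂ (CuspForm (Gamma0 M') 2)), (hLmem _).2 h.2, ?_⟩
    have h1 := congrArg (Subtype.val) hh
    rw [mul_comm, ← nsmul_eq_mul, sub_mul, ← zsmul_eq_mul] at h1
    rw [hTop, natCast_zsmul]
    exact h1.symm
  obtain ⟨F, 𝔪, c, -, hF0, h𝔪, hp𝔪, hc⟩ :=
    Fermat.Agent.S41.Final.exists_eigenvector_lift_in_span L hLfg Top hcomm hTL p hp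
      (g0 : Module.End ℂ (CuspForm (Gamma0 M') 2)) hgL hg a ha'
  -- a vector not killed by `F`
  obtain ⟨v0, hv0⟩ : ∃ v0, F v0 ≠ 0 := by
    by_contra hcon
    push Not at hcon
    exact hF0 (LinearMap.ext hcon)
  refine ⟨F v0, 𝔪, c, hv0, h𝔪, hp𝔪, fun i => ⟨?_, (hc i).2⟩⟩
  have h1 := congrArg (fun G : Module.End ℂ (CuspForm (Gamma0 M') 2) => G v0) (hc i).1
  simp only [hTop, Module.End.mul_apply, LinearMap.smul_apply] at h1
  exact h1

/-! ### (iv) from an eigenvector of the good `T_ℓ` to a normalised eigenform -/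

open Fermat.Agent.S41.Forms in
/-- A nonzero eigenvector of the `T_ℓ` for the good primes `ℓ` (with eigenvalues `c ℓ`) gives a
normalised eigenform with `a_ℓ = c ℓ` for these `ℓ`. -/
theorem exists_eigenform_of_good_eigenvector (v : CuspForm (Gamma0 M') 2) (hv : v ≠ 0)
    (c : GoodPrime M' S → ℂ) (hc : ∀ i, tOp i v = c i • v) :
    ∃ g : CuspForm (Gamma0 M') 2, g.IsNormalizedEigenform ∧
      ∀ i : GoodPrime M' S, ModularFormClass.qCoeff g i.1 = c i := by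
  classical
  have := Fermat.Agent.S23.finiteDimensional_cuspForm M' 2
  let c' : ℕ → ℂ := fun l =>
    if h : l.Prime ∧ ¬ l ∣ M' ∧ l ∉ (↑S : Set ℕ) then c ⟨l, h⟩ else 0
  have hc' : ∀ i : GoodPrime M' S, c' i.1 = c i := fun i => dif_pos i.2
  have hvW : v ∈ eigenSub M' (fun l => l ∉ (↑S : Set ℕ)) c' 1 := by
    refine ⟨fun l hl hd hS => ?_, ?_⟩
    · rw [heckeOp_of_not_dvd M' hl hd, hc' ⟨l, hl, hd, hS⟩]
      exact hc ⟨l, hl, hd, hS⟩
    · rw [heckeOp_of_not_prime M' Nat.not_prime_one, Module.End.one_apply, Module.End.one_apply]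
  have hW : eigenSub M' (fun l => l ∉ (↑S : Set ℕ)) c' 1 ≠ ⊥ := by
    intro hbot
    rw [hbot, Submodule.mem_bot] at hvW
    exact hv hvW
  obtain ⟨w, hwW, hw0, hw⟩ := Fermat.Agent.S49.Lifting.exists_common_eigenvector_in_submodule
    (heckeOp M') (heckeOp_comm M') _ (eigenSub M' (fun l => l ∉ (↑S : Set ℕ)) c' 1) rfl hW
    (fun i x hx => heckeOp_mem_eigenSub M' i hx)
  choose lam hlam using hw
  obtain ⟨g, hg, hgl⟩ := Fermat.Agent.S49.Eigenform.exists_normalizedEigenform_of_eigenvector w hw0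
    lam (fun l hl hd => by rw [← heckeOp_of_not_dvd M' hl hd]; exact hlam l)
    (fun l hl hd => by rw [← heckeOp_of_dvd M' hl hd]; exact hlam l)
  obtain ⟨hw1, -⟩ := hwW
  refine ⟨g, hg, fun i => ?_⟩
  rw [hgl i.1 i.2.1, ← hc' i]
  have h1 := hw1 i.1 i.2.1 i.2.2.1 i.2.2.2
  rw [hlam i.1] at h1
  exact smul_left_injective ℂ hw0 h1

/-! ### The main theorem -/

/-- **A6 (Deligne-Serre lifting of a torsion eigenclass).**  A nonzero class `y` of the first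
torsion level of `D'` which is an eigenvector of the `T_ℓ` (`ℓ ∤ M'`, `ℓ ∉ S`) with eigenvalues
`a ℓ` lifts to a normalised eigenform of level `M'` congruent to `a` modulo a maximal ideal
over `p`. -/
theorem ds_lift_of_torsion_class (hp : p.Prime) (D' : TorsionHeckeData p M' S)
    (hfinT : Module.Finite ℤ (CuspForm.heckeAlgebra M' 2 (↑S : Set ℕ)))
    (y : D'.M 1) (hy0 : y ≠ 0) (a : ℕ → ℤ)
    (hy : ∀ (ℓ : ℕ) (hℓ : ℓ.Prime) (hℓM : ¬ ℓ ∣ M') (hℓS : ℓ ∉ (↑S : Set ℕ)),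
      D'.hecke 1 (CuspForm.heckeAlgebra.T hℓ hℓM hℓS) y = a ℓ • y) :
    ∃ (g : CuspForm (Gamma0 M') 2) (𝔪' : Ideal (integralClosure ℤ ℂ)),
      g.IsNormalizedEigenform ∧ 𝔪'.IsMaximal ∧ ((p : ℕ) : integralClosure ℤ ℂ) ∈ 𝔪' ∧
      ∀ ℓ : ℕ, ℓ.Prime → ¬ ℓ ∣ M' → ℓ ∉ (↑S : Set ℕ) →
        ∃ c : integralClosure ℤ ℂ, (c : ℂ) = ModularFormClass.qCoeff g ℓ ∧
          c - ((a ℓ : ℤ) : integralClosure ℤ ℂ) ∈ 𝔪' := by
  haveI := hfinT
  -- (i)+(ii)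
  obtain ⟨g0, hg0, hg0I⟩ := exists_socle_mod (R := CuspForm.heckeAlgebra M' 2 (↑S : Set ℕ))
    hp.ne_zero (killIdeal D' y) (killIdeal_ne_top D' hy0) (natCast_mem_killIdeal D' y)
  -- (iii)
  obtain ⟨v, 𝔪, c, hv0, h𝔪, hp𝔪, hc⟩ := exists_eigenvector_of_socle hp
    (fun i : GoodPrime M' S => a i.1) g0 hg0
    (fun i => hg0I _ (T_sub_mem_killIdeal D' y (a i.1) i.2.1 i.2.2.1 i.2.2.2
      (hy i.1 i.2.1 i.2.2.1 i.2.2.2)))
  -- (iv)
  obtain ⟨g, hg, hgc⟩ := exists_eigenform_of_good_eigenvector v hv0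
    (fun i => (c i : ℂ)) (fun i => (hc i).1)
  refine ⟨g, 𝔪, hg, h𝔪, hp𝔪, fun ℓ hℓ hℓM hℓS => ?_⟩
  exact ⟨c ⟨ℓ, hℓ, hℓM, hℓS⟩, (hgc ⟨ℓ, hℓ, hℓM, hℓS⟩).symm, (hc ⟨ℓ, hℓ, hℓM, hℓS⟩).2⟩

/-- The same with the eigenvalues read in `ZMod p`, for any `ZMod p`-module structure on the
first torsion level (e.g. `AddCommGroup.zmodModule`). -/
theorem ds_lift_of_torsion_class_zmod (hp : p.Prime) (D' : TorsionHeckeData p M' S)
    [Module (ZMod p) (D'.M 1)]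
    (hfinT : Module.Finite ℤ (CuspForm.heckeAlgebra M' 2 (↑S : Set ℕ)))
    (y : D'.M 1) (hy0 : y ≠ 0) (a : ℕ → ℤ)
    (hy : ∀ (ℓ : ℕ) (hℓ : ℓ.Prime) (hℓM : ¬ ℓ ∣ M') (hℓS : ℓ ∉ (↑S : Set ℕ)),
      D'.hecke 1 (CuspForm.heckeAlgebra.T hℓ hℓM hℓS) y = ((a ℓ : ℤ) : ZMod p) • y) :
    ∃ (g : CuspForm (Gamma0 M') 2) (𝔪' : Ideal (integralClosure ℤ ℂ)),
      g.IsNormalizedEigenform ∧ 𝔪'.IsMaximal ∧ ((p : ℕ) : integralClosure ℤ ℂ) ∈ 𝔪' ∧
      ∀ ℓ : ℕ, ℓ.Prime → ¬ ℓ ∣ M' → ℓ ∉ (↑S : Set ℕ) →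
        ∃ c : integralClosure ℤ ℂ, (c : ℂ) = ModularFormClass.qCoeff g ℓ ∧
          c - ((a ℓ : ℤ) : integralClosure ℤ ℂ) ∈ 𝔪' :=
  ds_lift_of_torsion_class hp D' hfinT y hy0 a fun ℓ hℓ hℓM hℓS => by
    rw [hy ℓ hℓ hℓM hℓS, Int.cast_smul_eq_zsmul]

/-- The same for a character `θ` of the Hecke algebra with values in `ZMod p` whose values at the
good `T_ℓ` are the reductions of `a ℓ`, and a class `y` in the `θ`-eigenspace. -/
theorem ds_lift_of_eigenclass (hp : p.Prime) (D' : TorsionHeckeData p M' S)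
    [Module (ZMod p) (D'.M 1)]
    (hfinT : Module.Finite ℤ (CuspForm.heckeAlgebra M' 2 (↑S : Set ℕ)))
    (θ : CuspForm.heckeAlgebra M' 2 (↑S : Set ℕ) → ZMod p)
    (y : D'.M 1) (hy0 : y ≠ 0) (a : ℕ → ℤ)
    (hθ : ∀ (ℓ : ℕ) (hℓ : ℓ.Prime) (hℓM : ¬ ℓ ∣ M') (hℓS : ℓ ∉ (↑S : Set ℕ)),
      θ (CuspForm.heckeAlgebra.T hℓ hℓM hℓS) = ((a ℓ : ℤ) : ZMod p))
    (hy : ∀ (ℓ : ℕ) (hℓ : ℓ.Prime) (hℓM : ¬ ℓ ∣ M') (hℓS : ℓ ∉ (↑S : Set ℕ)),
      D'.hecke 1 (CuspForm.heckeAlgebra.T hℓ hℓM hℓS) y =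
        θ (CuspForm.heckeAlgebra.T hℓ hℓM hℓS) • y) :
    ∃ (g : CuspForm (Gamma0 M') 2) (𝔪' : Ideal (integralClosure ℤ ℂ)),
      g.IsNormalizedEigenform ∧ 𝔪'.IsMaximal ∧ ((p : ℕ) : integralClosure ℤ ℂ) ∈ 𝔪' ∧
      ∀ ℓ : ℕ, ℓ.Prime → ¬ ℓ ∣ M' → ℓ ∉ (↑S : Set ℕ) →
        ∃ c : integralClosure ℤ ℂ, (c : ℂ) = ModularFormClass.qCoeff g ℓ ∧
          c - ((a ℓ : ℤ) : integralClosure ℤ ℂ) ∈ 𝔪' :=
  ds_lift_of_torsion_class_zmod hp D' hfinT y hy0 a fun ℓ hℓ hℓM hℓS => by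
    rw [hy ℓ hℓ hℓM hℓS, hθ ℓ hℓ hℓM hℓS]

end Fermat.Agent.S40x.A.DSLiftTors
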