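import Fermat.Agent.S40x.A.S44Skeleton2
import Fermat.Agent.S35x.LevelHom
import Fermat.Agent.S40x.R2.KummerPeu

/-!
# P-S44, block A, leaf (A7), VERSION 2 of the skeleton (helper95): the frozen statement S44 from the
leaves after the re-cut of the A/GEO seam (helper23's alert, helper22's `S44-IFACE-GEO v2`)

The claim `π(V) ≠ 0` of the first skeleton is false (level-raising copy).  The assembly is now by
cases on
  `hnew : ∃ h, θ h ≠ 0 ∧ levelHom h = 0`  (`θ` is not `p`-old):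
* `hnew` holds: the copy `V` of `E[p]` in the `θ`-eigenspace (`LeafA3`), its local shape at `p`
  (`LeafB'`, Block B, now with `Nat.card T1 = p` and the `I₀`-form of peu ramifié in the landed
  vocabulary `Kummer.unitFixed`) and `LeafGEO'` (conclusion `False`) give a contradiction;
* `hnew` fails: `θ` factors through the landed surjection `S35x.levelHom : 𝕋(M' p) → 𝕋(M')`
  (`exists_factor`, proved here), and `LeafA6'` (Deligne-Serre lifting from a CHARACTER of `𝕋(M')`)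
  gives the eigenform of level `M'`.
`Leaf2S` : `2 ∣ Δ_W` for every integral model `W` of the Frey curve (`2 ∈ S` is needed by GEO').
Leaves A5 (push-forward of eigenclasses) and the torsion-class form of A6 are no longer needed.
-/

set_option autoImplicit false
set_option linter.unusedSectionVars false
set_option linter.unusedVariables false
set_option linter.style.haveILetI false

noncomputable section

namespace Fermat.Agent.S40x.A.S44SkeletonV2

open CuspForm WeierstrassCurve WeierstrassCurve.Affine WeierstrassCurve.Affine.Point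
open ModularCurve AlgebraicCurve
open Fermat.Agent.Gateway.S31Red Fermat.Agent.S35x.Degeneracy
open Fermat.Agent.S13 Fermat.Agent.S40x.A1.Theta Fermat.Agent.S40x.A.CopyInTorsion
open Fermat.Agent.S56x.Flat.InertiaField Fermat.Agent.S40x.A.S44Skeleton2
open Fermat.Agent.S40x.Kummer

attribute [local instance] Fermat.Agent.S40x.A.CopyInTorsion.zmodModule
attribute [local instance] Fermat.Agent.S40x.A.S44Skeleton2.fact_prime_p

/-! ### The leaves -/

/-- **Block B, version 2** (`freyLocalShape` with `Nat.card T1 = p` and the `I₀`-form of (d)). -/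
def LeafB' : Prop :=
  ∀ (P : FreyPackage), (P.p : ℤ) ∣ P.a * P.b * P.c →
    ∀ (B : ValuationSubring Qbar), B.LiesOverPrime P.p →
      ∃ T1 : Submodule (ZMod P.p) (Tors P),
        Nat.card T1 = P.p ∧
        (∀ σ ∈ B.inertiaSubgroupIn ℚ, ∀ x : Tors P, σ • x - x ∈ T1) ∧
        (∀ σ ∈ B.inertiaSubgroupIn ℚ, ∀ a : ℕ, (∀ ζ : Qbar, ζ ^ P.p = 1 → σ ζ = ζ ^ a) →
          ∀ s ∈ T1, σ • s = a • s) ∧
        (∀ τ ∈ B.inertiaSubgroupIn ℚ,
          (∀ b : Qbar, b ^ P.p ∈ unitFixed B → τ b = b) → ∀ x : Tors P, τ • x = x)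

/-- **GEO'** (helper22's `s44_geo'`, board `S44_GEO`): a copy `V` of the local shape inside the
`θ`-eigenspace is impossible when `θ` is not `p`-old. -/
def LeafGEO' : Prop :=
  ∀ (p M' : ℕ) [NeZero M'] [NeZero p] [NeZero (M' * p)] [Fact p.Prime] (hp : p.Prime),
    5 ≤ p → ¬ p ∣ M' →
    ∀ (S : Finset ℕ) (hpS : p ∈ S) (h2S : 2 ∈ S)
      (hNS : ∀ q : ℕ, q.Prime → q ∣ M' * p → q ∈ S)
      (θ : heckeAlgebra (M' * p) 2 (↑S : Set ℕ) →+* ZMod p),
      (∃ (l : ℕ) (hl : l.Prime) (hlN : ¬ l ∣ M' * p) (hlS : l ∉ (↑S : Set ℕ)),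
        θ (heckeAlgebra.T hl hlN hlS) ≠ (l : ZMod p) + 1) →
      (∃ h : heckeAlgebra (M' * p) 2 (↑S : Set ℕ), θ h ≠ 0 ∧
        Fermat.Agent.S35x.levelHom (N := M') (q := p) (S := (↑S : Set ℕ))
          (fun q hq hqN => Finset.mem_coe.mpr (hNS q hq hqN)) h = 0) →
      ∀ (V L : AddSubgroup ((tData hp hpS hNS).M 1)), L ≤ V → L ≠ V → Nat.card L = p →
        (∀ (σ : GQ), ∀ x ∈ V, (tData hp hpS hNS).gal 1 σ x ∈ V) →
        (∀ x ∈ V, ∀ t, (tData hp hpS hNS).hecke 1 t x = θ t • x) →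
        ∀ (B : ValuationSubring Qbar), B.LiesOverPrime p →
          (∀ σ ∈ B.inertiaSubgroupIn ℚ, ∀ x ∈ V, (tData hp hpS hNS).gal 1 σ x - x ∈ L) →
          (∀ σ ∈ B.inertiaSubgroupIn ℚ, ∀ a : ℕ, (∀ ζ : Qbar, ζ ^ p = 1 → σ ζ = ζ ^ a) →
            ∀ s ∈ L, (tData hp hpS hNS).gal 1 σ s = a • s) →
          (∀ τ ∈ B.inertiaSubgroupIn ℚ,
            (∀ b : Qbar, b ^ p ∈ unitFixed B → τ b = b) →
              ∀ x ∈ V, (tData hp hpS hNS).gal 1 τ x = x) →
          False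

/-- **(A6')** Deligne-Serre lifting from a character of the Hecke algebra of level `M'`. -/
def LeafA6' : Prop :=
  ∀ (p M' : ℕ) [NeZero M'] [Fact p.Prime] (S : Finset ℕ),
    Module.Finite ℤ (heckeAlgebra M' 2 (↑S : Set ℕ)) →
    (∀ q : ℕ, q.Prime → q ∣ M' → q ∈ S) →
    ∀ (θ' : heckeAlgebra M' 2 (↑S : Set ℕ) →+* ZMod p) (a : ℕ → ℤ),
      (∀ (l : ℕ) (hl : l.Prime) (hlM' : ¬ l ∣ M') (hlS : l ∉ (↑S : Set ℕ)),
        θ' (heckeAlgebra.T hl hlM' hlS) = ((a l : ℤ) : ZMod p)) →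
      ∃ (g : CuspForm (CongruenceSubgroup.Gamma0 M') 2) (m' : Ideal (integralClosure ℤ ℂ)),
        g.IsNormalizedEigenform ∧ m'.IsMaximal ∧ (p : integralClosure ℤ ℂ) ∈ m' ∧
          ∀ l : ℕ, l.Prime → ¬ l ∣ M' → l ∉ S →
            ∃ c : integralClosure ℤ ℂ, (c : ℂ) = ModularFormClass.qCoeff g l ∧
              c - ((a l : ℤ) : integralClosure ℤ ℂ) ∈ m'

/-- **(A-2S)** every integral model of the Frey curve has bad reduction at `2`. -/
def Leaf2S : Prop :=
  ∀ (P : FreyPackage) (W : WeierstrassCurve ℤ), W.IsIntegralModelOf P.freyCurve → (2 : ℤ) ∣ W.Δ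

/-! ### Factorisation through `levelHom` -/

/-- a ring homomorphism killing the kernel of a surjective ring homomorphism factors through
it. -/
theorem exists_factor {A A' C : Type*} [Ring A] [Ring A'] [Ring C] (r : A →+* A')
    (hr : Function.Surjective r) (θ : A →+* C) (hker : ∀ h : A, r h = 0 → θ h = 0) :
    ∃ θ' : A' →+* C, ∀ t, θ' (r t) = θ t := by
  refine ⟨RingHom.liftOfSurjective r hr ⟨θ, fun h hh => ?_⟩, fun t => ?_⟩
  · exact (RingHom.mem_ker).mpr (hker h ((RingHom.mem_ker).mp hh))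
  · exact RingHom.liftOfRightInverse_comp_apply _ _ _ _ t

/-! ### The assembly -/

/-- the core: level `M' * p`, the model `W` and the character `θ` of (A1) given. -/
theorem s44_core' (hA3 : LeafA3) (hB : LeafB') (hGEO : LeafGEO') (hA6 : LeafA6') (h2 : Leaf2S)
    (P : FreyPackage) (M' : ℕ) [NeZero M'] [NeZero P.p] [NeZero (M' * P.p)]
    (hcond : P.IsConductorLevel (M' * P.p))
    (hirr : GaloisRepIsIrreducible (K := AlgebraicClosure ℚ) ℚ P.freyCurve P.p)
    (W : WeierstrassCurve ℤ) (hW : W.IsIntegralModelOf P.freyCurve) (hΔ : W.Δ ≠ 0)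
    (θ : heckeAlgebra (M' * P.p) 2 (↑(levelSet (M' * P.p) W) : Set ℕ) →+* ZMod P.p)
    (hθ : ∀ (ℓ : ℕ) (hℓ : ℓ.Prime) (hℓN : ¬ ℓ ∣ M' * P.p)
      (hℓS : ℓ ∉ (↑(levelSet (M' * P.p) W) : Set ℕ)),
      θ (heckeAlgebra.T hℓ hℓN hℓS) = ((W.apOfModel ℓ : ℤ) : ZMod P.p)) :
    P.ModularRepOfLevel M' := by
  classical
  have hp : P.p.Prime := P.pp
  have hp5 : 5 ≤ P.p := P.hp5
  have hpM' : ¬ P.p ∣ M' := by
    intro h
    obtain ⟨k, hk⟩ := h
    exact hcond.sq_not_dvd hp ⟨k, by rw [hk]; ring⟩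
  have hNS : ∀ q : ℕ, q.Prime → q ∣ M' * P.p → q ∈ levelSet (M' * P.p) W :=
    levelSet_primes' (M' * P.p) W
  have hpS : P.p ∈ levelSet (M' * P.p) W := hNS P.p hp (dvd_mul_left P.p M')
  have hNS' : ∀ q : ℕ, q.Prime → q ∣ M' → q ∈ levelSet (M' * P.p) W := fun q hq hqM' =>
    hNS q hq (hqM'.trans (dvd_mul_right M' P.p))
  have h2S : 2 ∈ levelSet (M' * P.p) W := by
    by_contra h2n
    exact (notMem_levelSet_iff (NeZero.ne (M' * P.p)) hΔ Nat.prime_two).mp h2n |>.2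
      (by exact_mod_cast h2 P W hW)
  have hSet : ∀ q : ℕ, q.Prime → q ∣ M' * P.p → q ∈ (↑(levelSet (M' * P.p) W) : Set ℕ) :=
    fun q hq hqN => Finset.mem_coe.mpr (hNS q hq hqN)
  have hfinT : Module.Finite ℤ (heckeAlgebra M' 2 (↑(levelSet (M' * P.p) W) : Set ℕ)) :=
    Fermat.Agent.S22.result M' 2 _
  -- the eigenform from a character of level `M'`
  have hfinish : ∀ θ' : heckeAlgebra M' 2 (↑(levelSet (M' * P.p) W) : Set ℕ) →+* ZMod P.p,
      (∀ t, θ' (Fermat.Agent.S35x.levelHom (N := M') (q := P.p) hSet t) = θ t) →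
      P.ModularRepOfLevel M' := by
    intro θ' hθ'
    obtain ⟨g, m', hg, hm', hpm', hcong⟩ := hA6 P.p M' (levelSet (M' * P.p) W) hfinT hNS' θ'
      (fun l => W.apOfModel l)
      (fun l hl hlM' hlS => by
        have hlN : ¬ l ∣ M' * P.p := fun h => hlS (hSet l hl h)
        rw [← Fermat.Agent.S35x.levelHom_T hSet hl hlM' hlN hlS, hθ', hθ l hl hlN hlS])
    refine ⟨g, W, m', hg, hW, hm', hpm', fun ℓ hℓ hgood hℓM' hℓp => ?_⟩
    have hℓN : ¬ ℓ ∣ M' * P.p := by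
      intro h
      rcases (Nat.Prime.dvd_mul hℓ).mp h with h | h
      · exact hℓM' h
      · exact hℓp ((Nat.prime_dvd_prime_iff_eq hℓ hp).mp h)
    have hℓS : ℓ ∉ levelSet (M' * P.p) W :=
      (notMem_levelSet_iff (NeZero.ne (M' * P.p)) hΔ hℓ).mpr ⟨hℓN, hgood⟩
    exact hcong ℓ hℓ hℓM' hℓS
  by_cases hnew : ∃ h : heckeAlgebra (M' * P.p) 2 (↑(levelSet (M' * P.p) W) : Set ℕ), θ h ≠ 0 ∧
      Fermat.Agent.S35x.levelHom (N := M') (q := P.p) hSet h = 0
  · -- `θ` is not `p`-old: contradiction with GEO'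
    exfalso
    -- (A-NE)
    haveI : P.freyCurve.IsElliptic := ⟨(Fermat.Agent.S13.freyCurve_Δ_ne_zero P).isUnit⟩
    obtain ⟨l0, hl0, hl0S, -, hl0p, hl0good, hl0NE⟩ :=
      Fermat.Agent.S41.NonEis.exists_nonEisenstein_prime P.freyCurve hW hp
        (by omega : P.p ≠ 2) hirr 1 one_pos (levelSet (M' * P.p) W)
    have hl0N : ¬ l0 ∣ M' * P.p := fun h => hl0S (hNS l0 hl0 h)
    have hl0S' : l0 ∉ (↑(levelSet (M' * P.p) W) : Set ℕ) := fun h => hl0S (Finset.mem_coe.mp h)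
    have hNE : ∃ (l : ℕ) (hl : l.Prime) (hlN : ¬ l ∣ M' * P.p)
        (hlS : l ∉ (↑(levelSet (M' * P.p) W) : Set ℕ)),
        θ (heckeAlgebra.T hl hlN hlS) ≠ (l : ZMod P.p) + 1 := by
      refine ⟨l0, hl0, hl0N, hl0S', ?_⟩
      rw [hθ l0 hl0 hl0N hl0S']
      intro h
      apply hl0NE
      have h2' : ((W.apOfModel l0 - ((l0 : ℤ) + 1) : ℤ) : ZMod P.p) = 0 := by
        push_cast
        rw [h]
        ring
      exact (ZMod.intCast_zmod_eq_zero_iff_dvd _ P.p).mp h2'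
    -- (A3)
    obtain ⟨j, hj, hjθ, hjg⟩ := hA3 P (M' * P.p) W hW hΔ hirr hpS hNS θ hθ
    -- Block B at one place over `p`
    obtain ⟨B, hBp⟩ : ∃ B : ValuationSubring Qbar, B.LiesOverPrime P.p :=
      Fermat.Agent.Lib.exists_valuationSubring_liesOverPrime P.p hp
    obtain ⟨T1, hT1card, hb, hc, hd⟩ := hB P (hcond.p_dvd_abc (dvd_mul_left P.p M')) B hBp
    have hT1 : T1 ≠ ⊤ := by
      intro h
      have h1 : Nat.card T1 = Nat.card (Tors P) := by
        rw [h]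
        exact Nat.card_congr (Submodule.topEquiv (R := ZMod P.p) (M := Tors P)).toEquiv
      rw [hT1card, card_tors] at h1
      have h5 := P.hp5
      nlinarith
    have hLcard : Nat.card (imL (tData hp hpS hNS) j T1) = P.p :=
      (Nat.card_congr (T1.toAddSubgroup.equivMapOfInjective
        (j : Tors P →+ (tData hp hpS hNS).M 1) hj).toEquiv).symm.trans hT1card
    exact hGEO P.p M' hp hp5 hpM' (levelSet (M' * P.p) W) hpS h2S hNS θ hNE hnew
      (imV (tData hp hpS hNS) j) (imL (tData hp hpS hNS) j T1) (imL_le (tData hp hpS hNS) j T1)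
      (imL_ne (tData hp hpS hNS) j hj T1 hT1) hLcard
      (fun σ => imV_gal (tData hp hpS hNS) j hjg σ) (imV_theta (tData hp hpS hNS) θ j hjθ) B hBp
      (fun σ hσ => imV_sub_mem (tData hp hpS hNS) j hjg T1 σ (hb σ hσ))
      (fun σ hσ a ha => imL_cyclo (tData hp hpS hNS) j hjg T1 σ a (hc σ hσ a ha))
      (fun τ hτ hτb => imV_fixed (tData hp hpS hNS) j hjg τ (hd τ hτ hτb))
  · -- `θ` is `p`-old: it factors through `levelHom`
    have hker : ∀ h : heckeAlgebra (M' * P.p) 2 (↑(levelSet (M' * P.p) W) : Set ℕ),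
        Fermat.Agent.S35x.levelHom (N := M') (q := P.p) hSet h = 0 → θ h = 0 := by
      intro h hh
      by_contra hne
      exact hnew ⟨h, hne, hh⟩
    obtain ⟨θ', hθ'⟩ := exists_factor (Fermat.Agent.S35x.levelHom (N := M') (q := P.p) hSet)
      (Fermat.Agent.S35x.levelHom_surjective hSet) θ hker
    exact hfinish θ' hθ'

/-- **The frozen statement S44 from the leaves (version 2).** -/
theorem s44_of_leaves' (hA3 : LeafA3) (hB : LeafB') (hGEO : LeafGEO') (hA6 : LeafA6')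
    (h2 : Leaf2S)
    (P : FreyPackage) {N : ℕ} (hcond : P.IsConductorLevel N) (hpN : P.p ∣ N)
    (hirr : GaloisRepIsIrreducible (K := AlgebraicClosure ℚ) ℚ P.freyCurve P.p)
    (hmod : P.ModularRepOfLevel N) :
    ∃ M : ℕ, M ∣ N ∧ ¬ P.p ∣ M ∧ P.ModularRepOfLevel M := by
  obtain ⟨M', rfl⟩ : ∃ M', N = M' * P.p := by
    obtain ⟨k, hk⟩ := hpN
    exact ⟨k, by rw [hk, mul_comm]⟩
  have hp : P.p.Prime := P.pp
  have hNpos : 0 < M' * P.p := hcond.pos
  have hM'pos : 0 < M' := Nat.pos_of_mul_pos_right hNpos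
  haveI : NeZero M' := ⟨hM'pos.ne'⟩
  haveI : NeZero P.p := ⟨hp.ne_zero⟩
  haveI : NeZero (M' * P.p) := ⟨hNpos.ne'⟩
  have hpM' : ¬ P.p ∣ M' := by
    intro h
    obtain ⟨k, hk⟩ := h
    exact hcond.sq_not_dvd hp ⟨k, by rw [hk]; ring⟩
  obtain ⟨W, hW, hΔ, θ, hθ⟩ := exists_theta_of_modularRepOfLevel P (dvd_mul_left P.p M') hmod
  exact ⟨M', dvd_mul_right M' P.p, hpM',
    s44_core' hA3 hB hGEO hA6 h2 P M' hcond hirr W hW hΔ θ hθ⟩

end Fermat.Agent.S40x.A.S44SkeletonV2
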