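import Mathlib
import Fermat.Agent.S40x.A.DSLiftTors
import Fermat.Agent.S40x.A.S44SkeletonV2

/-!
# P-S44, Block A, leaf A6': Deligne-Serre lifting from a character of the Hecke algebra (helper19)

* `ds_lift_of_ideal`: a proper ideal `I ∋ p` of `𝕋 = heckeAlgebra M' 2 S` with `T_ℓ - a_ℓ ∈ I` for
  the good primes `ℓ` gives a normalised eigenform `g` of level `M'` and a maximal ideal `𝔪' ∋ p` of
  the algebraic integers with `a_ℓ(g) ≡ a_ℓ mod 𝔪'`.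
* `ds_lift_of_character`: the same for a ring homomorphism `θ' : 𝕋 →+* k` into a nontrivial ring of
  characteristic `p` with `θ' (T_ℓ) = a_ℓ` (take `I = ker θ'`).
* `leafA6'` : the literal `S44SkeletonV2.LeafA6'`.

All the work is in `DSLiftTors` (`exists_socle_mod`, `exists_eigenvector_of_socle`,
`exists_eigenform_of_good_eigenvector`).
-/

set_option autoImplicit false
set_option linter.style.haveILetI false

noncomputable section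

namespace Fermat.Agent.S40x.A.DSLiftChar

open CongruenceSubgroup Fermat.Agent.S40x.A.DSLiftTors

variable {p M' : ℕ} [NeZero M'] {S : Finset ℕ}

/-- **Deligne-Serre lifting from a proper ideal over `p`.** -/
theorem ds_lift_of_ideal (hp : p.Prime)
    (hfinT : Module.Finite ℤ (CuspForm.heckeAlgebra M' 2 (↑S : Set ℕ)))
    (I : Ideal (CuspForm.heckeAlgebra M' 2 (↑S : Set ℕ))) (hI : I ≠ ⊤)
    (hpI : ((p : ℕ) : CuspForm.heckeAlgebra M' 2 (↑S : Set ℕ)) ∈ I) (a : ℕ → ℤ)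
    (ha : ∀ (ℓ : ℕ) (hℓ : ℓ.Prime) (hℓM : ¬ ℓ ∣ M') (hℓS : ℓ ∉ (↑S : Set ℕ)),
      CuspForm.heckeAlgebra.T hℓ hℓM hℓS -
        ((a ℓ : ℤ) : CuspForm.heckeAlgebra M' 2 (↑S : Set ℕ)) ∈ I) :
    ∃ (g : CuspForm (Gamma0 M') 2) (𝔪' : Ideal (integralClosure ℤ ℂ)),
      g.IsNormalizedEigenform ∧ 𝔪'.IsMaximal ∧ ((p : ℕ) : integralClosure ℤ ℂ) ∈ 𝔪' ∧
      ∀ ℓ : ℕ, ℓ.Prime → ¬ ℓ ∣ M' → ℓ ∉ (↑S : Set ℕ) →
        ∃ c : integralClosure ℤ ℂ, (c : ℂ) = ModularFormClass.qCoeff g ℓ ∧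
          c - ((a ℓ : ℤ) : integralClosure ℤ ℂ) ∈ 𝔪' := by
  haveI := hfinT
  obtain ⟨g0, hg0, hg0I⟩ := exists_socle_mod (R := CuspForm.heckeAlgebra M' 2 (↑S : Set ℕ))
    hp.ne_zero I hI hpI
  obtain ⟨v, 𝔪, c, hv0, h𝔪, hp𝔪, hc⟩ := exists_eigenvector_of_socle hp
    (fun i : GoodPrime M' S => a i.1) g0 hg0
    (fun i => hg0I _ (ha i.1 i.2.1 i.2.2.1 i.2.2.2))
  obtain ⟨g, hg, hgc⟩ := exists_eigenform_of_good_eigenvector v hv0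
    (fun i => (c i : ℂ)) (fun i => (hc i).1)
  refine ⟨g, 𝔪, hg, h𝔪, hp𝔪, fun ℓ hℓ hℓM hℓS => ?_⟩
  exact ⟨c ⟨ℓ, hℓ, hℓM, hℓS⟩, (hgc ⟨ℓ, hℓ, hℓM, hℓS⟩).symm, (hc ⟨ℓ, hℓ, hℓM, hℓS⟩).2⟩

/-- **Deligne-Serre lifting from a character** of the Hecke algebra with values in a nontrivial
ring of characteristic `p`. -/
theorem ds_lift_of_character (hp : p.Prime) {k : Type*} [Ring k] [Nontrivial k] [CharP k p]
    (hfinT : Module.Finite ℤ (CuspForm.heckeAlgebra M' 2 (↑S : Set ℕ)))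
    (θ' : CuspForm.heckeAlgebra M' 2 (↑S : Set ℕ) →+* k) (a : ℕ → ℤ)
    (hθ : ∀ (ℓ : ℕ) (hℓ : ℓ.Prime) (hℓM : ¬ ℓ ∣ M') (hℓS : ℓ ∉ (↑S : Set ℕ)),
      θ' (CuspForm.heckeAlgebra.T hℓ hℓM hℓS) = ((a ℓ : ℤ) : k)) :
    ∃ (g : CuspForm (Gamma0 M') 2) (𝔪' : Ideal (integralClosure ℤ ℂ)),
      g.IsNormalizedEigenform ∧ 𝔪'.IsMaximal ∧ ((p : ℕ) : integralClosure ℤ ℂ) ∈ 𝔪' ∧
      ∀ ℓ : ℕ, ℓ.Prime → ¬ ℓ ∣ M' → ℓ ∉ (↑S : Set ℕ) →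
        ∃ c : integralClosure ℤ ℂ, (c : ℂ) = ModularFormClass.qCoeff g ℓ ∧
          c - ((a ℓ : ℤ) : integralClosure ℤ ℂ) ∈ 𝔪' := by
  refine ds_lift_of_ideal hp hfinT (RingHom.ker θ') (RingHom.ker_ne_top θ') ?_ a ?_
  · rw [RingHom.mem_ker, map_natCast]
    exact CharP.cast_eq_zero k p
  · intro ℓ hℓ hℓM hℓS
    rw [RingHom.mem_ker, map_sub, map_intCast, hθ ℓ hℓ hℓM hℓS, sub_self]

/-- The literal leaf (A6') of the skeleton `S44SkeletonV2`. -/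
theorem leafA6' : Fermat.Agent.S40x.A.S44SkeletonV2.LeafA6' := by
  intro p M' _ _ S hfinT _ θ' a hθ
  exact ds_lift_of_character Fact.out hfinT θ' a hθ

end Fermat.Agent.S40x.A.DSLiftChar
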