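import Mathlib
import Fermat.Prelude.Def_FLTPrelim_FreyPackage
import Fermat.Prelude.Def_FLTPrelim_GaloisRep
import Fermat.Prelude.Def_FLTPrelim_Modularity
import Fermat.Prelude.Def_FLTPrelim_ModularRep
import Fermat.Prelude.Def_FLTPrelim_Ramification
import Fermat.Prelude.Def_FreyPackage_IsConductorLevel
import Fermat.Agent.S22
import Fermat.Agent.S13.Global
import Fermat.Agent.S41.NonEis.Main
import Fermat.Agent.S35x.Degeneracy.HeckeES
import Fermat.Agent.S56x.Flat.InertiaField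
import Fermat.Agent.Gateway.Export.C0Good
import Fermat.Agent.Gateway.S31.FromExport
import Fermat.Agent.S40x.A1.ThetaCurve
import Fermat.Agent.S40x.A.CopyInTorsion
import Fermat.Agent.Lib.FrobeniusExists

/-!
# P-S44, block A, leaf (A7), independent cross-check (helper21): the frozen statement S44 from
the leaves, hypothesis style

Every leaf of the interface note `S44-IFACE-A v1` (note 2616, helper95) which is not yet landed is
a closed `Prop` here (`LeafA2`, `LeafA3`, `LeafB`, `LeafGEO`, `LeafA5`, `LeafA6`); the landed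
leaves (A1 `exists_theta_of_modularRepOfLevel`, A-NE `exists_nonEisenstein_prime`, S22) are
called, and the transport leaf A-LOC is PROVED inline (`transport`).  `s44_of_leaves` is the
conclusion of the frozen statement S44 from these.

Vocabulary: `tData hp hpS hNS : TorsionHeckeData p N S` is the torsion Hecke data of the export
contract (literal of `S33x/Consumer/Final.lean`); everything is phrased on `D.M 1` (`= JTors N (p ^ 1)`
definitionally) with its `ZMod p`-module structure `CopyInTorsion.zmodModule D`.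
-/

set_option autoImplicit false
set_option linter.unusedSectionVars false
set_option linter.unusedVariables false
set_option linter.style.haveILetI false

noncomputable section

namespace Fermat.Agent.S40x.A.S44Skeleton2

open CuspForm WeierstrassCurve WeierstrassCurve.Affine WeierstrassCurve.Affine.Point
open ModularCurve AlgebraicCurve
open Fermat.Agent.Gateway.S31Red Fermat.Agent.S35x.Degeneracy
open Fermat.Agent.S13 Fermat.Agent.S40x.A1.Theta Fermat.Agent.S40x.A.CopyInTorsion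
open Fermat.Agent.S56x.Flat.InertiaField

attribute [local instance] Fermat.Agent.S40x.A.CopyInTorsion.zmodModule

/-- `P.p` is prime, as a `Fact` (local instance of this file only). -/
theorem fact_prime_p (P : FreyPackage) : Fact P.p.Prime := ⟨P.pp⟩

attribute [local instance] fact_prime_p

/-- the torsion Hecke data of the export contract at level `N` (literal of
`S33x/Consumer/Final.lean`, lines 63-67) -/
def tData {p N : ℕ} [NeZero N] {S : Finset ℕ} (hp : p.Prime) (hpS : p ∈ S)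
    (hNS : ∀ q : ℕ, q.Prime → q ∣ N → q ∈ S) : TorsionHeckeData p N S :=
  torsionHeckeDataOfExport hp hpS hNS
    (Fermat.Agent.Gateway.Export.heckeTorsionAction N
      (Fermat.Agent.Gateway.Export.coreInputs N (Fermat.Agent.Gateway.Export.d5Input N)) S hNS)
    (galoisHeckeComm N)
    (Fermat.Agent.Gateway.Export.torsionEichlerShimura
      (Fermat.Agent.Gateway.Export.partCInputs Fermat.Agent.Gateway.Export.c0Good N))
    (Fermat.Agent.Gateway.Export.torsionGalLevel N)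

/-! ### The leaves -/

/-- **(A3)** a Galois-equivariant copy of `E[p]` inside the `θ`-eigenspace of `J₀(N)[p]`. -/
def LeafA3 : Prop :=
  ∀ (P : FreyPackage) (N : ℕ) [NeZero N] (W : WeierstrassCurve ℤ),
    W.IsIntegralModelOf P.freyCurve → W.Δ ≠ 0 →
    GaloisRepIsIrreducible (K := AlgebraicClosure ℚ) ℚ P.freyCurve P.p →
    ∀ (hpS : P.p ∈ levelSet N W) (hNS : ∀ q : ℕ, q.Prime → q ∣ N → q ∈ levelSet N W)
      (θ : heckeAlgebra N 2 (↑(levelSet N W) : Set ℕ) →+* ZMod P.p),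
      (∀ (ℓ : ℕ) (hℓ : ℓ.Prime) (hℓN : ¬ ℓ ∣ N) (hℓS : ℓ ∉ (↑(levelSet N W) : Set ℕ)),
        θ (heckeAlgebra.T hℓ hℓN hℓS) = ((W.apOfModel ℓ : ℤ) : ZMod P.p)) →
      ∃ j : Tors P →ₗ[ZMod P.p] (tData P.pp hpS hNS).M 1,
        Function.Injective j ∧ (∀ v, j v ∈ eigenspace (tData P.pp hpS hNS) θ) ∧
          ∀ (g : GQ) (v : Tors P), j (g • v) = (tData P.pp hpS hNS).gal 1 g (j v)

/-- **Block B** (`freyLocalShape`, literal of note 2602). -/
def LeafB : Prop :=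
  ∀ (P : FreyPackage), (P.p : ℤ) ∣ P.a * P.b * P.c →
    ∀ (B : ValuationSubring Qbar), B.LiesOverPrime P.p →
      ∃ T1 : Submodule (ZMod P.p) (Tors P),
        T1 ≠ ⊤ ∧
        (∀ σ ∈ B.inertiaSubgroupIn ℚ, ∀ x : Tors P, σ • x - x ∈ T1) ∧
        (∀ σ ∈ B.inertiaSubgroupIn ℚ, ∀ a : ℕ, (∀ ζ : Qbar, ζ ^ P.p = 1 → σ ζ = ζ ^ a) →
          ∀ s ∈ T1, σ • s = a • s) ∧
        (∀ τ ∈ B.inertiaSubgroupIn ℚ,
          (∀ b : Qbar, b ^ P.p ∈ inertiaInt B → b ^ P.p ∉ B.nonunits → τ b = b) →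
            ∀ x : Tors P, τ • x = x)

/-- **(A4) = GEO**: the claim `π(V) ≠ 0` (literal of note 2616, on `D.M 1`). -/
def LeafGEO : Prop :=
  ∀ (p M' : ℕ) [NeZero M'] [NeZero p] [NeZero (M' * p)] [Fact p.Prime] (hp : p.Prime),
    5 ≤ p → ¬ p ∣ M' → Squarefree M' →
    ∀ (S : Finset ℕ) (hpS : p ∈ S) (hNS : ∀ q : ℕ, q.Prime → q ∣ M' * p → q ∈ S)
      (θ : heckeAlgebra (M' * p) 2 (↑S : Set ℕ) →+* ZMod p),
      (∃ (l : ℕ) (hl : l.Prime) (hlN : ¬ l ∣ M' * p) (hlS : l ∉ (↑S : Set ℕ)),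
        θ (heckeAlgebra.T hl hlN hlS) ≠ (l : ZMod p) + 1) →
      ∀ (V L : AddSubgroup ((tData hp hpS hNS).M 1)), L ≤ V → L ≠ V →
        (∀ (σ : GQ), ∀ x ∈ V, (tData hp hpS hNS).gal 1 σ x ∈ V) →
        (∀ x ∈ V, ∀ t, (tData hp hpS hNS).hecke 1 t x = θ t • x) →
        ∀ (B : ValuationSubring Qbar), B.LiesOverPrime p →
          (∀ σ ∈ B.inertiaSubgroupIn ℚ, ∀ x ∈ V, (tData hp hpS hNS).gal 1 σ x - x ∈ L) →
          (∀ σ ∈ B.inertiaSubgroupIn ℚ, ∀ a : ℕ, (∀ ζ : Qbar, ζ ^ p = 1 → σ ζ = ζ ^ a) →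
            ∀ s ∈ L, (tData hp hpS hNS).gal 1 σ s = a • s) →
          (∀ τ ∈ B.inertiaSubgroupIn ℚ,
            (∀ b : Qbar, b ^ p ∈ inertiaInt B → b ^ p ∉ B.nonunits → τ b = b) →
              ∀ x ∈ V, (tData hp hpS hNS).gal 1 τ x = x) →
          ∃ x ∈ V, torsMap (degAlpha M' p) (p ^ 1) x ≠ 0 ∨ torsMap (degBeta M' p) (p ^ 1) x ≠ 0

/-- **(A5)** the push-forward of a `θ`-eigenclass is an eigenclass at level `M'` for the `T_l`,
`l ∉ S`, with the same eigenvalues. -/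
def LeafA5 : Prop :=
  ∀ (p M' : ℕ) [NeZero M'] [NeZero p] [NeZero (M' * p)] [Fact p.Prime] (hp : p.Prime)
    (S : Finset ℕ) (hpS : p ∈ S) (hNS : ∀ q : ℕ, q.Prime → q ∣ M' * p → q ∈ S)
    (hNS' : ∀ q : ℕ, q.Prime → q ∣ M' → q ∈ S)
    (θ : heckeAlgebra (M' * p) 2 (↑S : Set ℕ) →+* ZMod p)
    (x : (tData hp hpS hNS).M 1), x ∈ eigenspace (tData hp hpS hNS) θ →
    ∀ (Pmap : JZero (M' * p) →+ JZero M'), Pmap = degAlpha M' p ∨ Pmap = degBeta M' p →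
      ∀ (y : (tData hp hpS hNS').M 1), y = torsMap Pmap (p ^ 1) x →
      ∀ (l : ℕ) (hl : l.Prime) (hlM' : ¬ l ∣ M') (hlN : ¬ l ∣ M' * p) (hlS : l ∉ (↑S : Set ℕ)),
        (tData hp hpS hNS').hecke 1 (heckeAlgebra.T hl hlM' hlS) y =
          θ (heckeAlgebra.T hl hlN hlS) • y

/-- **(A6)** Deligne–Serre lifting from a nonzero torsion eigenclass. -/
def LeafA6 : Prop :=
  ∀ (p M' : ℕ) [NeZero M'] [Fact p.Prime] (S : Finset ℕ)
    (D' : TorsionHeckeData p M' S), Module.Finite ℤ (heckeAlgebra M' 2 (↑S : Set ℕ)) →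
    (∀ q : ℕ, q.Prime → q ∣ M' → q ∈ S) →
    ∀ (y : D'.M 1), y ≠ 0 → ∀ (a : ℕ → ℤ),
      (∀ (l : ℕ) (hl : l.Prime) (hlM' : ¬ l ∣ M') (hlS : l ∉ (↑S : Set ℕ)),
        D'.hecke 1 (heckeAlgebra.T hl hlM' hlS) y = ((a l : ℤ) : ZMod p) • y) →
      ∃ (g : CuspForm (CongruenceSubgroup.Gamma0 M') 2) (m' : Ideal (integralClosure ℤ ℂ)),
        g.IsNormalizedEigenform ∧ m'.IsMaximal ∧ (p : integralClosure ℤ ℂ) ∈ m' ∧
          ∀ l : ℕ, l.Prime → ¬ l ∣ M' → l ∉ S →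
            ∃ c : integralClosure ℤ ℂ, (c : ℂ) = ModularFormClass.qCoeff g l ∧
              c - ((a l : ℤ) : integralClosure ℤ ℂ) ∈ m'

/-! ### (A-LOC) transport of the local shape along `j` (proved here) -/

section Transport

variable {P : FreyPackage} {N : ℕ} [NeZero N] {S : Finset ℕ}
  (D : TorsionHeckeData P.p N S) (θ : heckeAlgebra N 2 (↑S : Set ℕ) →+* ZMod P.p)
  (j : Tors P →ₗ[ZMod P.p] D.M 1) (hj : Function.Injective j)
  (hjθ : ∀ v, j v ∈ eigenspace D θ)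
  (hjg : ∀ (g : GQ) (v : Tors P), j (g • v) = D.gal 1 g (j v))
  (B : ValuationSubring Qbar) (T1 : Submodule (ZMod P.p) (Tors P))

/-- `V = j(E[p])`. -/
def imV : AddSubgroup (D.M 1) := (j : Tors P →+ D.M 1).range

/-- `L = j(T1)`. -/
def imL : AddSubgroup (D.M 1) := T1.toAddSubgroup.map (j : Tors P →+ D.M 1)

theorem mem_imV {x : D.M 1} : x ∈ imV D j ↔ ∃ v, j v = x := Iff.rfl

theorem mem_imL {x : D.M 1} : x ∈ imL D j T1 ↔ ∃ s ∈ T1, j s = x := Iff.rfl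

theorem imL_le : imL D j T1 ≤ imV D j := by
  rintro x ⟨s, -, rfl⟩
  exact ⟨s, rfl⟩

include hj in
theorem imL_ne (hT1 : T1 ≠ ⊤) : imL D j T1 ≠ imV D j := by
  intro h
  apply hT1
  rw [eq_top_iff]
  intro v _
  have hv : j v ∈ imL D j T1 := by rw [h]; exact ⟨v, rfl⟩
  obtain ⟨s, hs, hsv⟩ := hv
  rwa [← hj hsv]

include hjg in
theorem imV_gal (σ : GQ) : ∀ x ∈ imV D j, D.gal 1 σ x ∈ imV D j := by
  rintro x ⟨v, rfl⟩
  exact ⟨σ • v, hjg σ v⟩

include hjθ in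
theorem imV_theta : ∀ x ∈ imV D j, ∀ t, D.hecke 1 t x = θ t • x := by
  rintro x ⟨v, rfl⟩ t
  exact hjθ v t

include hjg in
theorem imV_sub_mem (σ : GQ) (hσ : ∀ x : Tors P, σ • x - x ∈ T1) :
    ∀ x ∈ imV D j, D.gal 1 σ x - x ∈ imL D j T1 := by
  rintro x ⟨v, rfl⟩
  refine ⟨σ • v - v, hσ v, ?_⟩
  show j (σ • v - v) = D.gal 1 σ (j v) - j v
  rw [map_sub, hjg]

include hjg in
theorem imL_cyclo (σ : GQ) (a : ℕ) (hσ : ∀ s ∈ T1, σ • s = a • s) :
    ∀ s ∈ imL D j T1, D.gal 1 σ s = a • s := by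
  rintro x ⟨s, hs, rfl⟩
  show D.gal 1 σ (j s) = a • j s
  rw [← hjg, hσ s hs, map_nsmul]

include hjg in
theorem imV_fixed (τ : GQ) (hτ : ∀ x : Tors P, τ • x = x) :
    ∀ x ∈ imV D j, D.gal 1 τ x = x := by
  rintro x ⟨v, rfl⟩
  show D.gal 1 τ (j v) = j v
  rw [← hjg, hτ v]

end Transport

/-! ### The assembly -/

/-- the core: level `M' * p`, the model `W` and the character `θ` of (A1) given. -/
theorem s44_core (hA3 : LeafA3) (hB : LeafB) (hGEO : LeafGEO) (hA5 : LeafA5) (hA6 : LeafA6)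
    (P : FreyPackage) (M' : ℕ) [NeZero M'] [NeZero P.p] [NeZero (M' * P.p)]
    (hcond : P.IsConductorLevel (M' * P.p))
    (hirr : GaloisRepIsIrreducible (K := AlgebraicClosure ℚ) ℚ P.freyCurve P.p)
    (W : WeierstrassCurve ℤ) (hW : W.IsIntegralModelOf P.freyCurve) (hΔ : W.Δ ≠ 0)
    (θ : heckeAlgebra (M' * P.p) 2 (↑(levelSet (M' * P.p) W) : Set ℕ) →+* ZMod P.p)
    (hθ : ∀ (ℓ : ℕ) (hℓ : ℓ.Prime) (hℓN : ¬ ℓ ∣ M' * P.p)
      (hℓS : ℓ ∉ (↑(levelSet (M' * P.p) W) : Set ℕ)),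
      θ (heckeAlgebra.T hℓ hℓN hℓS) = ((W.apOfModel ℓ : ℤ) : ZMod P.p)) :
    P.ModularRepOfLevel M' := by
  classical
  have hp : P.p.Prime := P.pp
  have hp5 : 5 ≤ P.p := P.hp5
  have hpM' : ¬ P.p ∣ M' := by
    intro h
    obtain ⟨k, hk⟩ := h
    exact hcond.sq_not_dvd hp ⟨k, by rw [hk]; ring⟩
  have hsqM' : Squarefree M' := hcond.squarefree.squarefree_of_dvd (dvd_mul_right M' P.p)
  have hNS : ∀ q : ℕ, q.Prime → q ∣ M' * P.p → q ∈ levelSet (M' * P.p) W :=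
    levelSet_primes' (M' * P.p) W
  have hpS : P.p ∈ levelSet (M' * P.p) W := hNS P.p hp (dvd_mul_left P.p M')
  have hNS' : ∀ q : ℕ, q.Prime → q ∣ M' → q ∈ levelSet (M' * P.p) W := fun q hq hqM' =>
    hNS q hq (hqM'.trans (dvd_mul_right M' P.p))
  -- (A-NE)
  haveI : P.freyCurve.IsElliptic := ⟨(Fermat.Agent.S13.freyCurve_Δ_ne_zero P).isUnit⟩
  obtain ⟨l0, hl0, hl0S, -, hl0p, hl0good, hl0NE⟩ :=
    Fermat.Agent.S41.NonEis.exists_nonEisenstein_prime P.freyCurve hW hp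
      (by omega : P.p ≠ 2) hirr 1 one_pos (levelSet (M' * P.p) W)
  have hl0N : ¬ l0 ∣ M' * P.p := fun h => hl0S (hNS l0 hl0 h)
  have hl0S' : l0 ∉ (↑(levelSet (M' * P.p) W) : Set ℕ) := fun h => hl0S (Finset.mem_coe.mp h)
  have hNE : ∃ (l : ℕ) (hl : l.Prime) (hlN : ¬ l ∣ M' * P.p)
      (hlS : l ∉ (↑(levelSet (M' * P.p) W) : Set ℕ)),
      θ (heckeAlgebra.T hl hlN hlS) ≠ (l : ZMod P.p) + 1 := by
    refine ⟨l0, hl0, hl0N, hl0S', ?_⟩
    rw [hθ l0 hl0 hl0N hl0S']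
    intro h
    apply hl0NE
    have h2 : ((W.apOfModel l0 - ((l0 : ℤ) + 1) : ℤ) : ZMod P.p) = 0 := by
      push_cast
      rw [h]
      ring
    exact (ZMod.intCast_zmod_eq_zero_iff_dvd _ P.p).mp h2
  -- (A3)
  obtain ⟨j, hj, hjθ, hjg⟩ := hA3 P (M' * P.p) W hW hΔ hirr hpS hNS θ hθ
  -- Block B at one place over `p`
  obtain ⟨B, hBp⟩ : ∃ B : ValuationSubring Qbar, B.LiesOverPrime P.p :=
    Fermat.Agent.Lib.exists_valuationSubring_liesOverPrime P.p hp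
  obtain ⟨T1, hT1, hb, hc, hd⟩ := hB P (hcond.p_dvd_abc (dvd_mul_left P.p M')) B hBp
  -- GEO
  obtain ⟨x, hxV, hx⟩ := hGEO P.p M' hp hp5 hpM' hsqM' (levelSet (M' * P.p) W) hpS hNS θ hNE
    (imV (tData hp hpS hNS) j) (imL (tData hp hpS hNS) j T1) (imL_le (tData hp hpS hNS) j T1)
    (imL_ne (tData hp hpS hNS) j hj T1 hT1)
    (fun σ => imV_gal (tData hp hpS hNS) j hjg σ) (imV_theta (tData hp hpS hNS) θ j hjθ) B hBp
    (fun σ hσ => imV_sub_mem (tData hp hpS hNS) j hjg T1 σ (hb σ hσ))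
    (fun σ hσ a ha => imL_cyclo (tData hp hpS hNS) j hjg T1 σ a (hc σ hσ a ha))
    (fun τ hτ hτb => imV_fixed (tData hp hpS hNS) j hjg τ (hd τ hτ hτb))
  have hxθ : x ∈ eigenspace (tData hp hpS hNS) θ :=
    fun t => imV_theta (tData hp hpS hNS) θ j hjθ x hxV t
  -- (A5) + (A6)
  obtain ⟨Pmap, hPmap, hy0⟩ : ∃ Pmap : JZero (M' * P.p) →+ JZero M',
      (Pmap = degAlpha M' P.p ∨ Pmap = degBeta M' P.p) ∧ torsMap Pmap (P.p ^ 1) x ≠ 0 := by
    rcases hx with h | h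
    · exact ⟨_, Or.inl rfl, h⟩
    · exact ⟨_, Or.inr rfl, h⟩
  have hfinT : Module.Finite ℤ (heckeAlgebra M' 2 (↑(levelSet (M' * P.p) W) : Set ℕ)) :=
    Fermat.Agent.S22.result M' 2 _
  obtain ⟨g, m', hg, hm', hpm', hcong⟩ := hA6 P.p M' (levelSet (M' * P.p) W)
    (tData hp hpS hNS') hfinT hNS' (torsMap Pmap (P.p ^ 1) x) hy0 (fun l => W.apOfModel l)
    (fun l hl hlM' hlS => by
      have hlN : ¬ l ∣ M' * P.p := fun h => hlS (Finset.mem_coe.mpr (hNS l hl h))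
      have := hA5 P.p M' hp (levelSet (M' * P.p) W) hpS hNS hNS' θ x hxθ Pmap hPmap _ rfl
        l hl hlM' hlN hlS
      rw [hθ l hl hlN hlS] at this
      exact this)
  -- repackaging
  refine ⟨g, W, m', hg, hW, hm', hpm', fun ℓ hℓ hgood hℓM' hℓp => ?_⟩
  have hℓN : ¬ ℓ ∣ M' * P.p := by
    intro h
    rcases (Nat.Prime.dvd_mul hℓ).mp h with h | h
    · exact hℓM' h
    · exact hℓp ((Nat.prime_dvd_prime_iff_eq hℓ hp).mp h)
  have hℓS : ℓ ∉ levelSet (M' * P.p) W :=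
    (notMem_levelSet_iff (NeZero.ne (M' * P.p)) hΔ hℓ).mpr ⟨hℓN, hgood⟩
  exact hcong ℓ hℓ hℓM' hℓS

/-- **The frozen statement S44 from the leaves.** -/
theorem s44_of_leaves (hA3 : LeafA3) (hB : LeafB) (hGEO : LeafGEO) (hA5 : LeafA5) (hA6 : LeafA6)
    (P : FreyPackage) {N : ℕ} (hcond : P.IsConductorLevel N) (hpN : P.p ∣ N)
    (hirr : GaloisRepIsIrreducible (K := AlgebraicClosure ℚ) ℚ P.freyCurve P.p)
    (hmod : P.ModularRepOfLevel N) :
    ∃ M : ℕ, M ∣ N ∧ ¬ P.p ∣ M ∧ P.ModularRepOfLevel M := by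
  -- `N = M' * p`
  obtain ⟨M', rfl⟩ : ∃ M', N = M' * P.p := by
    obtain ⟨k, hk⟩ := hpN
    exact ⟨k, by rw [hk, mul_comm]⟩
  have hp : P.p.Prime := P.pp
  have hNpos : 0 < M' * P.p := hcond.pos
  have hM'pos : 0 < M' := Nat.pos_of_mul_pos_right hNpos
  haveI : NeZero M' := ⟨hM'pos.ne'⟩
  haveI : NeZero P.p := ⟨hp.ne_zero⟩
  haveI : NeZero (M' * P.p) := ⟨hNpos.ne'⟩
  have hpM' : ¬ P.p ∣ M' := by
    intro h
    obtain ⟨k, hk⟩ := h
    exact hcond.sq_not_dvd hp ⟨k, by rw [hk]; ring⟩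
  obtain ⟨W, hW, hΔ, θ, hθ⟩ := exists_theta_of_modularRepOfLevel P (dvd_mul_left P.p M') hmod
  exact ⟨M', dvd_mul_right M' P.p, hpM',
    s44_core hA3 hB hGEO hA5 hA6 P M' hcond hirr W hW hΔ θ hθ⟩

end Fermat.Agent.S40x.A.S44Skeleton2
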