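import Mathlib
import Fermat.Agent.S40x.A.DSLiftTors
import Fermat.Agent.S40x.A.S44Skeleton2

/-!
# P-S44, Block A, leaf A6 in the literal form of the skeleton (helper19)

`leafA6 : S44Skeleton2.LeafA6`, a restatement of `DSLiftTors.ds_lift_of_torsion_class_zmod`
(the hypothesis on the primes of `M'` is not needed).
-/

set_option autoImplicit false

namespace Fermat.Agent.S40x.A.DSLiftTorsLeaf

attribute [local instance] Fermat.Agent.S40x.A.CopyInTorsion.zmodModule

theorem leafA6 : Fermat.Agent.S40x.A.S44Skeleton2.LeafA6 := by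
  intro p M' _ _ S D' hfinT _ y hy0 a hy
  exact Fermat.Agent.S40x.A.DSLiftTors.ds_lift_of_torsion_class_zmod Fact.out D' hfinT y hy0 a hy

end Fermat.Agent.S40x.A.DSLiftTorsLeaf
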