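import Mathlib
import Fermat.Agent.S35x.LevelHom

/-!
# Block A of P-S44: the new/old dichotomy for a character of the Hecke algebra of level `M' p`

Let `θ : 𝕋(M' p) → k` be a ring homomorphism and `levelHom : 𝕋(M' p) → 𝕋(M')` the (surjective)
level lowering homomorphism `T_ℓ ↦ T_ℓ` of `S35x/LevelHom`.  Then

* either `θ` is *new*: some `h` with `levelHom h = 0` has `θ h ≠ 0`,
* or `θ` is *old*: it factors through a character `θ'` of `𝕋(M')` with `θ' (T_ℓ) = θ (T_ℓ)`.

This is the seam between the geometric block (which refutes the first alternative) and the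
Deligne-Serre lifting from a character of `𝕋(M')` (which consumes the second).
-/

set_option autoImplicit false

namespace Fermat.Agent.S40x.A.Dich

open CuspForm

/-- Abstract form: a homomorphism either detects the kernel of a surjection or factors through
it. -/
theorem exists_ne_or_factor {A B k : Type*} [Ring A] [Ring B] [Ring k]
    (φ : A →+* B) (hφ : Function.Surjective φ) (θ : A →+* k) :
    (∃ h : A, θ h ≠ 0 ∧ φ h = 0) ∨ ∃ θ' : B →+* k, ∀ a, θ' (φ a) = θ a := by
  by_cases hker : ∀ a, φ a = 0 → θ a = 0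
  · right
    have hle : RingHom.ker φ ≤ RingHom.ker θ := fun a ha => hker a ha
    refine ⟨RingHom.liftOfSurjective φ hφ ⟨θ, hle⟩, fun a => ?_⟩
    exact RingHom.liftOfRightInverse_comp_apply φ _ _ ⟨θ, hle⟩ a
  · left
    rw [not_forall] at hker
    obtain ⟨a, ha⟩ := hker
    rw [Classical.not_imp] at ha
    exact ⟨a, ha.2, ha.1⟩

/-- **New/old dichotomy.**  A character `θ` of the Hecke algebra of level `M' * p` is either new
(nonzero on an element killed by the level lowering homomorphism) or factors through a character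
`θ'` of the Hecke algebra of level `M'` with the same values on all `T_ℓ`. -/
theorem new_or_old {M' p : ℕ} [NeZero M'] [NeZero p] {S : Set ℕ} {k : Type*} [Ring k]
    (hS : ∀ q : ℕ, q.Prime → q ∣ M' * p → q ∈ S)
    (θ : heckeAlgebra (M' * p) 2 S →+* k) :
    (∃ h : heckeAlgebra (M' * p) 2 S, θ h ≠ 0 ∧ Fermat.Agent.S35x.levelHom hS h = 0) ∨
      ∃ θ' : heckeAlgebra M' 2 S →+* k,
        (∀ t, θ' (Fermat.Agent.S35x.levelHom hS t) = θ t) ∧
        ∀ (ℓ : ℕ) (hℓ : ℓ.Prime) (hℓM : ¬ ℓ ∣ M') (hℓN : ¬ ℓ ∣ M' * p) (hℓS : ℓ ∉ S),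
          θ' (heckeAlgebra.T hℓ hℓM hℓS) = θ (heckeAlgebra.T hℓ hℓN hℓS) := by
  rcases exists_ne_or_factor (Fermat.Agent.S35x.levelHom hS)
      (Fermat.Agent.S35x.levelHom_surjective hS) θ with h | ⟨θ', hθ'⟩
  · exact Or.inl h
  · refine Or.inr ⟨θ', hθ', fun ℓ hℓ hℓM hℓN hℓS => ?_⟩
    rw [← hθ', Fermat.Agent.S35x.levelHom_T hS hℓ hℓM hℓN hℓS]

/-- In the new case every element of a `𝕋(M' p)`-module on which the Hecke algebra acts through
`θ` is killed by any additive map that intertwines `h` with the action of `levelHom h`: abstract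
form of "`π(V) = 0` when `θ` is new". -/
theorem eq_zero_of_new {k X Y : Type*} [Field k] [AddCommGroup X] [Module k X]
    [AddCommGroup Y] [Module k Y]
    (c : k) (hc : c ≠ 0) (π : X →+ Y) (x : X) (hx : π (c • x) = 0)
    (hπ : ∀ (a : k) (x : X), π (a • x) = a • π x) : π x = 0 := by
  rw [hπ] at hx
  exact (smul_eq_zero.mp hx).resolve_left hc

end Fermat.Agent.S40x.A.Dich
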