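import Mathlib
import Fermat.Prelude.Def_CuspForm_HeckeAlgebra
import Fermat.Prelude.Def_CuspForm_IntegralStructure
import Fermat.Prelude.Thm_CuspForm_mem_intLattice_of_mem_heckeAlgebra
import Fermat.Prelude.Thm_CuspForm_intLattice_fg
import Fermat.Agent.S23.Glue
import Fermat.Agent.S49.CommonEigenvector
import Fermat.Agent.S49.Eigenform
import Fermat.Agent.S41.Final.DSLiftSpan
import Fermat.Agent.S41.Forms.Consumer
import Fermat.Agent.S35x.LevelHom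
import Fermat.Agent.S40x.A1.Theta

/-!
# P-S44, seam `G4+ ⇒ G4` on the Block A side (helper19)

* `exists_eigenform_of_eigenvector_pred` : a nonzero eigenvector of the `T_ℓ` (`ℓ ∤ M'` prime with
  `P ℓ`, `P` an arbitrary predicate) gives a normalised eigenform with `a_ℓ = c_ℓ` for these `ℓ`.
* `exists_eigenform_of_lattice_vector` **(EIG)** : a vector `g₀` of the integral lattice of
  `S₂(Γ₀(M'))`, not in `p L`, with `(T_ℓ - a_ℓ) g₀ ∈ p L` for the primes `ℓ ∤ M'` with `P ℓ`, gives a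
  normalised eigenform `g'` of level `M'` and a maximal ideal `𝔪' ∋ p` with `a_ℓ(g') ≡ a_ℓ`.
* `eq_zero_of_levelHom_eq_zero` **(OLD)** : if `θ : 𝕋(M' p) →+* ZMod p` has `θ (T_ℓ) = a_ℓ` and such an
  eigenform of level `M'` exists (for `P = (· ∉ S)`), then `θ` factors through
  `levelHom : 𝕋(M' p) → 𝕋(M')`; in particular `θ` kills the kernel of `levelHom`.
* `false_of_lattice_vector` **(G4)** : `hnew` and the lattice vector of (EIG) are contradictory.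
-/

set_option autoImplicit false
set_option linter.style.haveILetI false
set_option linter.unusedSectionVars false

noncomputable section

namespace Fermat.Agent.S40x.A.EigOld

open CongruenceSubgroup CuspForm

/-! ### From a partial eigenvector to a normalised eigenform -/

section Pred

variable {M' : ℕ} [NeZero M']

open Fermat.Agent.S41.Forms in
/-- A nonzero eigenvector of the `T_ℓ` for the primes `ℓ ∤ M'` with `P ℓ` gives a normalised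
eigenform with `a_ℓ = c ℓ` for these `ℓ`. -/
theorem exists_eigenform_of_eigenvector_pred (P : ℕ → Prop)
    (v : CuspForm (Gamma0 M') 2) (hv : v ≠ 0) (c : ℕ → ℂ)
    (hc : ∀ (ℓ : ℕ) (hℓ : ℓ.Prime) (hℓM : ¬ ℓ ∣ M'), P ℓ → heckeTLin 2 hℓ hℓM v = c ℓ • v) :
    ∃ g : CuspForm (Gamma0 M') 2, g.IsNormalizedEigenform ∧
      ∀ ℓ : ℕ, ℓ.Prime → ¬ ℓ ∣ M' → P ℓ → ModularFormClass.qCoeff g ℓ = c ℓ := by
  classical
  have := Fermat.Agent.S23.finiteDimensional_cuspForm M' 2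
  have hvW : v ∈ eigenSub M' P c 1 := by
    refine ⟨fun l hl hd hP => ?_, ?_⟩
    · rw [heckeOp_of_not_dvd M' hl hd]
      exact hc l hl hd hP
    · rw [heckeOp_of_not_prime M' Nat.not_prime_one, Module.End.one_apply, Module.End.one_apply]
  have hW : eigenSub M' P c 1 ≠ ⊥ := by
    intro hbot
    rw [hbot, Submodule.mem_bot] at hvW
    exact hv hvW
  obtain ⟨w, hwW, hw0, hw⟩ := Fermat.Agent.S49.Lifting.exists_common_eigenvector_in_submodule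
    (heckeOp M') (heckeOp_comm M') _ (eigenSub M' P c 1) rfl hW
    (fun i x hx => heckeOp_mem_eigenSub M' i hx)
  choose lam hlam using hw
  obtain ⟨g, hg, hgl⟩ := Fermat.Agent.S49.Eigenform.exists_normalizedEigenform_of_eigenvector w hw0
    lam (fun l hl hd => by rw [← heckeOp_of_not_dvd M' hl hd]; exact hlam l)
    (fun l hl hd => by rw [← heckeOp_of_dvd M' hl hd]; exact hlam l)
  obtain ⟨hw1, -⟩ := hwW
  refine ⟨g, hg, fun ℓ hℓ hℓM hP => ?_⟩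
  rw [hgl ℓ hℓ]
  have h1 := hw1 ℓ hℓ hℓM hP
  rw [hlam ℓ] at h1
  exact smul_left_injective ℂ hw0 h1

/-- **(EIG)** Deligne-Serre lifting from a vector of the integral lattice which is an eigenvector
modulo `p` of the `T_ℓ`, `ℓ ∤ M'` prime with `P ℓ`. -/
theorem exists_eigenform_of_lattice_vector {p : ℕ} (hp : p.Prime) (P : ℕ → Prop) (a : ℕ → ℤ)
    (g0 : CuspForm (Gamma0 M') 2) (hg0L : g0 ∈ intLattice M' 2)
    (hg0 : ∀ y ∈ intLattice M' 2, g0 ≠ (p : ℤ) • y)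
    (hT : ∀ (ℓ : ℕ) (hℓ : ℓ.Prime) (hℓM : ¬ ℓ ∣ M'), P ℓ → ∃ y ∈ intLattice M' 2,
      heckeTLin 2 hℓ hℓM g0 - a ℓ • g0 = (p : ℤ) • y) :
    ∃ (g : CuspForm (Gamma0 M') 2) (𝔪' : Ideal (integralClosure ℤ ℂ)),
      g.IsNormalizedEigenform ∧ 𝔪'.IsMaximal ∧ ((p : ℕ) : integralClosure ℤ ℂ) ∈ 𝔪' ∧
      ∀ ℓ : ℕ, ℓ.Prime → ¬ ℓ ∣ M' → P ℓ →
        ∃ c : integralClosure ℤ ℂ, (c : ℂ) = ModularFormClass.qCoeff g ℓ ∧
          c - ((a ℓ : ℤ) : integralClosure ℤ ℂ) ∈ 𝔪' := by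
  classical
  let ι : Type := {ℓ : ℕ // ℓ.Prime ∧ ¬ ℓ ∣ M' ∧ P ℓ}
  let T : ι → Module.End ℂ (CuspForm (Gamma0 M') 2) := fun i => heckeTLin 2 i.2.1 i.2.2.1
  have hcomm : ∀ i j : ι, ∀ x ∈ intLattice M' 2, T i (T j x) = T j (T i x) := by
    intro i j x _
    have h := (heckeTLin_comm 2 i.2.1 i.2.2.1 j.2.1 j.2.2.1).eq
    have h2 := congrArg (fun f : Module.End ℂ (CuspForm (Gamma0 M') 2) => f x) h
    simpa only [Module.End.mul_apply] using h2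
  have hTL : ∀ i : ι, ∀ x ∈ intLattice M' 2, T i x ∈ intLattice M' 2 := by
    intro i x hx
    exact mem_intLattice_of_mem_heckeAlgebra one_le_two
      (heckeTLin_mem_heckeAlgebra (S := (∅ : Set ℕ)) i.2.1 i.2.2.1 (Set.notMem_empty _)) hx
  obtain ⟨f, 𝔪, c, -, hf0, h𝔪, hp𝔪, hc⟩ :=
    Fermat.Agent.S41.Final.exists_eigenvector_lift_in_span (intLattice M' 2) (intLattice_fg M' 2)
      T hcomm hTL p hp g0 hg0L (by
        rintro ⟨y, hy, e⟩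
        exact hg0 y hy e)
      (fun i : ι => a i.1) (fun i => by
        obtain ⟨y, hy, e⟩ := hT i.1 i.2.1 i.2.2.1 i.2.2.2
        exact ⟨y, hy, e⟩)
  let c' : ℕ → ℂ := fun l =>
    if h : l.Prime ∧ ¬ l ∣ M' ∧ P l then ((c ⟨l, h⟩ : integralClosure ℤ ℂ) : ℂ) else 0
  have hc' : ∀ i : ι, c' i.1 = (c i : ℂ) := fun i => dif_pos i.2
  obtain ⟨g, hg, hgc⟩ := exists_eigenform_of_eigenvector_pred P f hf0 c'
    (fun ℓ hℓ hℓM hP => by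
      rw [hc' ⟨ℓ, hℓ, hℓM, hP⟩]
      exact (hc ⟨ℓ, hℓ, hℓM, hP⟩).1)
  refine ⟨g, 𝔪, hg, h𝔪, hp𝔪, fun ℓ hℓ hℓM hP => ?_⟩
  refine ⟨c ⟨ℓ, hℓ, hℓM, hP⟩, ?_, (hc ⟨ℓ, hℓ, hℓM, hP⟩).2⟩
  rw [hgc ℓ hℓ hℓM hP, hc' ⟨ℓ, hℓ, hℓM, hP⟩]

end Pred

/-! ### Characters of the Hecke algebra are determined by the `T_ℓ` -/

/-- Two ring homomorphisms out of the Hecke algebra away from `S` (where `S` contains the primes
of the level) which agree on the `T_ℓ` are equal. -/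
theorem ringHom_ext_T {N : ℕ} [NeZero N] {S : Set ℕ} {R : Type*} [Ring R]
    (hNS : ∀ q : ℕ, q.Prime → q ∣ N → q ∈ S) (f g : heckeAlgebra N 2 S →+* R)
    (h : ∀ (ℓ : ℕ) (hℓ : ℓ.Prime) (hℓN : ¬ ℓ ∣ N) (hℓS : ℓ ∉ S),
      f (heckeAlgebra.T hℓ hℓN hℓS) = g (heckeAlgebra.T hℓ hℓN hℓS)) : f = g := by
  apply RingHom.ext
  rintro ⟨t, ht⟩
  induction ht using Algebra.adjoin_induction with
  | mem x hx =>
    rcases hx with ⟨ℓ, hℓ, hℓN, hℓS, rfl⟩ | ⟨q, hqN, hq, hqS, rfl⟩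
    · exact h ℓ hℓ hℓN hℓS
    · exact absurd (hNS q hq hqN) hqS
  | algebraMap n =>
    have e : (⟨algebraMap ℤ _ n, Subalgebra.algebraMap_mem _ n⟩ : heckeAlgebra N 2 S)
        = ((n : ℤ) : heckeAlgebra N 2 S) :=
      eq_intCast (algebraMap ℤ (heckeAlgebra N 2 S)) n
    rw [e, map_intCast, map_intCast]
  | add x y hx hy ihx ihy =>
    have e : (⟨x + y, Subalgebra.add_mem _ hx hy⟩ : heckeAlgebra N 2 S)
        = ⟨x, hx⟩ + ⟨y, hy⟩ := rfl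
    rw [e, map_add, map_add, ihx, ihy]
  | mul x y hx hy ihx ihy =>
    have e : (⟨x * y, Subalgebra.mul_mem _ hx hy⟩ : heckeAlgebra N 2 S)
        = ⟨x, hx⟩ * ⟨y, hy⟩ := rfl
    rw [e, map_mul, map_mul, ihx, ihy]

/-! ### (OLD) and (G4) -/

section Old

variable {M' p : ℕ} [NeZero M'] [NeZero p] {S : Finset ℕ}

open Fermat.Agent.S35x Fermat.Agent.S40x.A1.Theta

/-- **(OLD)** If `θ : 𝕋(M' p) →+* ZMod p` has `θ (T_ℓ) = a_ℓ` and a normalised eigenform of level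
`M'` is congruent to `a` at the primes `ℓ ∤ M'`, `ℓ ∉ S`, then `θ` factors through `levelHom`. -/
theorem exists_factor_of_eigenform (hp : p.Prime)
    (hNS : ∀ q : ℕ, q.Prime → q ∣ M' * p → q ∈ (↑S : Set ℕ))
    (θ : heckeAlgebra (M' * p) 2 (↑S : Set ℕ) →+* ZMod p) (a : ℕ → ℤ)
    (hθ : ∀ (ℓ : ℕ) (hℓ : ℓ.Prime) (hℓN : ¬ ℓ ∣ M' * p) (hℓS : ℓ ∉ (↑S : Set ℕ)),
      θ (heckeAlgebra.T hℓ hℓN hℓS) = ((a ℓ : ℤ) : ZMod p))
    (g : CuspForm (Gamma0 M') 2) (hg : g.IsNormalizedEigenform)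
    (𝔪' : Ideal (integralClosure ℤ ℂ)) (h𝔪 : 𝔪'.IsMaximal)
    (hp𝔪 : ((p : ℕ) : integralClosure ℤ ℂ) ∈ 𝔪')
    (hcong : ∀ ℓ : ℕ, ℓ.Prime → ¬ ℓ ∣ M' → ℓ ∉ (↑S : Set ℕ) →
      ∃ c : integralClosure ℤ ℂ, (c : ℂ) = ModularFormClass.qCoeff g ℓ ∧
        c - ((a ℓ : ℤ) : integralClosure ℤ ℂ) ∈ 𝔪') :
    ∃ θ' : heckeAlgebra M' 2 (↑S : Set ℕ) →+* ZMod p,
      (∀ t, θ t = θ' (levelHom hNS t)) ∧
      ∀ (ℓ : ℕ) (hℓ : ℓ.Prime) (hℓM : ¬ ℓ ∣ M') (hℓS : ℓ ∉ (↑S : Set ℕ)),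
        θ' (heckeAlgebra.T hℓ hℓM hℓS) = ((a ℓ : ℤ) : ZMod p) := by
  have hNS' : ∀ q : ℕ, q.Prime → q ∣ M' → q ∈ (↑S : Set ℕ) :=
    fun q hq hd => hNS q hq (Dvd.dvd.mul_right hd p)
  refine ⟨theta hNS' hg hp h𝔪.ne_top hp𝔪 a hcong, fun t => ?_,
    fun ℓ hℓ hℓM hℓS => theta_T hNS' hg hp h𝔪.ne_top hp𝔪 a hcong hℓ hℓM hℓS⟩
  have e : θ = (theta hNS' hg hp h𝔪.ne_top hp𝔪 a hcong).comp (levelHom hNS) := by
    apply ringHom_ext_T hNS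
    intro ℓ hℓ hℓN hℓS
    have hℓM : ¬ ℓ ∣ M' := fun hd => hℓN (Dvd.dvd.mul_right hd p)
    rw [RingHom.comp_apply, levelHom_T hNS hℓ hℓM hℓN hℓS, hθ ℓ hℓ hℓN hℓS,
      theta_T hNS' hg hp h𝔪.ne_top hp𝔪 a hcong hℓ hℓM hℓS]
  rw [e]
  rfl

/-- **(OLD)**, kernel form: under the hypotheses of `exists_factor_of_eigenform`, `θ` kills the
kernel of `levelHom` (i.e. `θ` is not `p`-new). -/
theorem eq_zero_of_levelHom_eq_zero (hp : p.Prime)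
    (hNS : ∀ q : ℕ, q.Prime → q ∣ M' * p → q ∈ (↑S : Set ℕ))
    (θ : heckeAlgebra (M' * p) 2 (↑S : Set ℕ) →+* ZMod p) (a : ℕ → ℤ)
    (hθ : ∀ (ℓ : ℕ) (hℓ : ℓ.Prime) (hℓN : ¬ ℓ ∣ M' * p) (hℓS : ℓ ∉ (↑S : Set ℕ)),
      θ (heckeAlgebra.T hℓ hℓN hℓS) = ((a ℓ : ℤ) : ZMod p))
    (g : CuspForm (Gamma0 M') 2) (hg : g.IsNormalizedEigenform)
    (𝔪' : Ideal (integralClosure ℤ ℂ)) (h𝔪 : 𝔪'.IsMaximal)
    (hp𝔪 : ((p : ℕ) : integralClosure ℤ ℂ) ∈ 𝔪')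
    (hcong : ∀ ℓ : ℕ, ℓ.Prime → ¬ ℓ ∣ M' → ℓ ∉ (↑S : Set ℕ) →
      ∃ c : integralClosure ℤ ℂ, (c : ℂ) = ModularFormClass.qCoeff g ℓ ∧
        c - ((a ℓ : ℤ) : integralClosure ℤ ℂ) ∈ 𝔪')
    (h : heckeAlgebra (M' * p) 2 (↑S : Set ℕ)) (hh : levelHom hNS h = 0) : θ h = 0 := by
  obtain ⟨θ', hθ', -⟩ := exists_factor_of_eigenform hp hNS θ a hθ g hg 𝔪' h𝔪 hp𝔪 hcong
  rw [hθ' h, hh, map_zero]

/-- **(G4)** `hnew` and a lattice vector of level `M'` which is an eigenvector modulo `p` of the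
`T_ℓ` (`ℓ ∤ M'`, `ℓ ∉ S`) with the eigenvalues of `θ` are contradictory. -/
theorem false_of_lattice_vector (hp : p.Prime)
    (hNS : ∀ q : ℕ, q.Prime → q ∣ M' * p → q ∈ (↑S : Set ℕ))
    (θ : heckeAlgebra (M' * p) 2 (↑S : Set ℕ) →+* ZMod p) (a : ℕ → ℤ)
    (hθ : ∀ (ℓ : ℕ) (hℓ : ℓ.Prime) (hℓN : ¬ ℓ ∣ M' * p) (hℓS : ℓ ∉ (↑S : Set ℕ)),
      θ (heckeAlgebra.T hℓ hℓN hℓS) = ((a ℓ : ℤ) : ZMod p))
    (hnew : ∃ h : heckeAlgebra (M' * p) 2 (↑S : Set ℕ), θ h ≠ 0 ∧ levelHom hNS h = 0)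
    (g0 : CuspForm (Gamma0 M') 2) (hg0L : g0 ∈ intLattice M' 2)
    (hg0 : ∀ y ∈ intLattice M' 2, g0 ≠ (p : ℤ) • y)
    (hT : ∀ (ℓ : ℕ) (hℓ : ℓ.Prime) (hℓM : ¬ ℓ ∣ M'), ℓ ∉ (↑S : Set ℕ) → ∃ y ∈ intLattice M' 2,
      heckeTLin 2 hℓ hℓM g0 - a ℓ • g0 = (p : ℤ) • y) : False := by
  obtain ⟨g, 𝔪', hg, h𝔪, hp𝔪, hcong⟩ :=
    exists_eigenform_of_lattice_vector hp (fun ℓ => ℓ ∉ (↑S : Set ℕ)) a g0 hg0L hg0 hT
  obtain ⟨h, hh0, hh⟩ := hnew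
  exact hh0 (eq_zero_of_levelHom_eq_zero hp hNS θ a hθ g hg 𝔪' h𝔪 hp𝔪 hcong h hh)

end Old

end Fermat.Agent.S40x.A.EigOld
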