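import Mathlib
import Fermat.Prelude.Def_FLTPrelim_FreyPackage
import Fermat.Prelude.Def_FLTPrelim_Modularity

/-!
# P-S44, block A, leaf (A-2S), independent second (helper56)

Every integral model `W` of the Frey curve has bad reduction at `2`:
`W.IsIntegralModelOf P.freyCurve → (2 : ℤ) ∣ W.Δ` (this is `S44SkeletonV2.Leaf2S` unfolded).

Proof.  With `A = a ^ p`, `B = b ^ p`, `C = c ^ p = A + B` the Frey curve `E` has
`Δ_E = (A B C) ^ 2 / 2 ^ 8` and `c₄(E) = A ^ 2 + A B + B ^ 2`.  A change of variables `C • E = W_ℚ`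
gives `Δ_W = u⁻¹ ^ 12 Δ_E`, `c₄(W) = u⁻¹ ^ 4 c₄(E)`, hence over `ℤ`
`c₄(W) ^ 3 (A B C) ^ 2 = 2 ^ 8 c₄(E) ^ 3 Δ_W`.  Now `2 ^ 10 ∣ B ^ 2` (`b` is even, `p ≥ 5`) and
`c₄(E)` is odd (`a` is odd), so `4 ∣ Δ_W`.

Mathlib + Prelude only.
-/

set_option autoImplicit false

namespace Fermat.Agent.S40x.A.Leaf2SB

open WeierstrassCurve

/-- `c₄` of the Frey curve. -/
theorem freyCurve_c4 (P : FreyPackage) :
    P.freyCurve.c₄ =
      ((P.a : ℚ) ^ P.p) ^ 2 + (P.a : ℚ) ^ P.p * (P.b : ℚ) ^ P.p + ((P.b : ℚ) ^ P.p) ^ 2 := by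
  simp only [WeierstrassCurve.c₄, WeierstrassCurve.b₂, WeierstrassCurve.b₄,
    FreyPackage.freyCurve]
  ring

/-- `Δ` of the Frey curve, in the form `2 ^ 8 Δ = (A B (A + B)) ^ 2`. -/
theorem freyCurve_disc (P : FreyPackage) :
    2 ^ 8 * P.freyCurve.Δ =
      ((P.a : ℚ) ^ P.p * (P.b : ℚ) ^ P.p * ((P.a : ℚ) ^ P.p + (P.b : ℚ) ^ P.p)) ^ 2 := by
  simp only [WeierstrassCurve.Δ, WeierstrassCurve.b₂, WeierstrassCurve.b₄, WeierstrassCurve.b₆,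
    WeierstrassCurve.b₈, FreyPackage.freyCurve]
  ring

/-- the integral relation between the invariants of an integral model and those of the Frey
curve. -/
theorem key_relation (P : FreyPackage) (W : WeierstrassCurve ℤ)
    (hW : W.IsIntegralModelOf P.freyCurve) :
    W.c₄ ^ 3 * (P.a ^ P.p * P.b ^ P.p * (P.a ^ P.p + P.b ^ P.p)) ^ 2 =
      2 ^ 8 * ((P.a ^ P.p) ^ 2 + P.a ^ P.p * P.b ^ P.p + (P.b ^ P.p) ^ 2) ^ 3 * W.Δ := by
  obtain ⟨C, hC⟩ := hW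
  have hΔ : ((W.Δ : ℤ) : ℚ) = ((C.u⁻¹ : ℚˣ) : ℚ) ^ 12 * P.freyCurve.Δ := by
    have h := congrArg WeierstrassCurve.Δ hC
    rw [WeierstrassCurve.variableChange_Δ, WeierstrassCurve.map_Δ] at h
    simpa using h.symm
  have hc : ((W.c₄ : ℤ) : ℚ) = ((C.u⁻¹ : ℚˣ) : ℚ) ^ 4 * P.freyCurve.c₄ := by
    have h := congrArg WeierstrassCurve.c₄ hC
    rw [WeierstrassCurve.variableChange_c₄, WeierstrassCurve.map_c₄] at h
    simpa using h.symm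
  have hd := freyCurve_disc P
  have hc4 := freyCurve_c4 P
  have hQ : ((W.c₄ : ℤ) : ℚ) ^ 3 *
      ((P.a : ℚ) ^ P.p * (P.b : ℚ) ^ P.p * ((P.a : ℚ) ^ P.p + (P.b : ℚ) ^ P.p)) ^ 2 =
      2 ^ 8 * (((P.a : ℚ) ^ P.p) ^ 2 + (P.a : ℚ) ^ P.p * (P.b : ℚ) ^ P.p
        + ((P.b : ℚ) ^ P.p) ^ 2) ^ 3 * ((W.Δ : ℤ) : ℚ) := by
    rw [← hd, ← hc4, hΔ, hc]
    ring
  exact_mod_cast hQ

/-- `2 ^ 5 ∣ b ^ p`. -/
theorem pow_five_dvd (P : FreyPackage) : (2 : ℤ) ^ 5 ∣ P.b ^ P.p := by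
  have h2 : (2 : ℤ) ∣ P.b := (ZMod.intCast_zmod_eq_zero_iff_dvd P.b 2).1 P.hb2
  exact (pow_dvd_pow (2 : ℤ) P.hp5).trans (pow_dvd_pow_of_dvd h2 P.p)

/-- `a` is odd. -/
theorem odd_a (P : FreyPackage) : Odd P.a := by
  have h := P.ha4
  have h4 : ((P.a - 3 : ℤ) : ZMod 4) = 0 := by
    push_cast
    rw [h]
    decide
  have hd : (4 : ℤ) ∣ P.a - 3 := by
    have := (ZMod.intCast_zmod_eq_zero_iff_dvd (P.a - 3) 4).1 h4
    exact_mod_cast this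
  obtain ⟨k, hk⟩ := hd
  exact ⟨2 * k + 1, by omega⟩

/-- `c₄` of the Frey curve is odd. -/
theorem odd_c4 (P : FreyPackage) :
    Odd ((P.a ^ P.p) ^ 2 + P.a ^ P.p * P.b ^ P.p + (P.b ^ P.p) ^ 2) := by
  have hA : Odd (P.a ^ P.p) := (odd_a P).pow
  have hB : Even (P.b ^ P.p) := by
    have h2 : (2 : ℤ) ∣ P.b ^ P.p := (dvd_pow_self (2 : ℤ) (by norm_num : (5 : ℕ) ≠ 0)).trans
      (pow_five_dvd P)
    exact even_iff_two_dvd.mpr h2
  have h1 : Odd ((P.a ^ P.p) ^ 2) := hA.pow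
  have h2 : Even (P.a ^ P.p * P.b ^ P.p) := hB.mul_left _
  have h3 : Even ((P.b ^ P.p) ^ 2) := hB.pow_of_ne_zero (by norm_num)
  exact (h1.add_even h2).add_even h3

/-- every integral model of the Frey curve has `4 ∣ Δ`. -/
theorem four_dvd_Δ (P : FreyPackage) (W : WeierstrassCurve ℤ)
    (hW : W.IsIntegralModelOf P.freyCurve) : (4 : ℤ) ∣ W.Δ := by
  have hkey := key_relation P W hW
  set A : ℤ := P.a ^ P.p with hA
  set B : ℤ := P.b ^ P.p with hB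
  set c : ℤ := A ^ 2 + A * B + B ^ 2 with hc
  -- `2 ^ 10` divides the left hand side
  have h10 : (2 : ℤ) ^ 10 ∣ W.c₄ ^ 3 * (A * B * (A + B)) ^ 2 := by
    have h5 : (2 : ℤ) ^ 5 ∣ A * B * (A + B) :=
      Dvd.dvd.mul_right (Dvd.dvd.mul_left (pow_five_dvd P) A) (A + B)
    have : ((2 : ℤ) ^ 5) ^ 2 ∣ (A * B * (A + B)) ^ 2 := pow_dvd_pow_of_dvd h5 2
    have h' : (2 : ℤ) ^ 10 ∣ (A * B * (A + B)) ^ 2 := by
      rwa [← pow_mul] at this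
    exact Dvd.dvd.mul_left h' _
  rw [hkey] at h10
  -- cancel `2 ^ 8`
  have h4 : (4 : ℤ) ∣ c ^ 3 * W.Δ := by
    have h : (2 : ℤ) ^ 8 * 4 ∣ 2 ^ 8 * (c ^ 3 * W.Δ) := by
      have e1 : (2 : ℤ) ^ 8 * 4 = 2 ^ 10 := by norm_num
      have e2 : (2 : ℤ) ^ 8 * (c ^ 3 * W.Δ) = 2 ^ 8 * c ^ 3 * W.Δ := by ring
      rw [e1, e2]
      exact h10
    exact (mul_dvd_mul_iff_left (by norm_num : (2 : ℤ) ^ 8 ≠ 0)).mp h
  -- `c ^ 3` is odd, hence coprime to `4`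
  have hodd : Odd (c ^ 3) := (odd_c4 P).pow
  have hcop : IsCoprime (4 : ℤ) (c ^ 3) := by
    have h2 : IsCoprime (2 : ℤ) (c ^ 3) := by
      rw [Int.isCoprime_iff_gcd_eq_one]
      have hp2 : Nat.Prime 2 := Nat.prime_two
      by_contra hne
      have hdvd : (2 : ℤ) ∣ c ^ 3 := by
        have hg : Int.gcd 2 (c ^ 3) ∣ 2 := Int.gcd_dvd_natAbs_left 2 (c ^ 3) |> fun h => by simpa using h
        rcases (Nat.dvd_prime hp2).mp hg with h1 | h2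
        · exact absurd h1 hne
        · have := Int.gcd_dvd_right 2 (c ^ 3)
          rw [h2] at this
          exact_mod_cast this
      exact (Int.not_even_iff_odd.mpr hodd) (even_iff_two_dvd.mpr hdvd)
    have : IsCoprime ((2 : ℤ) ^ 2) (c ^ 3) := h2.pow_left
    norm_num at this
    exact this
  exact hcop.dvd_of_dvd_mul_left h4

/-- **Leaf (A-2S)**: every integral model of the Frey curve has bad reduction at `2`
(`= S44SkeletonV2.Leaf2S` unfolded). -/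
theorem leaf2S : ∀ (P : FreyPackage) (W : WeierstrassCurve ℤ),
    W.IsIntegralModelOf P.freyCurve → (2 : ℤ) ∣ W.Δ := fun P W hW =>
  (by norm_num : (2 : ℤ) ∣ 4).trans (four_dvd_Δ P W hW)

end Fermat.Agent.S40x.A.Leaf2SB
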