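import Fermat.Agent.S40x.A.S44SkeletonV3
import Fermat.Agent.S40x.Ell.Iface
import Fermat.Agent.S40x.A.CopyFrey
import Fermat.Agent.S33x.Consumer.InertiaUnit

/-!
# P-S44, block A: the leaf `LeafBW` of `S44SkeletonV3` (helper95)

`leafBW : S44SkeletonV3.LeafBW` from Block B's landed export `Ell/Iface.freyLocalShape`
(`Nat.card T1 ≤ p`, (b), (c), (d)) plus `T1 ≠ ⊥`:  if `T1 = ⊥` then by (b) the inertia group at `p`
acts trivially on `E[p]`, hence (transfer to an integral model `W`, `CopyFrey.exists_transfer_tors`)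
trivially on `(W ⊗ ℚ)[p]`, so `det ρ(s) = 1` for every `s ∈ I`; but `det ρ` is the mod `p` cyclotomic
character (`RhoW.det_rho`) and inertia at `p` moves `μ_p` (`InertiaUnit.exists_inertia_apply_ne`).
Then `Nat.card T1 ∣ p²`, `≠ 1`, `≤ p` gives `Nat.card T1 = p`.
-/

set_option autoImplicit false
set_option linter.unusedSectionVars false
set_option linter.unusedVariables false
set_option linter.style.haveILetI false

noncomputable section

namespace Fermat.Agent.S40x.A.LeafBWProof

open WeierstrassCurve WeierstrassCurve.Affine WeierstrassCurve.Affine.Point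
open Fermat.Agent.S13 Fermat.Agent.S40x.Kummer Fermat.Agent.S40x.A.RhoW
open Fermat.Agent.S40x.A.CopyFrey

/-- if an element of `G_ℚ` acts trivially on `E[p]` for the Frey curve, it fixes `μ_p`. -/
theorem fixes_rootsOfUnity_of_trivial (P : FreyPackage) (W : WeierstrassCurve ℤ)
    (hW : W.IsIntegralModelOf P.freyCurve) (s : GQ) (hs : ∀ x : Tors P, s • x = x)
    (ζ : Qbar) (hζ : ζ ^ P.p = 1) : s ζ = ζ := by
  classical
  have hp : P.p.Prime := P.pp
  haveI : Fact P.p.Prime := ⟨hp⟩
  haveI : P.freyCurve.IsElliptic := ⟨(Fermat.Agent.S13.freyCurve_Δ_ne_zero P).isUnit⟩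
  have hΔ : W.Δ ≠ 0 := Fermat.Agent.S41.NonEis.Δ_ne_zero_of_isIntegralModelOf P.freyCurve hW
  by_cases h1 : ζ = 1
  · rw [h1, map_one]
  have hprim : IsPrimitiveRoot ζ P.p := by
    have hord : orderOf ζ = P.p := orderOf_eq_prime hζ h1
    rw [← hord]
    exact IsPrimitiveRoot.orderOf ζ
  have hsζ : (s ζ) ^ P.p = 1 := by rw [← map_pow, hζ, map_one]
  obtain ⟨n, -, hn⟩ := hprim.eq_pow_of_pow_eq_one hsζ
  -- transfer to the model
  obtain ⟨e, he⟩ := exists_transfer_tors (p := P.p) (E := P.freyCurve) hW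
  have htriv : ∀ y : V W P.p, s • y = y := by
    intro y
    obtain ⟨x, rfl⟩ := e.surjective y
    rw [← he, hs x]
  have hfr := finrank_eq_two (W := W) (p := P.p) hΔ
  haveI : Module.Finite (ZMod P.p) (V W P.p) := Module.finite_of_finrank_pos (by omega)
  let b : Module.Basis (Fin 2) (ZMod P.p) (V W P.p) :=
    (Module.finBasisOfFinrankEq (ZMod P.p) (V W P.p) hfr)
  have hone : rho W P.p b s = 1 := by
    rw [rho_apply]
    have : gal W P.p s = LinearMap.id := by
      ext y
      exact congrArg Subtype.val (htriv y)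
    rw [this, LinearMap.toMatrix_id]
  have hdet := det_rho b hΔ s hprim hn.symm
  rw [hone, Matrix.det_one] at hdet
  -- `n ≡ 1 mod p`
  have hn1 : (n : ZMod P.p) = ((1 : ℕ) : ZMod P.p) := by rw [← hdet, Nat.cast_one]
  rw [ZMod.natCast_eq_natCast_iff] at hn1
  rw [← hn]
  have hord : orderOf ζ = P.p := orderOf_eq_prime hζ h1
  have h2 : ζ ^ n = ζ ^ 1 := by
    rw [← pow_mod_orderOf ζ n, ← pow_mod_orderOf ζ 1, hord]
    exact congrArg (ζ ^ ·) hn1
  rw [h2, pow_one]

/-- **`LeafBW`**: Block B's export with `Nat.card T1 = p`. -/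
theorem leafBW : Fermat.Agent.S40x.A.S44SkeletonV3.LeafBW := by
  intro P hmult W hW B hB
  classical
  have hp : P.p.Prime := P.pp
  have hp2 : P.p ≠ 2 := by have := P.hp5; omega
  obtain ⟨T1, hle, -, hb, hc, -, hd⟩ := Fermat.Agent.S40x.Ell.Iface.freyLocalShape P hmult B hB
  refine ⟨T1, ?_, hb, hc, hd⟩
  -- `T1 ≠ ⊥`
  have hbot : T1 ≠ ⊥ := by
    intro h0
    obtain ⟨s, hs, ζ, hζ, hne⟩ :=
      Fermat.Agent.S33x.Consumer.InertiaUnit.exists_inertia_apply_ne B hp hp2 hB
    apply hne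
    refine fixes_rootsOfUnity_of_trivial P W hW s (fun x => ?_) ζ hζ
    have := hb s hs x
    rw [h0, Submodule.mem_bot, sub_eq_zero] at this
    exact this
  -- cardinality
  have hfin : Finite (Tors P) := Nat.finite_of_card_ne_zero (by
    rw [card_tors]; exact pow_ne_zero 2 hp.ne_zero)
  have hdvd : Nat.card T1 ∣ P.p ^ 2 := by
    rw [← card_tors P]
    exact (T1.toAddSubgroup).card_addSubgroup_dvd_card
  obtain ⟨k, hk2, hk⟩ := (Nat.dvd_prime_pow hp).mp hdvd
  have hne1 : Nat.card T1 ≠ 1 := by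
    intro h1
    apply hbot
    have hsub : Subsingleton T1 := (Nat.card_eq_one_iff_unique.mp h1).1
    exact Submodule.subsingleton_iff_eq_bot.mp hsub
  rw [hk] at hle hne1 ⊢
  have hk0 : k ≠ 0 := fun h => hne1 (by rw [h, pow_zero])
  have hk1 : k ≤ 1 := by
    by_contra hk
    have h2k : 2 ≤ k := by omega
    have : P.p ^ 2 ≤ P.p ^ k := Nat.pow_le_pow_right hp.pos h2k
    have hp1 := hp.one_lt
    nlinarith
  have : k = 1 := by omega
  rw [this, pow_one]

end Fermat.Agent.S40x.A.LeafBWProof
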