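import Fermat.Agent.S40x.A.S44SkeletonV3
import Fermat.Agent.S40x.A.CopyFrey
import Fermat.Agent.S40x.Ell.Iface
import Fermat.Agent.S33x.Consumer.InertiaUnit

/-!
# P-S44, block A: the leaf `LeafBW` of the skeleton V3 is a theorem (helper21; independent second of helper95's `LeafBWProof`)

`LeafBW` is Block B's landed export `Ell/Iface.freyLocalShape` (which gives `Nat.card T1 ≤ p`)
together with `T1 ≠ ⊥`.  The latter comes from `det = cyclotomic character`:

* every valuation subring `B` of `ℚ̄` over `p` has an inertia element moving a `p`-th root of unity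
  (landed `S33x/Consumer/InertiaUnit.exists_inertia_apply_ne`);
* on an integral model `W` of the Frey curve, `det ρ(σ) = n` whenever `σ ζ = ζ ^ n` for a primitive
  `p`-th root of unity `ζ` (landed `RhoW.det_rho`), and `E[p] ≃ (W ⊗ ℚ)[p]` equivariantly (landed
  `CopyFrey.exists_transfer_tors`);
* hence inertia at `B` does not act trivially on `E[p]` (`exists_inertia_smul_ne`), whereas it
  would if `T1 = ⊥`, by (b) of `freyLocalShape`.

Final theorem: `leafBW : S44SkeletonV3.LeafBW`.
-/

set_option autoImplicit false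
set_option linter.unusedSectionVars false
set_option linter.unusedVariables false
set_option linter.style.haveILetI false

noncomputable section

namespace Fermat.Agent.S40x.A.LeafBWProofB

open WeierstrassCurve WeierstrassCurve.Affine WeierstrassCurve.Affine.Point
open Fermat.Agent.Gateway.S31Red Fermat.Agent.S13
open Fermat.Agent.S40x.A.RhoW Fermat.Agent.S40x.A.CopyFrey
open Fermat.Agent.S40x.Kummer Fermat.Agent.S40x.A.S44SkeletonV3

/-- a `p`-th root of unity different from `1` is primitive (`p` prime). -/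
theorem isPrimitiveRoot_of_ne_one {p : ℕ} (hp : p.Prime) {ζ : Qbar} (hζ : ζ ^ p = 1)
    (hζ1 : ζ ≠ 1) : IsPrimitiveRoot ζ p := by
  haveI : Fact p.Prime := ⟨hp⟩
  have h := IsPrimitiveRoot.orderOf ζ
  rwa [orderOf_eq_prime hζ hζ1] at h

/-- **Inertia at a place over `p` acts non-trivially on the `p`-torsion of the Frey curve**
(`det ρ` is the mod `p` cyclotomic character, which is ramified at `p`). -/
theorem exists_inertia_smul_ne (P : FreyPackage) {W : WeierstrassCurve ℤ}
    (hW : W.IsIntegralModelOf P.freyCurve) (B : ValuationSubring Qbar)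
    (hB : B.LiesOverPrime P.p) :
    ∃ σ ∈ B.inertiaSubgroupIn ℚ, ∃ x : Tors P, σ • x ≠ x := by
  classical
  have hp : P.p.Prime := P.pp
  haveI : Fact P.p.Prime := ⟨hp⟩
  haveI : NeZero P.p := ⟨hp.ne_zero⟩
  haveI : P.freyCurve.IsElliptic := isElliptic_freyCurve P
  have hp5 := P.hp5
  have hΔ : W.Δ ≠ 0 := Fermat.Agent.S41.NonEis.Δ_ne_zero_of_isIntegralModelOf P.freyCurve hW
  obtain ⟨e, he⟩ := exists_transfer_tors (E := P.freyCurve) P.p hW
  obtain ⟨s, hs, ζ, hζ, hsζ⟩ :=
    Fermat.Agent.S33x.Consumer.InertiaUnit.exists_inertia_apply_ne B hp (by omega) hB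
  by_contra hcon
  have htriv : ∀ x : Tors P, s • x = x := by
    intro x
    by_contra hne
    exact hcon ⟨s, hs, x, hne⟩
  -- `ζ` is primitive
  have hζ1 : ζ ≠ 1 := by
    rintro rfl
    exact hsζ (map_one s)
  have hprim : IsPrimitiveRoot ζ P.p := isPrimitiveRoot_of_ne_one hp hζ hζ1
  obtain ⟨n, -, hn⟩ := hprim.eq_pow_of_pow_eq_one (ξ := s ζ) (by rw [← map_pow, hζ, map_one])
  -- a basis of the model's torsion
  haveI := finite_V W P.p hΔ
  haveI : Module.Finite (ZMod P.p) (V W P.p) := Module.Finite.of_finite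
  obtain b : Module.Basis (Fin 2) (ZMod P.p) (V W P.p) :=
    Module.finBasisOfFinrankEq (ZMod P.p) (V W P.p) (finrank_eq_two W P.p hΔ)
  have hdet : (rho W P.p b s).det = ((n : ℕ) : ZMod P.p) := det_rho b hΔ s hprim hn.symm
  have hone : rho W P.p b s = rho W P.p b 1 := by
    apply rho_congr
    intro v
    obtain ⟨x, rfl⟩ := e.surjective v
    rw [← he, htriv, one_smul]
  rw [hone, map_one, Matrix.det_one] at hdet
  have hmod : n ≡ 1 [MOD P.p] := by
    rw [← ZMod.natCast_eq_natCast_iff]
    rw [← hdet]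
    simp
  apply hsζ
  rw [← hn]
  have h1 : ζ ^ n = ζ ^ 1 := by
    have hζ0 : ζ ≠ 0 := hprim.ne_zero hp.ne_zero
    have h2 : (Units.mk0 ζ hζ0) ^ n = (Units.mk0 ζ hζ0) ^ 1 := by
      rw [pow_eq_pow_iff_modEq]
      have h3 : orderOf (Units.mk0 ζ hζ0) = P.p := by
        apply orderOf_eq_prime
        · apply Units.ext
          simpa using hζ
        · intro h
          apply hζ1
          have := congrArg Units.val h
          simpa using this
      rw [h3]
      exact hmod
    have := congrArg Units.val h2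
    simpa using this
  rw [h1, pow_one]

/-- **`LeafBW` is a theorem.** -/
theorem leafBW : LeafBW := by
  intro P hmult W hW B hB
  classical
  have hp : P.p.Prime := P.pp
  haveI : Fact P.p.Prime := ⟨hp⟩
  haveI : P.freyCurve.IsElliptic := isElliptic_freyCurve P
  obtain ⟨T1, hcard, -, hb, hc, -, hd⟩ :=
    Fermat.Agent.S40x.Ell.Iface.freyLocalShape P hmult B hB
  refine ⟨T1, ?_, hb, hc, hd⟩
  have hne : T1 ≠ ⊥ := by
    intro h
    obtain ⟨σ, hσ, x, hx⟩ := exists_inertia_smul_ne P hW B hB
    have h1 := hb σ hσ x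
    rw [h, Submodule.mem_bot, sub_eq_zero] at h1
    exact hx h1
  haveI : Finite (Tors P) := finite_TorsE P.freyCurve P.p
  haveI : Module.Finite (ZMod P.p) (Tors P) := Module.Finite.of_finite
  have hpow := Module.natCard_eq_pow_finrank (K := ZMod P.p) (V := T1)
  rw [Nat.card_zmod] at hpow
  have hfr : Module.finrank (ZMod P.p) T1 ≠ 0 := by
    intro h0
    exact hne (Submodule.finrank_eq_zero.mp h0)
  refine le_antisymm hcard ?_
  rw [hpow]
  exact Nat.le_self_pow hfr P.p

end Fermat.Agent.S40x.A.LeafBWProofB
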