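/-
P-S44/S40, Block A, leaf A-LOC (helper64): transport of the local shape of `E[p]` (Block B's export
`freyLocalShape`, note S44-IFACE-B v1) along an injective Galois-equivariant map `j : E[p] → X`
(`X = D.M 1 = J₀(N)[p]`, Block A leaf A3), giving the hypotheses `V, L, hLV, hLne, hVgal, hVθ, hb, hc, hd`
of the GEO literal `s44_geo` (board S44_A).

* `transport` : the abstract statement (any group `G`, any `G`-module `T`, any `X` with an action
  `gal : G →* AddMonoid.End X`, abstract predicates `Cyc`, `Peu`, `E`).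
* `simple_transport` : irreducibility passes to `V = range j`.
* `FreyLocalShape` : Block B's export as a predicate; `localTransport` : the concrete form for
  `Tors P` and a `TorsionHeckeData`; `simple_of_irreducible` : the frozen irreducibility hypothesis in
  `AddSubgroup` form.
-/
import Mathlib
import Fermat.Agent.S13.Global
import Fermat.Agent.Gateway.S31.Data
import Fermat.Agent.S56x.Flat.InertiaField

set_option autoImplicit false

namespace Fermat.Agent.S40x.A.LocalTransport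

section Abstract

variable {G T X : Type*} [Group G] [AddCommGroup T] [DistribMulAction G T] [AddCommGroup X]

/-- **Transport of the local shape.** -/
theorem transport (gal : G →* AddMonoid.End X) (j : T →+ X) (hj : Function.Injective j)
    (hjg : ∀ (g : G) (v : T), j (g • v) = gal g (j v))
    (T1 : AddSubgroup T) (hT1 : T1 ≠ ⊤) (I : Set G)
    (hb : ∀ σ ∈ I, ∀ x : T, σ • x - x ∈ T1)
    (Cyc : G → ℕ → Prop) (hc : ∀ σ ∈ I, ∀ a : ℕ, Cyc σ a → ∀ s ∈ T1, σ • s = a • s)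
    (Peu : G → Prop) (hd : ∀ τ ∈ I, Peu τ → ∀ x : T, τ • x = x)
    (E : X → Prop) (hjE : ∀ v : T, E (j v)) :
    ∃ V L : AddSubgroup X, V = j.range ∧ L = T1.map j ∧ L ≤ V ∧ L ≠ V ∧
      (∀ σ : G, ∀ x ∈ V, gal σ x ∈ V) ∧ (∀ x ∈ V, E x) ∧
      (∀ σ ∈ I, ∀ x ∈ V, gal σ x - x ∈ L) ∧
      (∀ σ ∈ I, ∀ a : ℕ, Cyc σ a → ∀ s ∈ L, gal σ s = a • s) ∧
      (∀ τ ∈ I, Peu τ → ∀ x ∈ V, gal τ x = x) := by
  refine ⟨j.range, T1.map j, rfl, rfl, ?_, ?_, ?_, ?_, ?_, ?_, ?_⟩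
  · rintro _ ⟨t, _, rfl⟩
    exact ⟨t, rfl⟩
  · intro h
    apply hT1
    rw [eq_top_iff]
    intro t _
    have ht : j t ∈ T1.map j := by rw [h]; exact ⟨t, rfl⟩
    obtain ⟨t', ht', htt'⟩ := ht
    rwa [← hj htt']
  · rintro σ _ ⟨t, rfl⟩
    exact ⟨σ • t, hjg σ t⟩
  · rintro _ ⟨t, rfl⟩
    exact hjE t
  · rintro σ hσ _ ⟨t, rfl⟩
    refine ⟨σ • t - t, hb σ hσ t, ?_⟩
    rw [map_sub, hjg]
  · rintro σ hσ a ha _ ⟨s, hs, rfl⟩
    rw [← hjg, hc σ hσ a ha s hs, map_nsmul]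
  · rintro τ hτ hp _ ⟨t, rfl⟩
    rw [← hjg, hd τ hτ hp t]

/-- the cardinalities are preserved. -/
theorem card_range (j : T →+ X) (hj : Function.Injective j) :
    Nat.card j.range = Nat.card T :=
  (Nat.card_congr (AddMonoidHom.ofInjective hj).toEquiv).symm

theorem card_map (j : T →+ X) (hj : Function.Injective j) (T1 : AddSubgroup T) :
    Nat.card (T1.map j) = Nat.card T1 :=
  (Nat.card_congr (T1.equivMapOfInjective j hj).toEquiv).symm

theorem range_ne_bot [Nontrivial T] (j : T →+ X) (hj : Function.Injective j) : j.range ≠ ⊥ := by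
  intro h
  obtain ⟨t, ht⟩ := exists_ne (0 : T)
  apply ht
  apply hj
  rw [map_zero]
  have : j t ∈ j.range := ⟨t, rfl⟩
  rw [h] at this
  exact this

/-- **Irreducibility passes to `V = range j`.** -/
theorem simple_transport (gal : G →* AddMonoid.End X) (j : T →+ X)
    (hjg : ∀ (g : G) (v : T), j (g • v) = gal g (j v))
    (hsimple : ∀ N : AddSubgroup T, (∀ g : G, ∀ x ∈ N, g • x ∈ N) → N = ⊥ ∨ N = ⊤)
    (V' : AddSubgroup X) (hV' : V' ≤ j.range) (hstab : ∀ g : G, ∀ x ∈ V', gal g x ∈ V') :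
    V' = ⊥ ∨ V' = j.range := by
  rcases hsimple (V'.comap j) (fun g x hx => by
      show j (g • x) ∈ V'
      rw [hjg]
      exact hstab g _ hx) with h | h
  · left
    rw [eq_bot_iff]
    intro x hx
    obtain ⟨t, rfl⟩ := hV' hx
    have ht : t ∈ V'.comap j := hx
    rw [h, AddSubgroup.mem_bot] at ht
    rw [ht, map_zero]
    exact AddSubgroup.zero_mem _
  · right
    apply le_antisymm hV'
    rintro _ ⟨t, rfl⟩
    have ht : t ∈ V'.comap j := by rw [h]; exact AddSubgroup.mem_top t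
    exact ht

end Abstract

section Concrete

open Fermat.Agent.S13 Fermat.Agent.Gateway.S31Red Fermat.Agent.S56x.Flat.InertiaField
open WeierstrassCurve WeierstrassCurve.Affine WeierstrassCurve.Affine.Point

/-- Block B's export (S44-IFACE-B v1, `freyLocalShape`) as a predicate on `T1`. -/
def FreyLocalShape (P : FreyPackage) (B : ValuationSubring Qbar)
    (T1 : Submodule (ZMod P.p) (Tors P)) : Prop :=
  T1 ≠ ⊤ ∧
  (∀ σ ∈ B.inertiaSubgroupIn ℚ, ∀ x : Tors P, σ • x - x ∈ T1) ∧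
  (∀ σ ∈ B.inertiaSubgroupIn ℚ, ∀ a : ℕ, (∀ ζ : Qbar, ζ ^ P.p = 1 → σ ζ = ζ ^ a) →
    ∀ s ∈ T1, σ • s = a • s) ∧
  (∀ τ ∈ B.inertiaSubgroupIn ℚ,
    (∀ b : Qbar, b ^ P.p ∈ inertiaInt B → b ^ P.p ∉ B.nonunits → τ b = b) →
    ∀ x : Tors P, τ • x = x)

/-- **A-LOC.**  The local shape of `E[p]` transported to `V = range j ≤ D.M 1`. -/
theorem localTransport (P : FreyPackage) {N : ℕ} [NeZero N] {S : Finset ℕ}
    (D : TorsionHeckeData P.p N S) (B : ValuationSubring Qbar)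
    (T1 : Submodule (ZMod P.p) (Tors P)) (hT1 : FreyLocalShape P B T1)
    (j : Tors P →+ D.M 1) (hj : Function.Injective j)
    (hjg : ∀ (g : GQ) (v : Tors P), j (g • v) = D.gal 1 g (j v))
    (E : D.M 1 → Prop) (hjE : ∀ v : Tors P, E (j v)) :
    ∃ V L : AddSubgroup (D.M 1), V = j.range ∧ L = T1.toAddSubgroup.map j ∧ L ≤ V ∧ L ≠ V ∧
      V ≠ ⊥ ∧ Nat.card V = P.p ^ 2 ∧
      (∀ σ : GQ, ∀ x ∈ V, D.gal 1 σ x ∈ V) ∧ (∀ x ∈ V, E x) ∧
      (∀ σ ∈ B.inertiaSubgroupIn ℚ, ∀ x ∈ V, D.gal 1 σ x - x ∈ L) ∧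
      (∀ σ ∈ B.inertiaSubgroupIn ℚ, ∀ a : ℕ, (∀ ζ : Qbar, ζ ^ P.p = 1 → σ ζ = ζ ^ a) →
        ∀ s ∈ L, D.gal 1 σ s = a • s) ∧
      (∀ τ ∈ B.inertiaSubgroupIn ℚ,
        (∀ b : Qbar, b ^ P.p ∈ inertiaInt B → b ^ P.p ∉ B.nonunits → τ b = b) →
        ∀ x ∈ V, D.gal 1 τ x = x) := by
  obtain ⟨ha, hb, hc, hd⟩ := hT1
  have hT1' : T1.toAddSubgroup ≠ ⊤ := by
    intro h
    apply ha
    rw [eq_top_iff]
    intro x _
    have : x ∈ T1.toAddSubgroup := by rw [h]; exact AddSubgroup.mem_top x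
    exact this
  obtain ⟨V, L, hV, hL, h1, h2, h3, h4, h5, h6, h7⟩ :=
    transport (D.gal 1) j hj hjg T1.toAddSubgroup hT1' (↑(B.inertiaSubgroupIn ℚ) : Set GQ)
      (fun σ hσ x => hb σ hσ x)
      (fun σ a => ∀ ζ : Qbar, ζ ^ P.p = 1 → σ ζ = ζ ^ a)
      (fun σ hσ a ha s hs => hc σ hσ a ha s hs)
      (fun τ => ∀ b : Qbar, b ^ P.p ∈ inertiaInt B → b ^ P.p ∉ B.nonunits → τ b = b)
      (fun τ hτ hp x => hd τ hτ hp x) E hjE
  have := nontrivial_tors P
  refine ⟨V, L, hV, hL, h1, h2, ?_, ?_, h3, h4, h5, h6, h7⟩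
  · rw [hV]
    exact range_ne_bot j hj
  · rw [hV, card_range j hj, card_tors]

/-- the frozen irreducibility hypothesis, in `AddSubgroup` form. -/
theorem simple_of_irreducible (P : FreyPackage)
    (hirr : GaloisRepIsIrreducible (K := AlgebraicClosure ℚ) ℚ P.freyCurve P.p)
    (N : AddSubgroup (Tors P)) (hN : ∀ g : GQ, ∀ x ∈ N, g • x ∈ N) : N = ⊥ ∨ N = ⊤ := by
  have hp : P.p ≠ 0 := P.pp.ne_zero
  have : NeZero P.p := ⟨hp⟩
  let N' : Submodule (ZMod P.p) (Tors P) := AddSubgroup.toZModSubmodule P.p N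
  have hN' : IsGaloisStable ℚ N' := fun σ x hx => hN σ x hx
  rcases hirr.2 N' hN' with h | h
  · left
    rw [eq_bot_iff]
    intro x hx
    have : x ∈ N' := hx
    rw [h] at this
    exact this
  · right
    rw [eq_top_iff]
    intro x _
    have : x ∈ N' := by rw [h]; exact Submodule.mem_top
    exact this

/-- **Irreducibility of `V = range j`.** -/
theorem simple_range (P : FreyPackage)
    (hirr : GaloisRepIsIrreducible (K := AlgebraicClosure ℚ) ℚ P.freyCurve P.p)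
    {N : ℕ} [NeZero N] {S : Finset ℕ} (D : TorsionHeckeData P.p N S)
    (j : Tors P →+ D.M 1)
    (hjg : ∀ (g : GQ) (v : Tors P), j (g • v) = D.gal 1 g (j v))
    (V' : AddSubgroup (D.M 1)) (hV' : V' ≤ j.range)
    (hstab : ∀ g : GQ, ∀ x ∈ V', D.gal 1 g x ∈ V') : V' = ⊥ ∨ V' = j.range :=
  simple_transport (D.gal 1) j hjg (simple_of_irreducible P hirr) V' hV' hstab

end Concrete

end Fermat.Agent.S40x.A.LocalTransport
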