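/-
P-S44/S40, Block A, leaf A-LOC part 2 (helper64): from the Frey curve `E = P.freyCurve` (Block B's
vocabulary `Tors P`, frozen hypothesis `hirr`) to an integral model `W` (Block A's vocabulary
`tors (curveQbar W).Point p`, `W.ModRepIsIrreducible p`), and the final transported shape.

* `exists_frey_to_model` : injective `GQ`-equivariant `Tors P →+ tors (curveQbar W).Point P.p`.
* `modRepIsIrreducible_of_isIntegralModelOf` : `hirr` for `E` gives `W.ModRepIsIrreducible P.p`.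
* `localShape_of_copy` : given Block B's shape on `Tors P` and helper55's copy
  `j₀ : tors (curveQbar W).Point p →+ D.M 1`, the subgroups `V, L ≤ D.M 1` with all the hypotheses of
  the GEO literal, plus irreducibility of `V`.
-/
import Mathlib
import Fermat.Agent.S40x.A.LocalTransport
import Fermat.Agent.S41.NonEis.Main

set_option autoImplicit false

namespace Fermat.Agent.S40x.A.ModelTransfer

open Fermat.Agent.S13 Fermat.Agent.Gateway.S31Red Fermat.Agent.S56x.Flat.InertiaField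
open WeierstrassCurve WeierstrassCurve.Affine WeierstrassCurve.Affine.Point
open Fermat.Agent.Lib.EC.ReductionTorsion Fermat.Agent.Lib.EC.TraceAbstract
open Fermat.Agent.S40x.A.LocalTransport

/-- restriction of an additive map between point groups to the `n`-torsion. -/
theorem exists_torsion_restrict {A B : Type*} [AddCommGroup A] [AddCommGroup B] (ψ : A →+ B)
    (hψ : Function.Injective ψ) (n : ℕ) :
    ∃ ψ' : Submodule.torsionBy ℤ A (n : ℤ) →+ Submodule.torsionBy ℤ B (n : ℤ),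
      Function.Injective ψ' ∧ ∀ v, ((ψ' v : Submodule.torsionBy ℤ B (n : ℤ)) : B) = ψ (v : A) := by
  have hmem : ∀ v : Submodule.torsionBy ℤ A (n : ℤ),
      ψ (v : A) ∈ Submodule.torsionBy ℤ B (n : ℤ) := by
    intro v
    rw [Submodule.mem_torsionBy_iff, ← map_zsmul]
    have hv := v.2
    rw [Submodule.mem_torsionBy_iff] at hv
    rw [hv, _root_.map_zero]
  refine ⟨{ toFun := fun v => ⟨ψ v, hmem v⟩, map_zero' := ?_, map_add' := ?_ }, ?_, fun v => rfl⟩
  · apply Subtype.ext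
    show ψ ((0 : Submodule.torsionBy ℤ A (n : ℤ)) : A) = 0
    rw [Submodule.coe_zero, _root_.map_zero]
  · intro a b
    apply Subtype.ext
    show ψ ((a + b : Submodule.torsionBy ℤ A (n : ℤ)) : A) = ψ a + ψ b
    rw [Submodule.coe_add, _root_.map_add]
  · intro a b hab
    apply Subtype.ext
    apply hψ
    exact congrArg Subtype.val hab

/-- **From the Frey curve to an integral model**, on `p`-torsion. -/
theorem exists_frey_to_model (P : FreyPackage) (W : WeierstrassCurve ℤ)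
    (hW : W.IsIntegralModelOf P.freyCurve) :
    ∃ ψ : Tors P →+ tors (curveQbar W).Point P.p, Function.Injective ψ ∧
      ∀ (g : GQ) (v : Tors P), ψ (g • v) = g • ψ v := by
  obtain ⟨ψ, hinj, hcomm⟩ := Fermat.Agent.S41.NonEis.exists_transfer_model P.freyCurve hW
  obtain ⟨ψ', hinj', hψ'⟩ := exists_torsion_restrict ψ hinj P.p
  refine ⟨ψ', hinj', ?_⟩
  intro g v
  apply Subtype.ext
  rw [hψ']
  show ψ (g • (v : (P.freyCurve⁄Qbar).Point)) = g • ((ψ' v : tors (curveQbar W).Point P.p) : _)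
  rw [hcomm, hψ']

/-- **From an integral model back to the Frey curve**, on `p`-torsion. -/
theorem exists_model_to_frey (P : FreyPackage) (W : WeierstrassCurve ℤ)
    (hW : W.IsIntegralModelOf P.freyCurve) :
    ∃ ψ : tors (curveQbar W).Point P.p →+ Tors P, Function.Injective ψ ∧
      ∀ (g : GQ) (v : tors (curveQbar W).Point P.p), ψ (g • v) = g • ψ v := by
  obtain ⟨C, hC⟩ := hW
  obtain ⟨ψ, hinj, hcomm⟩ := Fermat.Agent.S05.exists_transfer (K := Qbar)
    (W.map (Int.castRingHom ℚ)).toAffine P.freyCurve.toAffine C hC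
  obtain ⟨ψ', hinj', hψ'⟩ := exists_torsion_restrict ψ hinj P.p
  refine ⟨ψ', hinj', ?_⟩
  intro g v
  apply Subtype.ext
  rw [hψ']
  show ψ (g • (v : (curveQbar W).Point)) = g • ((ψ' v : Tors P) : _)
  rw [hψ']
  exact hcomm g.toAlgHom _

/-- **Irreducibility passes to an integral model.** -/
theorem modRepIsIrreducible_of_isIntegralModelOf (P : FreyPackage) (W : WeierstrassCurve ℤ)
    (hW : W.IsIntegralModelOf P.freyCurve)
    (hirr : GaloisRepIsIrreducible (K := AlgebraicClosure ℚ) ℚ P.freyCurve P.p) :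
    W.ModRepIsIrreducible P.p := by
  obtain ⟨ψ, hψ, hψg⟩ := exists_frey_to_model P W hW
  obtain ⟨φ, hφ, hφg⟩ := exists_model_to_frey P W hW
  have hnt : Nontrivial (Tors P) := hirr.1
  refine ⟨?_, ?_⟩
  · obtain ⟨t, ht⟩ := exists_ne (0 : Tors P)
    refine ⟨⟨ψ t, 0, ?_⟩⟩
    intro h
    apply ht
    apply hψ
    rw [h, _root_.map_zero]
  · intro N' hN'
    let N : AddSubgroup (Tors P) := N'.toAddSubgroup.map φ
    have hN : ∀ g : GQ, ∀ x ∈ N, g • x ∈ N := by
      rintro g _ ⟨v, hv, rfl⟩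
      exact ⟨g • v, hN' g v hv, hφg g v⟩
    rcases simple_of_irreducible P hirr N hN with h | h
    · left
      rw [eq_bot_iff]
      intro v hv
      have h1 : φ v ∈ N := ⟨v, hv, rfl⟩
      rw [h, AddSubgroup.mem_bot] at h1
      have h2 : v = 0 := hφ (by rw [h1, _root_.map_zero])
      rw [h2]
      exact Submodule.zero_mem _
    · right
      rw [eq_top_iff]
      intro v _
      have h1 : φ v ∈ N := by rw [h]; exact AddSubgroup.mem_top _
      obtain ⟨v', hv', hvv'⟩ := h1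
      rw [← hφ hvv']
      exact hv'

/-- **A-LOC, final form.**  Block B's local shape on `Tors P`, transported through an integral model
`W` and a copy `j₀` of `W[p]` in `D.M 1`. -/
theorem localShape_of_copy (P : FreyPackage) (W : WeierstrassCurve ℤ)
    (hW : W.IsIntegralModelOf P.freyCurve)
    (hirr : GaloisRepIsIrreducible (K := AlgebraicClosure ℚ) ℚ P.freyCurve P.p)
    {N : ℕ} [NeZero N] {S : Finset ℕ}
    (D : TorsionHeckeData P.p N S) (B : ValuationSubring Qbar)
    (T1 : Submodule (ZMod P.p) (Tors P)) (hT1 : FreyLocalShape P B T1)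
    (j₀ : tors (curveQbar W).Point P.p →+ D.M 1) (hj₀ : Function.Injective j₀)
    (hj₀g : ∀ (g : GQ) (v : tors (curveQbar W).Point P.p), j₀ (g • v) = D.gal 1 g (j₀ v))
    (E : D.M 1 → Prop) (hj₀E : ∀ v, E (j₀ v)) :
    ∃ V L : AddSubgroup (D.M 1), L ≤ V ∧ L ≠ V ∧ V ≠ ⊥ ∧ Nat.card V = P.p ^ 2 ∧
      (∀ σ : GQ, ∀ x ∈ V, D.gal 1 σ x ∈ V) ∧ (∀ x ∈ V, E x) ∧
      (∀ V' : AddSubgroup (D.M 1), V' ≤ V → (∀ g : GQ, ∀ x ∈ V', D.gal 1 g x ∈ V') →
        V' = ⊥ ∨ V' = V) ∧
      (∀ σ ∈ B.inertiaSubgroupIn ℚ, ∀ x ∈ V, D.gal 1 σ x - x ∈ L) ∧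
      (∀ σ ∈ B.inertiaSubgroupIn ℚ, ∀ a : ℕ, (∀ ζ : Qbar, ζ ^ P.p = 1 → σ ζ = ζ ^ a) →
        ∀ s ∈ L, D.gal 1 σ s = a • s) ∧
      (∀ τ ∈ B.inertiaSubgroupIn ℚ,
        (∀ b : Qbar, b ^ P.p ∈ inertiaInt B → b ^ P.p ∉ B.nonunits → τ b = b) →
        ∀ x ∈ V, D.gal 1 τ x = x) := by
  obtain ⟨ψ, hψ, hψg⟩ := exists_frey_to_model P W hW
  let j : Tors P →+ D.M 1 := j₀.comp ψ
  have hj : Function.Injective j := hj₀.comp hψ
  have hjg : ∀ (g : GQ) (v : Tors P), j (g • v) = D.gal 1 g (j v) := by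
    intro g v
    show j₀ (ψ (g • v)) = D.gal 1 g (j₀ (ψ v))
    rw [hψg, hj₀g]
  obtain ⟨V, L, hV, -, h1, h2, h3, h4, h5, h6, h7, h8, h9⟩ :=
    localTransport P D B T1 hT1 j hj hjg E (fun v => hj₀E (ψ v))
  refine ⟨V, L, h1, h2, h3, h4, h5, h6, ?_, h7, h8, h9⟩
  intro V' hV' hstab
  rw [hV] at hV' ⊢
  exact simple_range P hirr D j hjg V' hV' hstab

end Fermat.Agent.S40x.A.ModelTransfer
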