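import Mathlib
import Fermat.Agent.S49.Realize
import Fermat.Agent.S40x.C2.DlogHecke

/-!
# P-S44, seam between block C2 (route OMEGA) and block A: from a `q`-series eigenvector to the
Deligne-Serre input

The geometric blocks produce a NONZERO `q`-series `g = ∑ cᵢ · red(qfᵢ)` over a field `k` of
characteristic `p` (`qfᵢ` the integral `q`-expansions of a saturated basis of `S₂(Γ₀(M'))`) with
`T_ℓ g = a_ℓ g` for the formal weight two Hecke operators `T_ℓ` (`ℓ ∈ I`, `ℓ ∤ M'`), `a_ℓ ∈ ℤ`.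
We turn it into the hypotheses of the landed Deligne-Serre lifting lemma
(`S41/Final/DSLiftSpan.exists_eigenvector_lift_in_span`, `S49/Integral.exists_eigenvector_hecke`):
a form `g₀` of the integral lattice `L = intLattice M' 2` with `g₀ ∉ p L` and
`T_ℓ g₀ - a_ℓ g₀ ∈ p L`.

Steps: (1) rationality over the prime field: the eigen-equations are linear with coefficients in
the prime field, so an additive functional `k → ZMod p` turns the solution `c` into a solution
over `ZMod p`, which we lift to integers (`exists_int_solution`); (2) saturation: the integer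
combination `g₀ = ∑ nᵢ fᵢ` is not in `p L` (`hsat`); (3) a form of `L` all of whose
`q`-coefficients are divisible by `p` lies in `p L` (`exists_eq_zsmul_of_dvd`).
-/

set_option autoImplicit false
set_option linter.unusedSectionVars false
set_option linter.style.haveILetI false

noncomputable section

namespace Fermat.Agent.S40x.A.QSeriesRat

open CuspForm CongruenceSubgroup ModularFormClass UpperHalfPlane
open Fermat.Agent.S49.Realize

/-! ### (1) rationality over the prime field -/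

/-- A nonzero solution over a field `k` of characteristic `p` of a homogeneous linear system with
INTEGER coefficients gives an integer vector, not all of whose entries are divisible by `p`, which
solves the system modulo `p`. -/
theorem exists_int_solution {p : ℕ} [Fact p.Prime] {k : Type*} [Field k] [CharP k p]
    {ι J : Type*} [Fintype ι] (E : J → ι → ℤ) (c : ι → k) (hc : c ≠ 0)
    (hE : ∀ j, ∑ i, c i * ((E j i : ℤ) : k) = 0) :
    ∃ n : ι → ℤ, (∃ i, ¬ (p : ℤ) ∣ n i) ∧ ∀ j, (p : ℤ) ∣ ∑ i, n i * E j i := by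
  classical
  letI : Algebra (ZMod p) k := ZMod.algebra k p
  obtain ⟨i0, hi0⟩ : ∃ i, c i ≠ 0 := by
    by_contra h
    apply hc
    funext i
    by_contra hi
    exact h ⟨i, hi⟩
  obtain ⟨φ, hφ⟩ : ∃ φ : Module.Dual (ZMod p) k, φ (c i0) ≠ 0 := by
    by_contra h
    apply hi0
    rw [← Module.forall_dual_apply_eq_zero_iff (ZMod p) (c i0)]
    intro φ
    by_contra hφ
    exact h ⟨φ, hφ⟩
  refine ⟨fun i => ((φ (c i)).val : ℤ), ⟨i0, ?_⟩, fun j => ?_⟩
  · intro hdvd
    apply hφ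
    have h0 : (((φ (c i0)).val : ℤ) : ZMod p) = 0 :=
      (ZMod.intCast_zmod_eq_zero_iff_dvd _ p).mpr hdvd
    rwa [Int.cast_natCast, ZMod.natCast_zmod_val] at h0
  · rw [← ZMod.intCast_zmod_eq_zero_iff_dvd]
    have h1 : φ (∑ i, c i * ((E j i : ℤ) : k)) = 0 := by rw [hE j, map_zero]
    rw [map_sum] at h1
    rw [Int.cast_sum, ← h1]
    refine Finset.sum_congr rfl fun i _ => ?_
    have h2 : c i * ((E j i : ℤ) : k) = (E j i) • c i := by
      rw [zsmul_eq_mul, mul_comm]
    rw [h2, map_zsmul, zsmul_eq_mul, Int.cast_mul, Int.cast_natCast, ZMod.natCast_zmod_val,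
      mul_comm]

/-! ### (3) divisibility of all `q`-coefficients -/

variable {N : ℕ}

/-- A cusp form all of whose `q`-coefficients are integers divisible by `p` is `p` times a form
of the integral lattice. -/
theorem exists_eq_zsmul_of_dvd {p : ℕ} (hp : p ≠ 0) {f : CuspForm (Gamma0 N) 2}
    (hf : ∀ n : ℕ, ∃ m : ℤ, qCoeff f n = (((p : ℤ) * m : ℤ) : ℂ)) :
    ∃ y ∈ CuspForm.intLattice N 2, f = (p : ℤ) • y := by
  have hpC : (p : ℂ) ≠ 0 := by exact_mod_cast hp
  refine ⟨((p : ℂ)⁻¹) • f, ?_, ?_⟩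
  · rw [mem_intLattice_iff]
    intro n
    obtain ⟨m, hm⟩ := hf n
    refine ⟨m, ?_⟩
    rw [qCoeff_smul, hm]
    push_cast
    field_simp
  · have h1 : ((p : ℤ) • ((p : ℂ)⁻¹ • f)) = (((p : ℤ) : ℂ)) • ((p : ℂ)⁻¹ • f) := by
      ext z
      simp
    rw [h1, smul_smul]
    push_cast
    rw [mul_inv_cancel₀ hpC, one_smul]

/-- the `q`-coefficient as an additive map -/
def qCoeffHom (N : ℕ) (m : ℕ) : CuspForm (Gamma0 N) 2 →+ ℂ where
  toFun f := qCoeff f m
  map_zero' := qCoeff_zero' m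
  map_add' f g := qCoeff_add f g m

theorem qCoeffHom_apply (m : ℕ) (f : CuspForm (Gamma0 N) 2) : qCoeffHom N m f = qCoeff f m := rfl

/-- `q`-coefficients of an integer combination of forms with integral `q`-expansions. -/
theorem qCoeff_sum_zsmul {r : ℕ} (f : Fin r → CuspForm (Gamma0 N) 2) (qf : Fin r → PowerSeries ℤ)
    (hqf : ∀ i, qExpansion 1 (f i) = (qf i).map (Int.castRingHom ℂ))
    (n : Fin r → ℤ) (m : ℕ) :
    qCoeff (⇑(∑ i, n i • f i : CuspForm (Gamma0 N) 2)) m =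
      ((∑ i, n i * PowerSeries.coeff m (qf i) : ℤ) : ℂ) := by
  rw [← qCoeffHom_apply, map_sum, Int.cast_sum]
  refine Finset.sum_congr rfl fun i _ => ?_
  rw [qCoeffHom_apply, qCoeff_zsmul, Int.cast_mul]
  congr 1
  show PowerSeries.coeff m (qExpansion 1 (f i)) = _
  rw [hqf i, PowerSeries.coeff_map]
  rfl

/-! ### The adaptor -/

/-- The integer coefficient of the `(ℓ, m)`-th eigen-equation at the `i`-th basis vector:
`a_{mℓ}(qfᵢ) + [ℓ ∣ m] ℓ a_{m/ℓ}(qfᵢ) - a_ℓ a_m(qfᵢ)`. -/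
def eqCoeff {r : ℕ} (qf : Fin r → PowerSeries ℤ) (a : ℕ → ℤ) (x : ℕ × ℕ) (i : Fin r) : ℤ :=
  PowerSeries.coeff (x.2 * x.1) (qf i) +
    (if x.1 ∣ x.2 then (x.1 : ℤ) * PowerSeries.coeff (x.2 / x.1) (qf i) else 0) -
    a x.1 * PowerSeries.coeff x.2 (qf i)

section Series

variable {k : Type*} [Field k] {r : ℕ}

/-- coefficients of `∑ cᵢ · red(qfᵢ)` -/
theorem coeff_comb (qf : Fin r → PowerSeries ℤ) (c : Fin r → k) (m : ℕ) :
    (∑ i, HahnSeries.C (c i) *
      HahnSeries.ofPowerSeries ℤ k ((qf i).map (Int.castRingHom k))).coeff (m : ℤ) =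
      ∑ i, c i * ((PowerSeries.coeff m (qf i) : ℤ) : k) := by
  rw [HahnSeries.coeff_sum]
  refine Finset.sum_congr rfl fun i _ => ?_
  rw [HahnSeries.C_mul_eq_smul, HahnSeries.coeff_smul, smul_eq_mul,
    HahnSeries.ofPowerSeries_apply_coeff, PowerSeries.coeff_map]
  rfl

/-- the `m`-th coefficient of the formal Hecke operator, `m : ℕ` -/
theorem heckeT_coeff_nat (ℓ : ℕ) [NeZero ℓ] (φ : LaurentSeries k) (m : ℕ) :
    (Fermat.Agent.S40x.C2.DlogHecke.heckeT ℓ φ).coeff (m : ℤ) =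
      φ.coeff ((m * ℓ : ℕ) : ℤ) +
        (if ℓ ∣ m then (ℓ : k) * φ.coeff ((m / ℓ : ℕ) : ℤ) else 0) := by
  by_cases hd : ℓ ∣ m
  · obtain ⟨m', rfl⟩ := hd
    have hℓ : 0 < ℓ := Nat.pos_of_ne_zero (NeZero.ne ℓ)
    rw [if_pos (dvd_mul_right ℓ m'), Nat.mul_div_cancel_left m' hℓ]
    have h1 : ((ℓ * m' : ℕ) : ℤ) = (ℓ : ℤ) * (m' : ℤ) := by push_cast; ring
    have h2 : ((ℓ * m' * ℓ : ℕ) : ℤ) = (ℓ : ℤ) * ((ℓ : ℤ) * (m' : ℤ)) := by push_cast; ring
    rw [h1, h2, Fermat.Agent.S40x.C2.DlogHecke.heckeT_coeff_mul]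
  · rw [if_neg hd, add_zero]
    have hd' : ¬ (ℓ : ℤ) ∣ (m : ℤ) := fun h => hd (Int.natCast_dvd_natCast.mp h)
    rw [Fermat.Agent.S40x.C2.DlogHecke.heckeT_coeff_of_not_dvd ℓ φ hd']
    congr 1
    push_cast
    ring

end Series

/-- **A6'-RAT.**  From a nonzero `q`-series eigenvector in the `k`-span of the reductions of a
saturated integral basis to the hypotheses of the Deligne-Serre lifting lemma. -/
theorem exists_lattice_eigen_of_qseries {M' p : ℕ} [NeZero M'] (hp : p.Prime)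
    {k : Type} [Field k] [CharP k p] {r : ℕ}
    (f : Fin r → CuspForm (Gamma0 M') 2) (qf : Fin r → PowerSeries ℤ)
    (hqf : ∀ i, qExpansion 1 (f i) = (qf i).map (Int.castRingHom ℂ))
    (hsat : LinearIndependent (ZMod p) (fun i => (qf i).map (Int.castRingHom (ZMod p))))
    (c : Fin r → k) (g : LaurentSeries k)
    (hg : g = ∑ i, HahnSeries.C (c i) *
      HahnSeries.ofPowerSeries ℤ k ((qf i).map (Int.castRingHom k)))
    (hg0 : g ≠ 0) (I : Set ℕ) (a : ℕ → ℤ)
    (heig : ∀ (l : ℕ) (hl : l.Prime), ¬ l ∣ M' → l ∈ I →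
      haveI : NeZero l := ⟨hl.ne_zero⟩
      Fermat.Agent.S40x.C2.DlogHecke.heckeT l g = HahnSeries.C ((a l : ℤ) : k) * g) :
    ∃ g0 ∈ CuspForm.intLattice M' 2, (∀ y ∈ CuspForm.intLattice M' 2, g0 ≠ (p : ℤ) • y) ∧
      ∀ (l : ℕ) (hl : l.Prime) (hlM : ¬ l ∣ M'), l ∈ I →
        ∃ y ∈ CuspForm.intLattice M' 2,
          CuspForm.heckeTLin 2 hl hlM g0 - a l • g0 = (p : ℤ) • y := by
  classical
  haveI : Fact p.Prime := ⟨hp⟩
  -- `c ≠ 0`
  have hc : c ≠ 0 := by
    intro h0
    apply hg0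
    rw [hg, h0]
    simp
  -- the equations
  let J : Type := {x : ℕ × ℕ // x.1.Prime ∧ ¬ x.1 ∣ M' ∧ x.1 ∈ I}
  have hE : ∀ j : J, ∑ i, c i * ((eqCoeff qf a j.1 i : ℤ) : k) = 0 := by
    rintro ⟨⟨l, m⟩, hl, hlM, hlI⟩
    haveI : NeZero l := ⟨hl.ne_zero⟩
    have h1 : (Fermat.Agent.S40x.C2.DlogHecke.heckeT l g).coeff (m : ℤ) =
        (HahnSeries.C ((a l : ℤ) : k) * g).coeff (m : ℤ) := by rw [heig l hl hlM hlI]
    rw [heckeT_coeff_nat, HahnSeries.C_mul_eq_smul, HahnSeries.coeff_smul, smul_eq_mul, hg,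
      coeff_comb, coeff_comb, coeff_comb] at h1
    have h2 : ∀ i, c i * ((eqCoeff qf a (l, m) i : ℤ) : k) =
        c i * ((PowerSeries.coeff (m * l) (qf i) : ℤ) : k) +
          (if l ∣ m then (l : k) * (c i * ((PowerSeries.coeff (m / l) (qf i) : ℤ) : k)) else 0) -
          ((a l : ℤ) : k) * (c i * ((PowerSeries.coeff m (qf i) : ℤ) : k)) := by
      intro i
      unfold eqCoeff
      by_cases hd : l ∣ m
      · simp only [if_pos hd]
        push_cast
        ring
      · simp only [if_neg hd]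
        push_cast
        ring
    show ∑ i, c i * ((eqCoeff qf a (l, m) i : ℤ) : k) = 0
    simp_rw [h2]
    rw [Finset.sum_sub_distrib, Finset.sum_add_distrib, ← Finset.mul_sum]
    by_cases hd : l ∣ m
    · simp only [if_pos hd] at h1 ⊢
      rw [← Finset.mul_sum, h1, sub_self]
    · simp only [if_neg hd] at h1 ⊢
      rw [Finset.sum_const_zero, h1, sub_self]
  obtain ⟨n, ⟨i0, hi0⟩, hn⟩ := exists_int_solution (p := p) (fun j : J => eqCoeff qf a j.1) c hc hE
  -- the lattice vector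
  set g0 : CuspForm (Gamma0 M') 2 := ∑ i, n i • f i with hg0def
  have hq : ∀ m : ℕ, qCoeff g0 m = ((∑ i, n i * PowerSeries.coeff m (qf i) : ℤ) : ℂ) :=
    fun m => qCoeff_sum_zsmul f qf hqf n m
  refine ⟨g0, (mem_intLattice_iff g0).mpr fun m => ⟨_, hq m⟩, ?_, ?_⟩
  · -- saturation
    intro y hy hgy
    apply hi0
    have hyq := (mem_intLattice_iff y).mp hy
    have hdiv : ∀ m : ℕ, (p : ℤ) ∣ ∑ i, n i * PowerSeries.coeff m (qf i) := by
      intro m
      obtain ⟨b, hb⟩ := hyq m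
      refine ⟨b, ?_⟩
      have h1 : ((∑ i, n i * PowerSeries.coeff m (qf i) : ℤ) : ℂ) = (((p : ℤ) * b : ℤ) : ℂ) := by
        rw [← hq m, hgy, qCoeff_zsmul, hb]
        push_cast
        ring
      exact_mod_cast h1
    have hzero : ∑ i, ((n i : ℤ) : ZMod p) • (qf i).map (Int.castRingHom (ZMod p)) = 0 := by
      ext m
      rw [map_sum, map_zero]
      have h1 : ((∑ i, n i * PowerSeries.coeff m (qf i) : ℤ) : ZMod p) = 0 :=
        (ZMod.intCast_zmod_eq_zero_iff_dvd _ p).mpr (hdiv m)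
      rw [← h1, Int.cast_sum]
      refine Finset.sum_congr rfl fun i _ => ?_
      rw [PowerSeries.coeff_smul, PowerSeries.coeff_map, smul_eq_mul, Int.cast_mul]
      rfl
    have hall := Fintype.linearIndependent_iff.mp hsat (fun i => ((n i : ℤ) : ZMod p)) hzero i0
    exact (ZMod.intCast_zmod_eq_zero_iff_dvd _ p).mp hall
  · -- the eigen-relations modulo `p`
    intro l hl hlM hlI
    apply exists_eq_zsmul_of_dvd hp.ne_zero
    intro m
    obtain ⟨b, hb⟩ := hn ⟨(l, m), hl, hlM, hlI⟩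
    refine ⟨b, ?_⟩
    rw [← hb, qCoeff_sub, Fermat.Agent.S49.Realize.qCoeff_heckeTLin hl hlM m, qCoeff_zsmul]
    simp only [hq]
    have h3 : ∑ i, n i * eqCoeff qf a (l, m) i =
        (∑ i, n i * PowerSeries.coeff (m * l) (qf i)) +
          (if l ∣ m then (l : ℤ) * ∑ i, n i * PowerSeries.coeff (m / l) (qf i) else 0) -
          a l * ∑ i, n i * PowerSeries.coeff m (qf i) := by
      unfold eqCoeff
      by_cases hd : l ∣ m
      · simp only [if_pos hd]
        rw [Finset.mul_sum, Finset.mul_sum, ← Finset.sum_add_distrib, ← Finset.sum_sub_distrib]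
        refine Finset.sum_congr rfl fun i _ => ?_
        ring
      · simp only [if_neg hd]
        rw [Finset.mul_sum, add_zero, ← Finset.sum_sub_distrib]
        refine Finset.sum_congr rfl fun i _ => ?_
        ring
    rw [h3]
    by_cases hd : l ∣ m
    · simp only [if_pos hd]
      push_cast
      ring
    · simp only [if_neg hd]
      push_cast
      ring

end Fermat.Agent.S40x.A.QSeriesRat
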