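import Mathlib
import Fermat.Prelude.Thm_CuspForm_mem_intLattice_of_mem_heckeAlgebra
import Fermat.Agent.S35x.LevelHom
import Fermat.Agent.S40x.A.QSeriesRat

/-!
# P-S44, seam between the positive output of block C2 and the contradiction form of GEO

`θ` is a character of the Hecke algebra `𝕋(M' p)` (away from `S ⊇ primes(M' p)`) with values in
`ZMod p` which is NEW: some `h` with `levelHom h = 0` has `θ h ≠ 0`.  The geometric blocks produce
a nonzero mod `p` eigenvector of level `M'` with the eigenvalues of `θ`, either in lattice form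
(`g₀ ∈ L = intLattice M' 2`, `g₀ ∉ p L`, `T_ℓ g₀ - a_ℓ g₀ ∈ p L`, `θ (T_ℓ) = a_ℓ`) or in `q`-series
form (input of `QSeriesRat.exists_lattice_eigen_of_qseries`).  This is contradictory:
by induction on the Hecke algebra of level `M' p` (generated by the `T_ℓ`, `ℓ ∉ S`, because
`primes(M' p) ⊆ S`), every `t` acts on `g₀` modulo `p L` through `levelHom t` by an integer
`n ≡ θ t`; for `t = h` this says `n g₀ ∈ p L` with `p ∤ n`, hence `g₀ ∈ p L`.
-/

set_option autoImplicit false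
set_option linter.unusedSectionVars false
set_option linter.style.haveILetI false

noncomputable section

namespace Fermat.Agent.S40x.A.NewKill

open CuspForm CongruenceSubgroup UpperHalfPlane

variable {M' : ℕ} [NeZero M']

/-- `x ∈ p L`, `L` the lattice of forms with integral `q`-expansion. -/
def IsPDiv (p : ℕ) (x : CuspForm (Gamma0 M') 2) : Prop :=
  ∃ y ∈ CuspForm.intLattice M' 2, x = (p : ℤ) • y

theorem IsPDiv.zero (p : ℕ) : IsPDiv p (0 : CuspForm (Gamma0 M') 2) :=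
  ⟨0, Submodule.zero_mem _, (smul_zero _).symm⟩

theorem IsPDiv.add {p : ℕ} {x y : CuspForm (Gamma0 M') 2} (hx : IsPDiv p x) (hy : IsPDiv p y) :
    IsPDiv p (x + y) := by
  obtain ⟨x', hx', rfl⟩ := hx
  obtain ⟨y', hy', rfl⟩ := hy
  exact ⟨x' + y', Submodule.add_mem _ hx' hy', (smul_add _ _ _).symm⟩

theorem IsPDiv.zsmul {p : ℕ} {x : CuspForm (Gamma0 M') 2} (hx : IsPDiv p x) (n : ℤ) :
    IsPDiv p (n • x) := by
  obtain ⟨x', hx', rfl⟩ := hx
  exact ⟨n • x', Submodule.smul_mem _ n hx', smul_comm _ _ _⟩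

theorem IsPDiv.neg {p : ℕ} {x : CuspForm (Gamma0 M') 2} (hx : IsPDiv p x) : IsPDiv p (-x) := by
  obtain ⟨x', hx', rfl⟩ := hx
  exact ⟨-x', Submodule.neg_mem _ hx', (smul_neg _ _).symm⟩

theorem IsPDiv.apply {p : ℕ} {S : Set ℕ} {x : CuspForm (Gamma0 M') 2} (hx : IsPDiv p x)
    (t : CuspForm.heckeAlgebra M' 2 S) :
    IsPDiv p ((t : Module.End ℂ (CuspForm (Gamma0 M') 2)) x) := by
  obtain ⟨x', hx', rfl⟩ := hx
  exact ⟨(t : Module.End ℂ (CuspForm (Gamma0 M') 2)) x',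
    CuspForm.mem_intLattice_of_mem_heckeAlgebra one_le_two t.2 hx', map_zsmul _ _ _⟩

/-- `p ∤ n` and `n x ∈ p L`, `x ∈ L` imply `x ∈ p L`. -/
theorem IsPDiv.of_zsmul {p : ℕ} (hp : p.Prime) {x : CuspForm (Gamma0 M') 2}
    (hxL : x ∈ CuspForm.intLattice M' 2) {n : ℤ} (hn : ¬ (p : ℤ) ∣ n) (hx : IsPDiv p (n • x)) :
    IsPDiv p x := by
  have hcop : IsCoprime n (p : ℤ) :=
    ((Prime.coprime_iff_not_dvd (Nat.prime_iff_prime_int.mp hp)).mpr hn).symm
  obtain ⟨u, v, huv⟩ := hcop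
  have h1 : x = u • (n • x) + (p : ℤ) • (v • x) := by
    rw [smul_smul, smul_smul, ← add_smul]
    have : u * n + (p : ℤ) * v = 1 := by rw [← huv]; ring
    rw [this, one_smul]
  rw [h1]
  exact (hx.zsmul u).add ⟨v • x, Submodule.smul_mem _ v hxL, rfl⟩

variable {p : ℕ} [NeZero p] {S : Set ℕ}

/-- Every element `t` of the Hecke algebra of level `M' p` acts on `g₀` modulo `p L`, through
`levelHom`, by an integer congruent to `θ t`. -/
theorem exists_int_of_mem (hNS : ∀ q : ℕ, q.Prime → q ∣ M' * p → q ∈ S)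
    (θ : CuspForm.heckeAlgebra (M' * p) 2 S →+* ZMod p) (a : ℕ → ℤ)
    (hθa : ∀ (l : ℕ) (hl : l.Prime) (hlN : ¬ l ∣ M' * p) (hlS : l ∉ S),
      θ (CuspForm.heckeAlgebra.T hl hlN hlS) = ((a l : ℤ) : ZMod p))
    (g0 : CuspForm (Gamma0 M') 2)
    (hT : ∀ (l : ℕ) (hl : l.Prime) (hlM : ¬ l ∣ M'), l ∉ S →
      ∃ y ∈ CuspForm.intLattice M' 2, CuspForm.heckeTLin 2 hl hlM g0 - a l • g0 = (p : ℤ) • y)
    (t : Module.End ℂ (CuspForm (Gamma0 (M' * p)) 2))
    (ht : t ∈ CuspForm.heckeAlgebra (M' * p) 2 S) :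
    ∃ n : ℤ, ((n : ℤ) : ZMod p) = θ ⟨t, ht⟩ ∧
      IsPDiv p ((Fermat.Agent.S35x.levelHom hNS ⟨t, ht⟩ :
        Module.End ℂ (CuspForm (Gamma0 M') 2)) g0 - n • g0) := by
  induction ht using Algebra.adjoin_induction with
  | mem x hx =>
    rcases hx with ⟨ℓ, hℓ, hℓNq, hℓS, rfl⟩ | ⟨q, hqN, hq, hqS, rfl⟩
    · have hℓM : ¬ ℓ ∣ M' := fun hd => hℓNq (Dvd.dvd.mul_right hd p)
      refine ⟨a ℓ, (hθa ℓ hℓ hℓNq hℓS).symm, ?_⟩
      have h1 : Fermat.Agent.S35x.levelHom hNS ⟨CuspForm.heckeTLin 2 hℓ hℓNq,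
          Algebra.subset_adjoin (Or.inl ⟨ℓ, hℓ, hℓNq, hℓS, rfl⟩)⟩ =
          CuspForm.heckeAlgebra.T hℓ hℓM hℓS :=
        Fermat.Agent.S35x.levelHom_T hNS hℓ hℓM hℓNq hℓS
      rw [h1]
      exact hT ℓ hℓ hℓM hℓS
    · exact absurd (hNS q hq hqN) hqS
  | algebraMap m =>
    refine ⟨m, ?_, ?_⟩
    · have h1 : (⟨algebraMap ℤ (Module.End ℂ (CuspForm (Gamma0 (M' * p)) 2)) m,
          Subalgebra.algebraMap_mem _ m⟩ : CuspForm.heckeAlgebra (M' * p) 2 S) =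
          ((m : ℤ) : CuspForm.heckeAlgebra (M' * p) 2 S) := by
        apply Subtype.ext
        simp
      rw [h1, map_intCast]
    · have h1 : (⟨algebraMap ℤ (Module.End ℂ (CuspForm (Gamma0 (M' * p)) 2)) m,
          Subalgebra.algebraMap_mem _ m⟩ : CuspForm.heckeAlgebra (M' * p) 2 S) =
          ((m : ℤ) : CuspForm.heckeAlgebra (M' * p) 2 S) := by
        apply Subtype.ext
        simp
      rw [h1, map_intCast]
      have h2 : (((m : ℤ) : CuspForm.heckeAlgebra M' 2 S) :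
          Module.End ℂ (CuspForm (Gamma0 M') 2)) g0 = m • g0 := by
        rw [SubringClass.coe_intCast]
        simp
      rw [h2, sub_self]
      exact IsPDiv.zero p
  | add x y hx hy ihx ihy =>
    obtain ⟨nx, hnx, hpx⟩ := ihx
    obtain ⟨ny, hny, hpy⟩ := ihy
    have hsum : (⟨x + y, Subalgebra.add_mem _ hx hy⟩ : CuspForm.heckeAlgebra (M' * p) 2 S) =
        ⟨x, hx⟩ + ⟨y, hy⟩ := rfl
    refine ⟨nx + ny, ?_, ?_⟩
    · rw [hsum, map_add, Int.cast_add, hnx, hny]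
    · rw [hsum, map_add, Subalgebra.coe_add, LinearMap.add_apply, add_smul]
      have := hpx.add hpy
      convert this using 1
      abel
  | mul x y hx hy ihx ihy =>
    obtain ⟨nx, hnx, hpx⟩ := ihx
    obtain ⟨ny, hny, hpy⟩ := ihy
    have hprod : (⟨x * y, Subalgebra.mul_mem _ hx hy⟩ : CuspForm.heckeAlgebra (M' * p) 2 S) =
        ⟨x, hx⟩ * ⟨y, hy⟩ := rfl
    refine ⟨nx * ny, ?_, ?_⟩
    · rw [hprod, map_mul, Int.cast_mul, hnx, hny]
    · rw [hprod, map_mul, Subalgebra.coe_mul, Module.End.mul_apply]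
      have h1 := hpy.apply (Fermat.Agent.S35x.levelHom hNS ⟨x, hx⟩)
      have h2 := hpx.zsmul ny
      have h3 := h1.add h2
      convert h3 using 1
      rw [map_sub, map_zsmul, smul_sub, smul_smul, mul_comm ny nx]
      abel

/-- **Lattice form.**  A new character of level `M' p` cannot have a mod `p` eigenvector at
level `M'`. -/
theorem false_of_new_of_lattice (hp : p.Prime)
    (hNS : ∀ q : ℕ, q.Prime → q ∣ M' * p → q ∈ S)
    (θ : CuspForm.heckeAlgebra (M' * p) 2 S →+* ZMod p)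
    (hnew : ∃ h : CuspForm.heckeAlgebra (M' * p) 2 S,
      θ h ≠ 0 ∧ Fermat.Agent.S35x.levelHom hNS h = 0)
    (a : ℕ → ℤ)
    (hθa : ∀ (l : ℕ) (hl : l.Prime) (hlN : ¬ l ∣ M' * p) (hlS : l ∉ S),
      θ (CuspForm.heckeAlgebra.T hl hlN hlS) = ((a l : ℤ) : ZMod p))
    (g0 : CuspForm (Gamma0 M') 2) (hg0L : g0 ∈ CuspForm.intLattice M' 2)
    (hg0 : ∀ y ∈ CuspForm.intLattice M' 2, g0 ≠ (p : ℤ) • y)
    (hT : ∀ (l : ℕ) (hl : l.Prime) (hlM : ¬ l ∣ M'), l ∉ S →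
      ∃ y ∈ CuspForm.intLattice M' 2, CuspForm.heckeTLin 2 hl hlM g0 - a l • g0 = (p : ℤ) • y) :
    False := by
  obtain ⟨⟨h, hh⟩, hθh, hlev⟩ := hnew
  obtain ⟨n, hn, hdiv⟩ := exists_int_of_mem hNS θ a hθa g0 hT h hh
  rw [hlev] at hdiv
  have h0 : ((0 : CuspForm.heckeAlgebra M' 2 S) : Module.End ℂ (CuspForm (Gamma0 M') 2)) g0 = 0 := by
    simp
  rw [h0, zero_sub] at hdiv
  have hdiv' : IsPDiv p (n • g0) := by
    have := hdiv.neg
    rwa [neg_neg] at this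
  have hnp : ¬ (p : ℤ) ∣ n := by
    intro hd
    apply hθh
    rw [← hn]
    exact (ZMod.intCast_zmod_eq_zero_iff_dvd n p).mpr hd
  obtain ⟨y, hy, hgy⟩ := IsPDiv.of_zsmul hp hg0L hnp hdiv'
  exact hg0 y hy hgy

/-- **`q`-series form** (consumes the positive output of block C2, route OMEGA). -/
theorem false_of_new_of_qseries (hp : p.Prime) (S : Finset ℕ)
    (hNS : ∀ q : ℕ, q.Prime → q ∣ M' * p → q ∈ (↑S : Set ℕ))
    (θ : CuspForm.heckeAlgebra (M' * p) 2 (↑S : Set ℕ) →+* ZMod p)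
    (hnew : ∃ h : CuspForm.heckeAlgebra (M' * p) 2 (↑S : Set ℕ),
      θ h ≠ 0 ∧ Fermat.Agent.S35x.levelHom hNS h = 0)
    (a : ℕ → ℤ)
    (hθa : ∀ (l : ℕ) (hl : l.Prime) (hlN : ¬ l ∣ M' * p) (hlS : l ∉ (↑S : Set ℕ)),
      θ (CuspForm.heckeAlgebra.T hl hlN hlS) = ((a l : ℤ) : ZMod p))
    {k : Type} [Field k] [CharP k p] {r : ℕ}
    (f : Fin r → CuspForm (Gamma0 M') 2) (qf : Fin r → PowerSeries ℤ)
    (hqf : ∀ i, qExpansion 1 (f i) = (qf i).map (Int.castRingHom ℂ))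
    (hsat : LinearIndependent (ZMod p) (fun i => (qf i).map (Int.castRingHom (ZMod p))))
    (c : Fin r → k) (g : LaurentSeries k)
    (hg : g = ∑ i, HahnSeries.C (c i) *
      HahnSeries.ofPowerSeries ℤ k ((qf i).map (Int.castRingHom k)))
    (hg0 : g ≠ 0)
    (heig : ∀ (l : ℕ) (hl : l.Prime), ¬ l ∣ M' → l ∉ (↑S : Set ℕ) →
      haveI : NeZero l := ⟨hl.ne_zero⟩
      Fermat.Agent.S40x.C2.DlogHecke.heckeT l g = HahnSeries.C ((a l : ℤ) : k) * g) :
    False := by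
  obtain ⟨g0, hg0L, hg0p, hT⟩ :=
    Fermat.Agent.S40x.A.QSeriesRat.exists_lattice_eigen_of_qseries hp f qf hqf hsat c g hg hg0
      ((↑S : Set ℕ))ᶜ a (fun l hl hlM hlS => heig l hl hlM hlS)
  exact false_of_new_of_lattice hp hNS θ hnew a hθa g0 hg0L hg0p
    (fun l hl hlM hlS => hT l hl hlM hlS)

end Fermat.Agent.S40x.A.NewKill
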