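/-
P-S44, BLOCK A, sub-leaf (A6b) (helper92): from a PARTIAL Hecke eigenvector to a normalised
eigenform.

`eigenform_of_partial_eigenvector` : a nonzero `v ∈ S₂(Γ₀(M'))` which is an eigenvector of the
`T_ℓ` for all primes `ℓ ∤ M'` outside a set `S` (eigenvalues `c ℓ`) gives a normalised eigenform `g`
of level `M'` with `a_ℓ(g) = c ℓ` for these `ℓ`.

Proof: the joint eigenspace `W = {w | T_ℓ w = c ℓ • w for all these ℓ}` (landed
`S41/Forms/Consumer.eigenSub`, with the auxiliary index `q := 1`, `heckeOp M' 1 = 1`) is nonzero,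
finite-dimensional (landed S23) and stable under ALL `T_ℓ`, `U_q` (they commute: landed
`heckeOp_comm`, `heckeOp_mem_eigenSub`); a commuting family has a common eigenvector in `W` (landed
`S49/CommonEigenvector`), and a common eigenvector of all Hecke operators is a multiple of a
normalised eigenform (landed `S49/Eigenform.exists_normalizedEigenform_of_eigenvector`).

Three forms: `eigenform_of_partial_eigenvector_pred` (any predicate `P` on primes),
`eigenform_of_partial_eigenvector` (`ℓ ∉ S`, `S : Finset ℕ`), `eigenform_of_partial_eigenvector_set`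
(`ℓ ∉ (↑S : Set ℕ)`).  NEW file, imported by nothing.
-/
import Mathlib
import Fermat.Agent.S23.Glue
import Fermat.Agent.S49.CommonEigenvector
import Fermat.Agent.S49.Eigenform
import Fermat.Agent.S41.Forms.Consumer

set_option autoImplicit false
set_option linter.unusedSectionVars false
set_option linter.unusedVariables false

noncomputable section

namespace Fermat.Agent.S40x.A.PartialEigen

open CongruenceSubgroup Fermat.Agent.S41.Forms

/-- **(A6b), predicate form.** A nonzero eigenvector `v` of the `T_ℓ`, `ℓ ∤ M'` prime with `P ℓ`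
(eigenvalues `c ℓ`), gives a normalised eigenform `g` of level `M'` with `a_ℓ(g) = c ℓ` for all
these `ℓ`. -/
theorem eigenform_of_partial_eigenvector_pred (M' : ℕ) [NeZero M'] (P : ℕ → Prop)
    (v : CuspForm (Gamma0 M') 2) (hv : v ≠ 0) (c : ℕ → ℂ)
    (hT : ∀ (l : ℕ) (hl : l.Prime) (hlM' : ¬ l ∣ M'), P l →
      CuspForm.heckeTLin 2 hl hlM' v = c l • v) :
    ∃ g : CuspForm (Gamma0 M') 2, g.IsNormalizedEigenform ∧
      ∀ l : ℕ, l.Prime → ¬ l ∣ M' → P l → ModularFormClass.qCoeff g l = c l := by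
  have := Fermat.Agent.S23.finiteDimensional_cuspForm M' 2
  have hvW : v ∈ eigenSub M' P c 1 := by
    refine ⟨fun l hl hd hP => ?_, ?_⟩
    · rw [heckeOp_of_not_dvd M' hl hd]
      exact hT l hl hd hP
    · rw [heckeOp_of_not_prime M' Nat.not_prime_one, Module.End.one_apply, Module.End.one_apply]
  have hW : eigenSub M' P c 1 ≠ ⊥ := by
    intro hbot
    rw [hbot, Submodule.mem_bot] at hvW
    exact hv hvW
  obtain ⟨w, hwW, hw0, hw⟩ := Fermat.Agent.S49.Lifting.exists_common_eigenvector_in_submodule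
    (heckeOp M') (heckeOp_comm M') _ (eigenSub M' P c 1) rfl hW
    (fun i x hx => heckeOp_mem_eigenSub M' i hx)
  choose lam hlam using hw
  obtain ⟨g, hg, hgl⟩ := Fermat.Agent.S49.Eigenform.exists_normalizedEigenform_of_eigenvector w hw0
    lam (fun l hl hd => by rw [← heckeOp_of_not_dvd M' hl hd]; exact hlam l)
    (fun l hl hd => by rw [← heckeOp_of_dvd M' hl hd]; exact hlam l)
  obtain ⟨hw1, -⟩ := hwW
  refine ⟨g, hg, fun l hl hd hP => ?_⟩
  rw [hgl l hl]
  have h1 := hw1 l hl hd hP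
  rw [hlam l] at h1
  exact smul_left_injective ℂ hw0 h1

/-- **(A6b)** (literal of `S44-IFACE-A v2`). `S : Finset ℕ`, `v ≠ 0` in `S₂(Γ₀(M'))` with
`T_ℓ v = c ℓ • v` for all primes `ℓ ∤ M'`, `ℓ ∉ S` ⟹ a normalised eigenform `g` of level `M'` with
`a_ℓ(g) = c ℓ` for all primes `ℓ ∤ M'`, `ℓ ∉ S`. -/
theorem eigenform_of_partial_eigenvector (M' : ℕ) [NeZero M'] (S : Finset ℕ)
    (v : CuspForm (Gamma0 M') 2) (hv : v ≠ 0) (c : ℕ → ℂ)
    (hT : ∀ (l : ℕ) (hl : l.Prime) (hlM' : ¬ l ∣ M'), l ∉ S →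
      CuspForm.heckeTLin 2 hl hlM' v = c l • v) :
    ∃ g : CuspForm (Gamma0 M') 2, g.IsNormalizedEigenform ∧
      ∀ l : ℕ, l.Prime → ¬ l ∣ M' → l ∉ S → ModularFormClass.qCoeff g l = c l :=
  eigenform_of_partial_eigenvector_pred M' (fun l => l ∉ S) v hv c hT

/-- **(A6b)**, membership in the coerced set `(↑S : Set ℕ)` (the form of the `heckeAlgebra`
generators `heckeAlgebra.T hl hlM' hlS`). -/
theorem eigenform_of_partial_eigenvector_set (M' : ℕ) [NeZero M'] (S : Finset ℕ)
    (v : CuspForm (Gamma0 M') 2) (hv : v ≠ 0) (c : ℕ → ℂ)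
    (hT : ∀ (l : ℕ) (hl : l.Prime) (hlM' : ¬ l ∣ M'), l ∉ (↑S : Set ℕ) →
      CuspForm.heckeTLin 2 hl hlM' v = c l • v) :
    ∃ g : CuspForm (Gamma0 M') 2, g.IsNormalizedEigenform ∧
      ∀ l : ℕ, l.Prime → ¬ l ∣ M' → l ∉ S → ModularFormClass.qCoeff g l = c l := by
  obtain ⟨g, hg, h⟩ :=
    eigenform_of_partial_eigenvector_pred M' (fun l => l ∉ (↑S : Set ℕ)) v hv c hT
  exact ⟨g, hg, fun l hl hd hS => h l hl hd (fun hm => hS (Finset.mem_coe.mp hm))⟩

end Fermat.Agent.S40x.A.PartialEigen
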