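import Mathlib
import Fermat.Agent.S40x.A.QSeriesRat
import Fermat.Agent.S40x.A.NewKill

/-!
# P-S44, seam C2 → A: span / scalar-multiplication forms of `QSeriesRat` and `NewKill`

The abstract assembly of block C2 (`S40x/C2/AsmAbs.exists_eigen_of_mem_Xf_of_not_mem_K1`) outputs
`g ∈ S`, `g ≠ 0`, `H_ℓ g = (a_ℓ : k) • g` with `S` the `k`-span of the reduced `q`-expansions of a
saturated integral basis.  Here are the adaptors `exists_lattice_eigen_of_mem_span` and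
`false_of_new_of_mem_span` in exactly that shape (membership in a span, `•` instead of
`HahnSeries.C _ * _`).
-/

set_option autoImplicit false
set_option linter.unusedSectionVars false
set_option linter.style.haveILetI false

noncomputable section

namespace Fermat.Agent.S40x.A.QSeriesSpan

open CuspForm CongruenceSubgroup UpperHalfPlane

/-- the `k`-span of the reduced `q`-expansions -/
def redSpan (k : Type) [Field k] {r : ℕ} (qf : Fin r → PowerSeries ℤ) :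
    Submodule k (LaurentSeries k) :=
  Submodule.span k (Set.range fun i =>
    HahnSeries.ofPowerSeries ℤ k ((qf i).map (Int.castRingHom k)))

theorem exists_comb_of_mem_redSpan {k : Type} [Field k] {r : ℕ} {qf : Fin r → PowerSeries ℤ}
    {g : LaurentSeries k} (hg : g ∈ redSpan k qf) :
    ∃ c : Fin r → k, g = ∑ i, HahnSeries.C (c i) *
      HahnSeries.ofPowerSeries ℤ k ((qf i).map (Int.castRingHom k)) := by
  obtain ⟨c, hc⟩ := (Submodule.mem_span_range_iff_exists_fun k).mp hg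
  refine ⟨c, ?_⟩
  rw [← hc]
  refine Finset.sum_congr rfl fun i _ => ?_
  rw [HahnSeries.C_mul_eq_smul]

variable {M' p : ℕ} [NeZero M']

/-- **A6'-RAT, span form.** -/
theorem exists_lattice_eigen_of_mem_span (hp : p.Prime)
    {k : Type} [Field k] [CharP k p] {r : ℕ}
    (f : Fin r → CuspForm (Gamma0 M') 2) (qf : Fin r → PowerSeries ℤ)
    (hqf : ∀ i, qExpansion 1 (f i) = (qf i).map (Int.castRingHom ℂ))
    (hsat : LinearIndependent (ZMod p) (fun i => (qf i).map (Int.castRingHom (ZMod p))))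
    (g : LaurentSeries k) (hgS : g ∈ redSpan k qf) (hg0 : g ≠ 0) (I : Set ℕ) (a : ℕ → ℤ)
    (heig : ∀ (l : ℕ) (hl : l.Prime), ¬ l ∣ M' → l ∈ I →
      haveI : NeZero l := ⟨hl.ne_zero⟩
      Fermat.Agent.S40x.C2.DlogHecke.heckeT l g = ((a l : ℤ) : k) • g) :
    ∃ g0 ∈ CuspForm.intLattice M' 2, (∀ y ∈ CuspForm.intLattice M' 2, g0 ≠ (p : ℤ) • y) ∧
      ∀ (l : ℕ) (hl : l.Prime) (hlM : ¬ l ∣ M'), l ∈ I →
        ∃ y ∈ CuspForm.intLattice M' 2,
          CuspForm.heckeTLin 2 hl hlM g0 - a l • g0 = (p : ℤ) • y := by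
  obtain ⟨c, hc⟩ := exists_comb_of_mem_redSpan hgS
  refine Fermat.Agent.S40x.A.QSeriesRat.exists_lattice_eigen_of_qseries hp f qf hqf hsat c g hc
    hg0 I a (fun l hl hlM hlI => ?_)
  rw [HahnSeries.C_mul_eq_smul]
  exact heig l hl hlM hlI

/-- **NEWKILL, span form.** -/
theorem false_of_new_of_mem_span [NeZero p] (hp : p.Prime) (S : Finset ℕ)
    (hNS : ∀ q : ℕ, q.Prime → q ∣ M' * p → q ∈ (↑S : Set ℕ))
    (θ : CuspForm.heckeAlgebra (M' * p) 2 (↑S : Set ℕ) →+* ZMod p)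
    (hnew : ∃ h : CuspForm.heckeAlgebra (M' * p) 2 (↑S : Set ℕ),
      θ h ≠ 0 ∧ Fermat.Agent.S35x.levelHom hNS h = 0)
    (a : ℕ → ℤ)
    (hθa : ∀ (l : ℕ) (hl : l.Prime) (hlN : ¬ l ∣ M' * p) (hlS : l ∉ (↑S : Set ℕ)),
      θ (CuspForm.heckeAlgebra.T hl hlN hlS) = ((a l : ℤ) : ZMod p))
    {k : Type} [Field k] [CharP k p] {r : ℕ}
    (f : Fin r → CuspForm (Gamma0 M') 2) (qf : Fin r → PowerSeries ℤ)
    (hqf : ∀ i, qExpansion 1 (f i) = (qf i).map (Int.castRingHom ℂ))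
    (hsat : LinearIndependent (ZMod p) (fun i => (qf i).map (Int.castRingHom (ZMod p))))
    (g : LaurentSeries k) (hgS : g ∈ redSpan k qf) (hg0 : g ≠ 0)
    (heig : ∀ (l : ℕ) (hl : l.Prime), ¬ l ∣ M' → l ∉ (↑S : Set ℕ) →
      haveI : NeZero l := ⟨hl.ne_zero⟩
      Fermat.Agent.S40x.C2.DlogHecke.heckeT l g = ((a l : ℤ) : k) • g) :
    False := by
  obtain ⟨c, hc⟩ := exists_comb_of_mem_redSpan hgS
  refine Fermat.Agent.S40x.A.NewKill.false_of_new_of_qseries hp S hNS θ hnew a hθa f qf hqf hsat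
    c g hc hg0 (fun l hl hlM hlS => ?_)
  rw [HahnSeries.C_mul_eq_smul]
  exact heig l hl hlM hlS

/-- Variant with the eigenvalues given by `θ` itself: `H_ℓ g = (θ (T_ℓ)).val • g`. -/
theorem false_of_new_of_mem_span_theta [NeZero p] (hp : p.Prime) (S : Finset ℕ)
    (hNS : ∀ q : ℕ, q.Prime → q ∣ M' * p → q ∈ (↑S : Set ℕ))
    (θ : CuspForm.heckeAlgebra (M' * p) 2 (↑S : Set ℕ) →+* ZMod p)
    (hnew : ∃ h : CuspForm.heckeAlgebra (M' * p) 2 (↑S : Set ℕ),
      θ h ≠ 0 ∧ Fermat.Agent.S35x.levelHom hNS h = 0)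
    {k : Type} [Field k] [CharP k p] {r : ℕ}
    (f : Fin r → CuspForm (Gamma0 M') 2) (qf : Fin r → PowerSeries ℤ)
    (hqf : ∀ i, qExpansion 1 (f i) = (qf i).map (Int.castRingHom ℂ))
    (hsat : LinearIndependent (ZMod p) (fun i => (qf i).map (Int.castRingHom (ZMod p))))
    (g : LaurentSeries k) (hgS : g ∈ redSpan k qf) (hg0 : g ≠ 0)
    (heig : ∀ (l : ℕ) (hl : l.Prime) (hlN : ¬ l ∣ M' * p) (hlS : l ∉ (↑S : Set ℕ)),
      haveI : NeZero l := ⟨hl.ne_zero⟩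
      Fermat.Agent.S40x.C2.DlogHecke.heckeT l g =
        (((θ (CuspForm.heckeAlgebra.T hl hlN hlS)).val : ℤ) : k) • g) :
    False := by
  classical
  haveI : Fact p.Prime := ⟨hp⟩
  let a : ℕ → ℤ := fun l =>
    if h : l.Prime ∧ ¬ l ∣ M' * p ∧ l ∉ (↑S : Set ℕ) then
      ((θ (CuspForm.heckeAlgebra.T h.1 h.2.1 h.2.2)).val : ℤ) else 0
  have ha : ∀ (l : ℕ) (hl : l.Prime) (hlN : ¬ l ∣ M' * p) (hlS : l ∉ (↑S : Set ℕ)),
      a l = ((θ (CuspForm.heckeAlgebra.T hl hlN hlS)).val : ℤ) := by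
    intro l hl hlN hlS
    simp only [a]
    rw [dif_pos ⟨hl, hlN, hlS⟩]
  refine false_of_new_of_mem_span hp S hNS θ hnew a (fun l hl hlN hlS => ?_) f qf hqf hsat g hgS
    hg0 (fun l hl hlM hlS => ?_)
  · rw [ha l hl hlN hlS, Int.cast_natCast, ZMod.natCast_zmod_val]
  · have hlN : ¬ l ∣ M' * p := fun hd => hlS (hNS l hl hd)
    rw [ha l hl hlN hlS]
    exact heig l hl hlN hlS

end Fermat.Agent.S40x.A.QSeriesSpan
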