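import Mathlib
import Fermat.Agent.S40x.A.S44Skeleton2
import Fermat.Agent.S40x.A.CopyFinal
import Fermat.Agent.S40x.A.CopyFrey

/-!
# P-S44, block A (helper21): the leaf `LeafA3` of `S44Skeleton2` is a theorem

`tData hp hpS hNS` of `S44Skeleton2` is definitionally `CopyFinal.data N S hp hpS hNS` (helper55);
`LeafA3` follows from the landed `CopyFrey.exists_copy_frey` and `CopyFinal.eigenspace_data_ne_bot`.
Hence `s44_of_leaves'`: the frozen statement S44 from the FOUR remaining leaves
`LeafB`, `LeafGEO`, `LeafA5`, `LeafA6`.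
-/

set_option autoImplicit false
set_option linter.unusedSectionVars false
set_option linter.style.haveILetI false

noncomputable section

namespace Fermat.Agent.S40x.A.S44LeafA3

open CuspForm WeierstrassCurve WeierstrassCurve.Affine WeierstrassCurve.Affine.Point
open Fermat.Agent.Gateway.S31Red Fermat.Agent.S13 Fermat.Agent.S40x.A1.Theta
  Fermat.Agent.S40x.A.CopyInTorsion Fermat.Agent.S40x.A.S44Skeleton2

attribute [local instance] Fermat.Agent.S40x.A.CopyInTorsion.zmodModule
attribute [local instance] Fermat.Agent.S40x.A.S44Skeleton2.fact_prime_p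

/-- the two names of the concrete torsion data agree -/
theorem tData_eq_data {p N : ℕ} [NeZero N] {S : Finset ℕ} (hp : p.Prime) (hpS : p ∈ S)
    (hNS : ∀ q : ℕ, q.Prime → q ∣ N → q ∈ S) :
    tData hp hpS hNS = Fermat.Agent.S40x.A.CopyFinal.data N S hp hpS hNS := rfl

/-- **(A3)** is a theorem. -/
theorem leafA3 : LeafA3 := by
  intro P N _ W hW hΔ hirr hpS hNS θ hθ
  have hne : eigenspace (tData P.pp hpS hNS) θ ≠ ⊥ :=
    Fermat.Agent.S40x.A.CopyFinal.eigenspace_data_ne_bot N (levelSet N W) P.pp hpS hNS θ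
  have hSW : ∀ q : ℕ, q.Prime → ¬ W.IsGoodPrimeFor q → q ∈ levelSet N W := by
    intro q hq hbad
    by_contra hmem
    exact hbad (isGoodPrimeFor_of_notMem_levelSet hΔ hq hmem)
  exact Fermat.Agent.S40x.A.CopyFrey.exists_copy_frey P hW hirr (tData P.pp hpS hNS) hpS hSW θ hθ
    hne

/-- **The frozen statement S44 from the four remaining leaves.** -/
theorem s44_of_leaves' (hB : LeafB) (hGEO : LeafGEO) (hA5 : LeafA5) (hA6 : LeafA6)
    (P : FreyPackage) {N : ℕ} (hcond : P.IsConductorLevel N) (hpN : P.p ∣ N)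
    (hirr : GaloisRepIsIrreducible (K := AlgebraicClosure ℚ) ℚ P.freyCurve P.p)
    (hmod : P.ModularRepOfLevel N) :
    ∃ M : ℕ, M ∣ N ∧ ¬ P.p ∣ M ∧ P.ModularRepOfLevel M :=
  s44_of_leaves leafA3 hB hGEO hA5 hA6 P hcond hpN hirr hmod

end Fermat.Agent.S40x.A.S44LeafA3
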