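import Mathlib
import Fermat.Agent.S40x.A.S44Skeleton2
import Fermat.Agent.S40x.A.S44LeafA3

/-!
# P-S44, block A (helper21, independent second of (A5)): the leaf `LeafA5` of `S44Skeleton2`
is a theorem

The push-forward `torsMap Pmap (p ^ 1) x` (`Pmap = degAlpha M' p` or `degBeta M' p`) of a
`θ`-eigenclass `x` of `J₀(M' p)[p]` is an eigenclass of `T_l` (`l ∉ S`) at level `M'` with
eigenvalue `θ (T_l)`: landed `degAlpha_eta` / `degBeta_eta` + `levelHom_T`
(`S35x/Degeneracy/HeckeES`, `S35x/LevelHom`), additivity of `torsMap`.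
-/

set_option autoImplicit false
set_option linter.unusedSectionVars false
set_option linter.style.haveILetI false

noncomputable section

namespace Fermat.Agent.S40x.A.S44LeafA5

open CuspForm ModularCurve AlgebraicCurve
open Fermat.Agent.Gateway.S31Red Fermat.Agent.S35x.Degeneracy Fermat.Agent.S35x
  Fermat.Agent.S40x.A.CopyInTorsion Fermat.Agent.S40x.A.S44Skeleton2

attribute [local instance] Fermat.Agent.S40x.A.CopyInTorsion.zmodModule

/-- **(A5)** is a theorem. -/
theorem leafA5 : LeafA5 := by
  intro p M' _ _ _ _ hp S hpS hNS hNS' θ x hx Pmap hPmap y hy l hl hlM' hlN hlS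
  subst hy
  have hNSset : ∀ q : ℕ, q.Prime → q ∣ M' * p → q ∈ (↑S : Set ℕ) := fun q hq h =>
    Finset.mem_coe.mpr (hNS q hq h)
  have hmS : ∀ q : ℕ, q.Prime → q ∣ p ^ 1 → q ∈ S := by
    intro q hq h
    rw [pow_one] at h
    rw [(Nat.prime_dvd_prime_iff_eq hq hp).mp h]
    exact hpS
  have h6 := Fermat.Agent.Gateway.Export.torsionEichlerShimura
    (Fermat.Agent.Gateway.Export.partCInputs Fermat.Agent.Gateway.Export.c0Good (M' * p))
  have h6' := Fermat.Agent.Gateway.Export.torsionEichlerShimura
    (Fermat.Agent.Gateway.Export.partCInputs Fermat.Agent.Gateway.Export.c0Good M')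
  -- the intertwining relation
  have key : torsMap Pmap (p ^ 1)
      ((tData hp hpS hNS).hecke 1 (heckeAlgebra.T hl hlN hlS) x) =
      (tData hp hpS hNS').hecke 1 (heckeAlgebra.T hl hlM' hlS) (torsMap Pmap (p ^ 1) x) := by
    have hT := levelHom_T hNSset hl hlM' hlN hlS
    rcases hPmap with rfl | rfl
    · have := degAlpha_eta h6 h6' hNSset
        (Fermat.Agent.Gateway.Export.heckeTorsionAction (M' * p)
          (Fermat.Agent.Gateway.Export.coreInputs (M' * p)
            (Fermat.Agent.Gateway.Export.d5Input (M' * p))) S hNS)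
        (Fermat.Agent.Gateway.Export.heckeTorsionAction M'
          (Fermat.Agent.Gateway.Export.coreInputs M' (Fermat.Agent.Gateway.Export.d5Input M'))
          S hNS')
        (pow_pos hp.pos 1) hmS (heckeAlgebra.T hl hlN hlS) x
      rw [hT] at this
      exact this
    · have := degBeta_eta h6 h6' hNSset
        (Fermat.Agent.Gateway.Export.heckeTorsionAction (M' * p)
          (Fermat.Agent.Gateway.Export.coreInputs (M' * p)
            (Fermat.Agent.Gateway.Export.d5Input (M' * p))) S hNS)
        (Fermat.Agent.Gateway.Export.heckeTorsionAction M'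
          (Fermat.Agent.Gateway.Export.coreInputs M' (Fermat.Agent.Gateway.Export.d5Input M'))
          S hNS')
        (pow_pos hp.pos 1) hmS (heckeAlgebra.T hl hlN hlS) x
      rw [hT] at this
      exact this
  rw [← key, hx (heckeAlgebra.T hl hlN hlS)]
  -- additivity
  let f : (tData hp hpS hNS).M 1 →+ (tData hp hpS hNS').M 1 := torsMap Pmap (p ^ 1)
  exact (AddMonoidHom.toZModLinearMap p f).map_smul (θ (heckeAlgebra.T hl hlN hlS)) x

/-- **The frozen statement S44 from the THREE remaining leaves** `LeafB` (freyLocalShape),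
`LeafGEO`, `LeafA6` (DS lift from a torsion class). -/
theorem s44_of_three (hB : LeafB) (hGEO : LeafGEO) (hA6 : LeafA6)
    (P : FreyPackage) {N : ℕ} (hcond : P.IsConductorLevel N) (hpN : P.p ∣ N)
    (hirr : WeierstrassCurve.Affine.Point.GaloisRepIsIrreducible (K := AlgebraicClosure ℚ) ℚ
      P.freyCurve P.p)
    (hmod : P.ModularRepOfLevel N) :
    ∃ M : ℕ, M ∣ N ∧ ¬ P.p ∣ M ∧ P.ModularRepOfLevel M :=
  Fermat.Agent.S40x.A.S44LeafA3.s44_of_leaves' hB hGEO leafA5 hA6 P hcond hpN hirr hmod

end Fermat.Agent.S40x.A.S44LeafA5
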