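import Fermat.Statements.S44
import Fermat.Agent.S13.Global
import Fermat.Agent.S35x.Degeneracy.HeckeES
import Fermat.Agent.S33x.Consumer.Final
import Fermat.Agent.S41.NonEis.Main
import Fermat.Agent.S56x.Flat.InertiaField
import Fermat.Agent.Lib.FrobeniusExists

/-!
# P-S44, Block A: the hypothesis-style skeleton of S44 (helper95)

The frozen statement S44 (Mazur-Ribet at `p` for the Frey curve) from FOUR black boxes whose
literals are frozen here: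

* `CopyStatement` (leaves A1 + A2 + A3 + A-TR): `θ : 𝕋_S(M' p) → 𝔽_p` with `θ(T_ℓ) = a_ℓ(W)` and an
  injective `G_ℚ`-equivariant `j : E[p] → J₀(M' p)[p]` with image in the `θ`-eigenspace;
* `LocalShapeStatement` (Block B, helper45's `freyLocalShape`): the local shape of `E[p]` at `p`;
* `GeoStatement` (GEO = blocks R1 + C2 + C3 + S33): `(α_*, β_*)` does not kill `V`;
* `OldLiftStatement` (leaves A5 + A6): a `θ`-eigenclass not killed by `(α_*, β_*)` gives a normalised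
  eigenform of level `M'` congruent to `W`.
-/

set_option autoImplicit false
set_option linter.unusedSectionVars false
set_option linter.unusedVariables false
set_option linter.style.haveILetI false

noncomputable section

namespace Fermat.Agent.S40x.A.S44Skeleton

open WeierstrassCurve WeierstrassCurve.Affine WeierstrassCurve.Affine.Point
open Fermat.Agent.Gateway.S31Red Fermat.Agent.S13 Fermat.Agent.S35x.Degeneracy
open Fermat.Agent.S56x.Flat.InertiaField FreyPackage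

local notation "Γℚ" => (AlgebraicClosure ℚ ≃ₐ[ℚ] AlgebraicClosure ℚ)

/-- the Hecke action on the torsion of `J₀(N)` (the landed export). -/
def etaAt (N : ℕ) [NeZero N] (S : Finset ℕ) (hNS : ∀ q : ℕ, q.Prime → q ∣ N → q ∈ S) :
    HeckeTorsionAction N S :=
  Fermat.Agent.Gateway.Export.heckeTorsionAction N
    (Fermat.Agent.Gateway.Export.coreInputs N (Fermat.Agent.Gateway.Export.d5Input N)) S hNS

/-- **Leaves A1 + A2 + A3 + A-TR.** -/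
def CopyStatement : Prop :=
  ∀ (P : FreyPackage) (M' : ℕ) [NeZero (M' * P.p)] (W : WeierstrassCurve ℤ)
    (hW : W.IsIntegralModelOf P.freyCurve)
    (hirr : GaloisRepIsIrreducible (K := AlgebraicClosure ℚ) ℚ P.freyCurve P.p)
    (hres : W.IsResiduallyModularOfLevel P.p (M' * P.p))
    (S : Finset ℕ) (hpS : P.p ∈ S) (hNS : ∀ q : ℕ, q.Prime → q ∣ M' * P.p → q ∈ S)
    (hSW : ∀ q : ℕ, q.Prime → (q : ℤ) ∣ W.Δ → q ∈ S),
    ∃ θ : CuspForm.heckeAlgebra (M' * P.p) 2 (↑S : Set ℕ) →+* ZMod P.p,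
      (∀ (ℓ : ℕ) (hℓ : ℓ.Prime) (hℓN : ¬ ℓ ∣ M' * P.p) (hℓS : ℓ ∉ (↑S : Set ℕ)),
        θ (CuspForm.heckeAlgebra.T hℓ hℓN hℓS) = ((W.apOfModel ℓ : ℤ) : ZMod P.p)) ∧
      ∃ j : Tors P →+ JTors (M' * P.p) (P.p ^ 1), Function.Injective j ∧
        (∀ (σ : Γℚ) (v : Tors P), j (σ • v) = galTors (M' * P.p) (P.p ^ 1) σ (j v)) ∧
        (∀ (t : CuspForm.heckeAlgebra (M' * P.p) 2 (↑S : Set ℕ)) (v : Tors P),
          (etaAt (M' * P.p) S hNS).eta (P.p ^ 1) (pow_pos P.pp.pos 1) t (j v) = (θ t).val • j v)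

/-- **Block B** (helper45's `freyLocalShape`, note 2602). -/
def LocalShapeStatement : Prop :=
  ∀ (P : FreyPackage) (hmult : (P.p : ℤ) ∣ P.a * P.b * P.c) (B : ValuationSubring Qbar)
    (hB : B.LiesOverPrime P.p),
    ∃ T1 : Submodule (ZMod P.p) (Tors P), T1 ≠ ⊤ ∧
      (∀ σ ∈ B.inertiaSubgroupIn ℚ, ∀ x : Tors P, σ • x - x ∈ T1) ∧
      (∀ σ ∈ B.inertiaSubgroupIn ℚ, ∀ a : ℕ, (∀ ζ : Qbar, ζ ^ P.p = 1 → σ ζ = ζ ^ a) →
        ∀ s ∈ T1, σ • s = a • s) ∧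
      (∀ τ ∈ B.inertiaSubgroupIn ℚ,
        (∀ b : Qbar, b ^ P.p ∈ inertiaInt B → b ^ P.p ∉ B.nonunits → τ b = b) →
        ∀ x : Tors P, τ • x = x)

/-- **GEO** (blocks R1 + C2 + C3 + S33): the degeneracy push-forwards do not kill `V`. -/
def GeoStatement : Prop :=
  ∀ (p M' : ℕ) [NeZero M'] [NeZero p] [NeZero (M' * p)] (hp : p.Prime) (hp5 : 5 ≤ p)
    (hpM' : ¬ p ∣ M') (hsq : Squarefree (M' * p))
    (S : Finset ℕ) (hpS : p ∈ S) (hNS : ∀ q : ℕ, q.Prime → q ∣ M' * p → q ∈ S)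
    (θ : CuspForm.heckeAlgebra (M' * p) 2 (↑S : Set ℕ) →+* ZMod p)
    (hNE : ∃ (ℓ : ℕ) (hℓ : ℓ.Prime) (hℓN : ¬ ℓ ∣ M' * p) (hℓS : ℓ ∉ (↑S : Set ℕ)),
      θ (CuspForm.heckeAlgebra.T hℓ hℓN hℓS) ≠ (ℓ : ZMod p) + 1)
    (V L : AddSubgroup (JTors (M' * p) (p ^ 1))) (hLV : L ≤ V) (hLne : L ≠ V)
    (hVgal : ∀ σ : Γℚ, ∀ x ∈ V, galTors (M' * p) (p ^ 1) σ x ∈ V)
    (hVθ : ∀ x ∈ V, ∀ t : CuspForm.heckeAlgebra (M' * p) 2 (↑S : Set ℕ),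
      (etaAt (M' * p) S hNS).eta (p ^ 1) (pow_pos hp.pos 1) t x = (θ t).val • x)
    (B : ValuationSubring Qbar) (hB : B.LiesOverPrime p)
    (hb : ∀ σ ∈ B.inertiaSubgroupIn ℚ, ∀ x ∈ V, galTors (M' * p) (p ^ 1) σ x - x ∈ L)
    (hc : ∀ σ ∈ B.inertiaSubgroupIn ℚ, ∀ a : ℕ, (∀ ζ : Qbar, ζ ^ p = 1 → σ ζ = ζ ^ a) →
      ∀ s ∈ L, galTors (M' * p) (p ^ 1) σ s = a • s)
    (hd : ∀ τ ∈ B.inertiaSubgroupIn ℚ,
      (∀ b : Qbar, b ^ p ∈ inertiaInt B → b ^ p ∉ B.nonunits → τ b = b) →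
      ∀ x ∈ V, galTors (M' * p) (p ^ 1) τ x = x),
    ∃ x ∈ V, torsMap (degAlpha M' p) (p ^ 1) x ≠ 0 ∨ torsMap (degBeta M' p) (p ^ 1) x ≠ 0

/-- **Leaves A5 + A6.** -/
def OldLiftStatement : Prop :=
  ∀ (p M' : ℕ) [NeZero M'] [NeZero p] [NeZero (M' * p)] (hp : p.Prime)
    (S : Finset ℕ) (hpS : p ∈ S) (hNS : ∀ q : ℕ, q.Prime → q ∣ M' * p → q ∈ S)
    (θ : CuspForm.heckeAlgebra (M' * p) 2 (↑S : Set ℕ) →+* ZMod p) (a : ℕ → ℤ)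
    (hθ : ∀ (ℓ : ℕ) (hℓ : ℓ.Prime) (hℓN : ¬ ℓ ∣ M' * p) (hℓS : ℓ ∉ (↑S : Set ℕ)),
      θ (CuspForm.heckeAlgebra.T hℓ hℓN hℓS) = ((a ℓ : ℤ) : ZMod p))
    (x : JTors (M' * p) (p ^ 1))
    (hx : ∀ t : CuspForm.heckeAlgebra (M' * p) 2 (↑S : Set ℕ),
      (etaAt (M' * p) S hNS).eta (p ^ 1) (pow_pos hp.pos 1) t x = (θ t).val • x)
    (hy : torsMap (degAlpha M' p) (p ^ 1) x ≠ 0 ∨ torsMap (degBeta M' p) (p ^ 1) x ≠ 0),
    ∃ (g : CuspForm (CongruenceSubgroup.Gamma0 M') 2) (𝔪' : Ideal (integralClosure ℤ ℂ)),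
      g.IsNormalizedEigenform ∧ 𝔪'.IsMaximal ∧ (p : integralClosure ℤ ℂ) ∈ 𝔪' ∧
      ∀ ℓ : ℕ, ℓ.Prime → ¬ ℓ ∣ M' * p → ℓ ∉ S →
        ∃ c : integralClosure ℤ ℂ, (c : ℂ) = ModularFormClass.qCoeff g ℓ ∧
          c - (a ℓ : integralClosure ℤ ℂ) ∈ 𝔪'

instance isElliptic_freyCurveQ (P : FreyPackage) : P.freyCurve.IsElliptic :=
  ⟨(freyCurve_Δ_ne_zero P).isUnit⟩

/-- **S44 from the four black boxes.** -/
theorem s44_of_leaves (hCopy : CopyStatement) (hLoc : LocalShapeStatement) (hGeo : GeoStatement)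
    (hOld : OldLiftStatement)
    (P : FreyPackage) {N : ℕ} (hcond : P.IsConductorLevel N) (hpN : P.p ∣ N)
    (hirr : GaloisRepIsIrreducible (K := AlgebraicClosure ℚ) ℚ P.freyCurve P.p)
    (hmod : P.ModularRepOfLevel N) :
    ∃ M : ℕ, M ∣ N ∧ ¬ P.p ∣ M ∧ P.ModularRepOfLevel M := by
  obtain ⟨M', rfl⟩ : ∃ M', N = M' * P.p := ⟨N / P.p, (Nat.div_mul_cancel hpN).symm⟩
  have hp : P.p.Prime := P.pp
  have hp2 : P.p ≠ 2 := by have := P.hp5; omega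
  have hNpos : 0 < M' * P.p := hcond.pos
  have hM'pos : 0 < M' := Nat.pos_of_ne_zero (fun h => by rw [h, zero_mul] at hNpos; exact lt_irrefl _ hNpos)
  haveI : NeZero M' := ⟨hM'pos.ne'⟩
  haveI : NeZero P.p := ⟨hp.ne_zero⟩
  haveI : NeZero (M' * P.p) := ⟨hNpos.ne'⟩
  have hpM' : ¬ P.p ∣ M' := by
    intro h
    refine hcond.sq_not_dvd hp ?_
    rw [pow_two]
    exact Nat.mul_dvd_mul h (dvd_refl _)
  obtain ⟨f, W, 𝔪, hf, hW, hmax, hpm, hcong⟩ := hmod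
  have hres : W.IsResiduallyModularOfLevel P.p (M' * P.p) := ⟨f, 𝔪, hf, hmax, hpm, hcong⟩
  have hΔ : W.Δ ≠ 0 :=
    Fermat.Agent.S41.NonEis.Δ_ne_zero_of_isIntegralModelOf P.freyCurve hW
  -- the set `S`
  set S : Finset ℕ := (M' * P.p).primeFactors ∪ W.Δ.natAbs.primeFactors with hS
  have hNS : ∀ q : ℕ, q.Prime → q ∣ M' * P.p → q ∈ S := fun q hq hqN =>
    Finset.mem_union_left _ (Nat.mem_primeFactors.mpr ⟨hq, hqN, hNpos.ne'⟩)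
  have hpS : P.p ∈ S := hNS _ hp (dvd_mul_left _ _)
  have hSW : ∀ q : ℕ, q.Prime → (q : ℤ) ∣ W.Δ → q ∈ S := fun q hq hqΔ =>
    Finset.mem_union_right _ (Nat.mem_primeFactors.mpr
      ⟨hq, Int.natCast_dvd.mp hqΔ, Int.natAbs_ne_zero.mpr hΔ⟩)
  have hnotS : ∀ ℓ : ℕ, ℓ.Prime → W.IsGoodPrimeFor ℓ → ¬ ℓ ∣ M' * P.p → ℓ ∉ S := by
    intro ℓ hℓ hgood hℓN hℓS
    rcases Finset.mem_union.mp hℓS with h | h
    · exact hℓN (Nat.mem_primeFactors.mp h).2.1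
    · exact hgood (Int.natCast_dvd.mpr (Nat.mem_primeFactors.mp h).2.1)
  obtain ⟨θ, hθ, j, hjinj, hjgal, hjθ⟩ := hCopy P M' W hW hirr hres S hpS hNS hSW
  -- a non-Eisenstein prime
  obtain ⟨l, hl, hlS, -, hlp, hlgood, hlne⟩ :=
    Fermat.Agent.S41.NonEis.exists_nonEisenstein_prime P.freyCurve hW hp hp2 hirr 1 one_pos S
  have hlN : ¬ l ∣ M' * P.p := fun h => hlS (hNS l hl h)
  have hlS' : l ∉ (↑S : Set ℕ) := fun h => hlS (Finset.mem_coe.mp h)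
  have hNE : θ (CuspForm.heckeAlgebra.T hl hlN hlS') ≠ (l : ZMod P.p) + 1 := by
    rw [hθ l hl hlN hlS']
    intro h
    apply hlne
    have h2 : ((W.apOfModel l - ((l : ℤ) + 1) : ℤ) : ZMod P.p) = 0 := by
      push_cast
      rw [h]
      ring
    exact (ZMod.intCast_zmod_eq_zero_iff_dvd _ _).mp h2
  -- a place over `p` and the local shape
  obtain ⟨B, hB⟩ := Fermat.Agent.Lib.exists_valuationSubring_liesOverPrime (L := Qbar) P.p hp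
  obtain ⟨T1, hT1, hb, hc, hd⟩ := hLoc P (hcond.p_dvd_abc hpN) B hB
  -- `V` and `L`
  set V : AddSubgroup (JTors (M' * P.p) (P.p ^ 1)) := j.range with hV
  set L : AddSubgroup (JTors (M' * P.p) (P.p ^ 1)) := T1.toAddSubgroup.map j with hL
  have hLV : L ≤ V := by
    rintro _ ⟨s, -, rfl⟩
    exact ⟨s, rfl⟩
  have hLne : L ≠ V := by
    intro h
    apply hT1
    rw [eq_top_iff]
    intro v _
    have hv : j v ∈ L := by rw [h]; exact ⟨v, rfl⟩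
    obtain ⟨s, hs, hsv⟩ := hv
    rw [← hjinj hsv]
    exact hs
  have hVgal : ∀ σ : Γℚ, ∀ x ∈ V, galTors (M' * P.p) (P.p ^ 1) σ x ∈ V := by
    rintro σ _ ⟨v, rfl⟩
    exact ⟨σ • v, hjgal σ v⟩
  have hVθ : ∀ x ∈ V, ∀ t : CuspForm.heckeAlgebra (M' * P.p) 2 (↑S : Set ℕ),
      (etaAt (M' * P.p) S hNS).eta (P.p ^ 1) (pow_pos hp.pos 1) t x = (θ t).val • x := by
    rintro _ ⟨v, rfl⟩ t
    exact hjθ t v
  have hb' : ∀ σ ∈ B.inertiaSubgroupIn ℚ, ∀ x ∈ V,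
      galTors (M' * P.p) (P.p ^ 1) σ x - x ∈ L := by
    rintro σ hσ _ ⟨v, rfl⟩
    refine ⟨σ • v - v, hb σ hσ v, ?_⟩
    rw [map_sub, hjgal]
  have hc' : ∀ σ ∈ B.inertiaSubgroupIn ℚ, ∀ a : ℕ,
      (∀ ζ : Qbar, ζ ^ P.p = 1 → σ ζ = ζ ^ a) →
      ∀ s ∈ L, galTors (M' * P.p) (P.p ^ 1) σ s = a • s := by
    rintro σ hσ a ha _ ⟨s, hs, rfl⟩
    rw [← hjgal, hc σ hσ a ha s hs, map_nsmul]
  have hd' : ∀ τ ∈ B.inertiaSubgroupIn ℚ,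
      (∀ b : Qbar, b ^ P.p ∈ inertiaInt B → b ^ P.p ∉ B.nonunits → τ b = b) →
      ∀ x ∈ V, galTors (M' * P.p) (P.p ^ 1) τ x = x := by
    rintro τ hτ hfix _ ⟨v, rfl⟩
    rw [← hjgal, hd τ hτ hfix v]
  obtain ⟨x, hxV, hxy⟩ := hGeo P.p M' hp P.hp5 hpM' hcond.squarefree S hpS hNS θ
    ⟨l, hl, hlN, hlS', hNE⟩ V L hLV hLne hVgal hVθ B hB hb' hc' hd'
  obtain ⟨g, 𝔪', hg, hmax', hpm', hcong'⟩ := hOld P.p M' hp S hpS hNS θ
    (fun ℓ => W.apOfModel ℓ) hθ x (hVθ x hxV) hxy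
  refine ⟨M', dvd_mul_right _ _, hpM', g, W, 𝔪', hg, hW, hmax', hpm', ?_⟩
  intro ℓ hℓ hgood hℓM' hℓp
  have hℓN : ¬ ℓ ∣ M' * P.p := by
    intro h
    rcases (Nat.Prime.dvd_mul hℓ).mp h with h1 | h1
    · exact hℓM' h1
    · exact hℓp ((Nat.prime_dvd_prime_iff_eq hℓ hp).mp h1)
  exact hcong' ℓ hℓ hℓN (hnotS ℓ hℓ hgood hℓN)

end Fermat.Agent.S40x.A.S44Skeleton
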