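import Mathlib
import Fermat.Agent.S40x.A.S44Skeleton
import Fermat.Agent.S40x.A.S44LeafA5
import Fermat.Agent.S40x.A.Theta
import Fermat.Agent.S40x.A.CopyFinal
import Fermat.Agent.S40x.A.CopyFrey

/-!
# P-S44, block A (helper21): bridges to the frozen literals of `S44Skeleton` (helper95)

* `copyStatement : CopyStatement` — THEOREM (leaves A1 + A2 + A3 + A-TR, all landed:
  `A.Theta.exists_theta`, `CopyFinal.eigenspace_data_ne_bot`, `CopyFrey.exists_copy_frey`);
* `oldLift_of_A6 : LeafA6 → OldLiftStatement` — (A5) is the theorem `S44LeafA5.leafA5`, so the black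
  box `OldLiftStatement` is reduced to (A6) alone (Deligne–Serre lifting from a torsion class);
* `s44_of_loc_geo_a6` : the frozen statement S44 from `LocalShapeStatement` (Block B),
  `GeoStatement` (GEO) and `LeafA6`.
-/

set_option autoImplicit false
set_option linter.unusedSectionVars false
set_option linter.unusedVariables false
set_option linter.style.haveILetI false

noncomputable section

namespace Fermat.Agent.S40x.A.S44Bridge

open CuspForm ModularCurve AlgebraicCurve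
open WeierstrassCurve WeierstrassCurve.Affine WeierstrassCurve.Affine.Point
open Fermat.Agent.Gateway.S31Red Fermat.Agent.S13 Fermat.Agent.S35x.Degeneracy
open Fermat.Agent.S40x.A.CopyInTorsion Fermat.Agent.S40x.A.S44Skeleton
open Fermat.Agent.S40x.A.S44Skeleton2 (tData LeafA5 LeafA6)

local notation "Γℚ" => (AlgebraicClosure ℚ ≃ₐ[ℚ] AlgebraicClosure ℚ)

attribute [local instance] Fermat.Agent.S40x.A.CopyInTorsion.zmodModule

/-- the `ZMod p`-scalar multiplication on `D.M 1` is multiplication by the value -/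
theorem zmod_smul_eq_val_nsmul {p N : ℕ} [Fact p.Prime] [NeZero N] {S : Finset ℕ}
    (D : TorsionHeckeData p N S) (c : ZMod p) (x : D.M 1) : c • x = c.val • x := by
  rw [← Nat.cast_smul_eq_nsmul (ZMod p) c.val x, ZMod.natCast_zmod_val]

/-- **`CopyStatement` is a theorem.** -/
theorem copyStatement : CopyStatement := by
  intro P M' _ W hW hirr hres S hpS hNS hSW
  have hp : P.p.Prime := P.pp
  haveI : Fact P.p.Prime := ⟨hp⟩
  have hSW' : ∀ q : ℕ, q.Prime → ¬ W.IsGoodPrimeFor q → q ∈ S := fun q hq hbad =>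
    hSW q hq (not_not.mp hbad)
  obtain ⟨θ, hθ⟩ := Fermat.Agent.S40x.A.Theta.exists_theta W hp S hNS hpS hSW' hres
  refine ⟨θ, hθ, ?_⟩
  have hne := Fermat.Agent.S40x.A.CopyFinal.eigenspace_data_ne_bot (M' * P.p) S hp hpS hNS θ
  obtain ⟨j, hj, hjθ, hjg⟩ := Fermat.Agent.S40x.A.CopyFrey.exists_copy_frey P hW hirr
    (Fermat.Agent.S40x.A.CopyFinal.data (M' * P.p) S hp hpS hNS) hpS hSW' θ hθ hne
  refine ⟨(j : Tors P →+ (Fermat.Agent.S40x.A.CopyFinal.data (M' * P.p) S hp hpS hNS).M 1), hj,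
    fun σ v => hjg σ v, fun t v => ?_⟩
  have h1 := hjθ v t
  rw [zmod_smul_eq_val_nsmul] at h1
  exact h1

/-- **`OldLiftStatement` from (A6)** ((A5) is a theorem). -/
theorem oldLift_of_A6 (hA6 : LeafA6) : OldLiftStatement := by
  intro p M' _ _ _ hp S hpS hNS θ a hθ x hx hy
  haveI : Fact p.Prime := ⟨hp⟩
  have hNS' : ∀ q : ℕ, q.Prime → q ∣ M' → q ∈ S := fun q hq hqM' =>
    hNS q hq (hqM'.trans (dvd_mul_right M' p))
  -- `x` as a `θ`-eigenclass of the torsion data
  obtain ⟨x', hx'⟩ : ∃ x' : (tData hp hpS hNS).M 1, x' = x := ⟨x, rfl⟩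
  subst hx'
  have hxθ : x' ∈ eigenspace (tData hp hpS hNS) θ := by
    intro t
    rw [zmod_smul_eq_val_nsmul]
    exact hx t
  obtain ⟨Pmap, hPmap, hy0⟩ : ∃ Pmap : JZero (M' * p) →+ JZero M',
      (Pmap = degAlpha M' p ∨ Pmap = degBeta M' p) ∧ torsMap Pmap (p ^ 1) x' ≠ 0 := by
    rcases hy with h | h
    · exact ⟨_, Or.inl rfl, h⟩
    · exact ⟨_, Or.inr rfl, h⟩
  have hfinT : Module.Finite ℤ (heckeAlgebra M' 2 (↑S : Set ℕ)) := Fermat.Agent.S22.result M' 2 _
  obtain ⟨g, m', hg, hm', hpm', hcong⟩ := hA6 p M' S (tData hp hpS hNS') hfinT hNS'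
    (torsMap Pmap (p ^ 1) x') hy0 a
    (fun l hl hlM' hlS => by
      have hlN : ¬ l ∣ M' * p := fun h => hlS (Finset.mem_coe.mpr (hNS l hl h))
      have := Fermat.Agent.S40x.A.S44LeafA5.leafA5 p M' hp S hpS hNS hNS' θ x' hxθ Pmap hPmap _ rfl
        l hl hlM' hlN hlS
      rw [hθ l hl hlN hlS] at this
      exact this)
  refine ⟨g, m', hg, hm', hpm', fun ℓ hℓ hℓN hℓS => ?_⟩
  exact hcong ℓ hℓ (fun h => hℓN (h.trans (dvd_mul_right M' p))) hℓS

/-- **The frozen statement S44 from Block B, GEO and (A6).** -/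
theorem s44_of_loc_geo_a6 (hLoc : LocalShapeStatement) (hGeo : GeoStatement) (hA6 : LeafA6)
    (P : FreyPackage) {N : ℕ} (hcond : P.IsConductorLevel N) (hpN : P.p ∣ N)
    (hirr : GaloisRepIsIrreducible (K := AlgebraicClosure ℚ) ℚ P.freyCurve P.p)
    (hmod : P.ModularRepOfLevel N) :
    ∃ M : ℕ, M ∣ N ∧ ¬ P.p ∣ M ∧ P.ModularRepOfLevel M :=
  s44_of_leaves copyStatement hLoc hGeo (oldLift_of_A6 hA6) P hcond hpN hirr hmod

end Fermat.Agent.S40x.A.S44Bridge
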