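import Fermat.Agent.S40x.A.S44SkeletonV3
import Fermat.Agent.S40x.A.S44LeafA3
import Fermat.Agent.S40x.A.LeafBWProof
import Fermat.Agent.S40x.A.DSLiftChar
import Fermat.Agent.S40x.A1.TwoBad

/-!
# P-S44, block A (helper95): the frozen statement S44 from the single remaining leaf `LeafGEO'`

All the other leaves of `S44SkeletonV3.s44_of_leavesW` are landed theorems:
`S44LeafA3.leafA3` (helper21), `LeafBWProof.leafBW` (helper95, from Block B's `Ell/Iface`),
`DSLiftChar.leafA6'` (helper19), `A1/TwoBad.leaf2S` (helper89).  Hence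

  `s44_of_geo : S44SkeletonV2.LeafGEO' → <frozen statement S44>`.

The final `Fermat/Agent/S44.lean` is `s44_of_geo leafGEO' P hcond hpN hirr hmod`.
-/

set_option autoImplicit false

namespace Fermat.Agent.S40x.A.S44OfGeo

open WeierstrassCurve WeierstrassCurve.Affine WeierstrassCurve.Affine.Point

/-- **S44 from GEO'.** -/
theorem s44_of_geo (hGEO : Fermat.Agent.S40x.A.S44SkeletonV2.LeafGEO')
    (P : FreyPackage) {N : ℕ} (hcond : P.IsConductorLevel N) (hpN : P.p ∣ N)
    (hirr : GaloisRepIsIrreducible (K := AlgebraicClosure ℚ) ℚ P.freyCurve P.p)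
    (hmod : P.ModularRepOfLevel N) :
    ∃ M : ℕ, M ∣ N ∧ ¬ P.p ∣ M ∧ P.ModularRepOfLevel M :=
  Fermat.Agent.S40x.A.S44SkeletonV3.s44_of_leavesW
    Fermat.Agent.S40x.A.S44LeafA3.leafA3
    Fermat.Agent.S40x.A.LeafBWProof.leafBW
    hGEO
    Fermat.Agent.S40x.A.DSLiftChar.leafA6'
    Fermat.Agent.S40x.A1.TwoBad.leaf2S
    P hcond hpN hirr hmod

end Fermat.Agent.S40x.A.S44OfGeo
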