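/-
P-S44, block A (helper66): `2` always lies in the prime set `levelSet N W` of block A.

The frozen `IsConductorLevel N` does NOT force `2 ∣ N` (only: every prime of `N` divides `abc`),
but the geometry blocks work at the auxiliary level `lcm(4, N/p) * p` and therefore need `2 ∈ S`.
This holds because every integral model `W` of the Frey curve has `2 ∣ W.Δ`:
`c₄(W)³ Δ(E) = c₄(E)³ Δ(W)`, `Δ(E) = (abc)^(2p) / 2⁸`, `c₄(E) = A² + AB + B²` is odd and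
`2p ≥ 10 > 8`.

NEW file, imported by nothing.
-/
import Mathlib
import Fermat.Agent.S40x.A1.ThetaCurve

set_option autoImplicit false

namespace Fermat.Agent.S40x.A.TwoMemLevelSet

open WeierstrassCurve Fermat.Agent.S40x.A1.Theta

/-- `c₄` of the Frey curve. -/
theorem freyCurve_c₄ (P : FreyPackage) :
    P.freyCurve.c₄ = ((P.a : ℚ) ^ P.p) ^ 2 + (P.a : ℚ) ^ P.p * (P.b : ℚ) ^ P.p
      + ((P.b : ℚ) ^ P.p) ^ 2 := by
  simp only [WeierstrassCurve.c₄, WeierstrassCurve.b₂, WeierstrassCurve.b₄,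
    FreyPackage.freyCurve]
  ring

theorem odd_a (P : FreyPackage) : ¬ Even P.a := by
  have h4 : (4 : ℤ) ∣ P.a - 3 := by
    have h := (ZMod.intCast_eq_intCast_iff_dvd_sub 3 P.a 4).1
      (by rw [P.ha4]; norm_cast)
    exact_mod_cast h
  rw [Int.even_iff]
  omega

theorem even_b (P : FreyPackage) : Even P.b := by
  have h2 : (2 : ℤ) ∣ P.b := by
    have := (ZMod.intCast_zmod_eq_zero_iff_dvd P.b 2).1 P.hb2
    exact_mod_cast this
  exact even_iff_two_dvd.2 h2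

/-- the integer `A² + AB + B²` (`A = a^p`, `B = b^p`) is odd. -/
theorem not_two_dvd_c₄ (P : FreyPackage) :
    ¬ (2 : ℤ) ∣ (P.a ^ P.p) ^ 2 + P.a ^ P.p * P.b ^ P.p + (P.b ^ P.p) ^ 2 := by
  rw [← even_iff_two_dvd]
  have ha := odd_a P
  have hb := even_b P
  have hp := P.hp0
  simp [Int.even_add, Int.even_pow, ha, hb, hp]

/-- the basic relation between an integral model and the Frey curve, in `ℤ`. -/
theorem c₄_cube_mul_eq (P : FreyPackage) {W : WeierstrassCurve ℤ}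
    (hW : W.IsIntegralModelOf P.freyCurve) :
    W.c₄ ^ 3 * (P.a * P.b * P.c) ^ (2 * P.p)
      = 2 ^ 8 * ((P.a ^ P.p) ^ 2 + P.a ^ P.p * P.b ^ P.p + (P.b ^ P.p) ^ 2) ^ 3 * W.Δ := by
  obtain ⟨C, hC⟩ := hW
  have h1 : (W.map (Int.castRingHom ℚ)).c₄ = ((C.u⁻¹ : ℚˣ) : ℚ) ^ 4 * P.freyCurve.c₄ := by
    rw [← hC, WeierstrassCurve.variableChange_c₄]
  have h2 : (W.map (Int.castRingHom ℚ)).Δ = ((C.u⁻¹ : ℚˣ) : ℚ) ^ 12 * P.freyCurve.Δ := by
    rw [← hC, WeierstrassCurve.variableChange_Δ]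
  rw [WeierstrassCurve.map_c₄] at h1
  rw [WeierstrassCurve.map_Δ] at h2
  have h3 : ((W.c₄ : ℤ) : ℚ) ^ 3 * P.freyCurve.Δ = P.freyCurve.c₄ ^ 3 * ((W.Δ : ℤ) : ℚ) := by
    have e1 : ((W.c₄ : ℤ) : ℚ) = Int.castRingHom ℚ W.c₄ := rfl
    have e2 : ((W.Δ : ℤ) : ℚ) = Int.castRingHom ℚ W.Δ := rfl
    rw [e1, e2, h1, h2]
    ring
  rw [Fermat.Agent.S13.freyCurve_Δ, freyCurve_c₄] at h3
  have h4 : ((W.c₄ ^ 3 * (P.a * P.b * P.c) ^ (2 * P.p) : ℤ) : ℚ)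
      = ((2 ^ 8 * ((P.a ^ P.p) ^ 2 + P.a ^ P.p * P.b ^ P.p + (P.b ^ P.p) ^ 2) ^ 3 * W.Δ : ℤ) : ℚ) := by
    push_cast
    field_simp at h3
    linear_combination h3
  exact_mod_cast h4

/-- **every integral model of the Frey curve has even discriminant.** -/
theorem two_dvd_Δ_of_isIntegralModelOf (P : FreyPackage) {W : WeierstrassCurve ℤ}
    (hW : W.IsIntegralModelOf P.freyCurve) : (2 : ℤ) ∣ W.Δ := by
  have hrel := c₄_cube_mul_eq P hW
  set c4E : ℤ := (P.a ^ P.p) ^ 2 + P.a ^ P.p * P.b ^ P.p + (P.b ^ P.p) ^ 2 with hc4E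
  have h2abc : (2 : ℤ) ∣ P.a * P.b * P.c := P.two_dvd_abc
  have h9 : (2 : ℤ) ^ 9 ∣ (P.a * P.b * P.c) ^ (2 * P.p) := by
    have h5 := P.hp5
    calc (2 : ℤ) ^ 9 ∣ 2 ^ (2 * P.p) := pow_dvd_pow 2 (by omega)
      _ ∣ (P.a * P.b * P.c) ^ (2 * P.p) := pow_dvd_pow_of_dvd h2abc _
  have h10 : (2 : ℤ) ^ 9 ∣ 2 ^ 8 * (c4E ^ 3 * W.Δ) := by
    have : (2 : ℤ) ^ 8 * (c4E ^ 3 * W.Δ) = W.c₄ ^ 3 * (P.a * P.b * P.c) ^ (2 * P.p) := by
      rw [hrel]; ring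
    rw [this]
    exact Dvd.dvd.mul_left h9 _
  have h11 : (2 : ℤ) ∣ c4E ^ 3 * W.Δ := by
    have e : (2 : ℤ) ^ 9 = 2 ^ 8 * 2 := by norm_num
    rw [e] at h10
    exact (mul_dvd_mul_iff_left (by norm_num : (2 : ℤ) ^ 8 ≠ 0)).1 h10
  rcases (Int.prime_two.dvd_mul).1 h11 with h | h
  · exact absurd (Int.prime_two.dvd_of_dvd_pow h) (not_two_dvd_c₄ P)
  · exact h

/-- **`2 ∈ levelSet N W`** for every integral model `W` of the Frey curve. -/
theorem two_mem_levelSet (P : FreyPackage) (N : ℕ) {W : WeierstrassCurve ℤ}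
    (hW : W.IsIntegralModelOf P.freyCurve) : 2 ∈ levelSet N W := by
  have hΔ : W.Δ ≠ 0 := Δ_ne_zero_of_isIntegralModelOf_freyCurve P hW
  have h2 : (2 : ℤ) ∣ W.Δ := two_dvd_Δ_of_isIntegralModelOf P hW
  refine Finset.mem_union_right _ (Nat.mem_primeFactors.mpr ⟨Nat.prime_two, ?_, ?_⟩)
  · exact Int.natCast_dvd.1 (by exact_mod_cast h2)
  · exact Int.natAbs_ne_zero.2 hΔ

/-- consequence: `2` is never a good prime of an integral model of the Frey curve. -/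
theorem not_isGoodPrimeFor_two (P : FreyPackage) {W : WeierstrassCurve ℤ}
    (hW : W.IsIntegralModelOf P.freyCurve) : ¬ W.IsGoodPrimeFor 2 := by
  intro h
  exact h (by exact_mod_cast two_dvd_Δ_of_isIntegralModelOf P hW)

end Fermat.Agent.S40x.A.TwoMemLevelSet
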